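import Fermat.Agent.ES.KMain

/-!
# S37, package KT : the transposed multiplicative Hecke operator

The Atkin-Lehner involution `W` of `FF (N ℓ)` exchanges the two degeneracy maps
`α, β : FF N → FF (N ℓ)`.  Hence `Norm_β (α h) = Norm_α (β h)`: the transposed multiplicative Hecke
operator is the Hecke operator itself, and the Kronecker congruence of the block KRON applies.
-/

set_option autoImplicit false

namespace Fermat.Agent.S37.KT

open ModularCurve AlgebraicCurve Fermat.Agent.S24 Fermat.Agent.ES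
open P2MW.S_ModularForm_heckeT_slash_eq_self_of_mem_Gamma0.ModularForm.HeckeSlashInvariance
open UpperHalfPlane ModularForm Matrix.SpecialLinearGroup
open scoped MatrixGroups

/-! ### generators of `FF (N ℓ)` -/

section gens

variable (N ℓ : ℕ) [NeZero N] [Fact ℓ.Prime]

/-- `FF (N ℓ)` is generated by the images of the two degeneracy maps. -/
theorem jd_mem_alpha_or_beta (d : ℕ) [NeZero d] (hd : d ∣ N * ℓ) :
    (∃ y : FF N, heckeAlphaBar Kb N ℓ y = jd (N * ℓ) d hd) ∨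
      (∃ y : FF N, heckeBetaBar Kb N ℓ y = jd (N * ℓ) d hd) := by
  have hℓ : ℓ.Prime := Fact.out
  by_cases h : ℓ ∣ d
  · right
    obtain ⟨d', rfl⟩ := h
    have : NeZero d' := ⟨fun h0 => NeZero.ne (ℓ * d') (by rw [h0, mul_zero])⟩
    have hd' : d' ∣ N := by
      rw [mul_comm N ℓ] at hd
      exact Nat.dvd_of_mul_dvd_mul_left hℓ.pos hd
    exact ⟨jd N d' hd', KEmb.heckeBeta_jd N ℓ d' hd'⟩
  · left
    have hd' : d ∣ N := (Nat.Coprime.dvd_of_dvd_mul_right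
      ((Nat.Prime.coprime_iff_not_dvd hℓ).2 h).symm hd)
    exact ⟨jd N d hd', KDeg.heckeAlpha_jd N ℓ d hd'⟩

theorem ringHom_ext {E : Type*} [Field E] {φ ψ : FF (N * ℓ) →+* E}
    (hα : ∀ y : FF N, φ (heckeAlphaBar Kb N ℓ y) = ψ (heckeAlphaBar Kb N ℓ y))
    (hβ : ∀ y : FF N, φ (heckeBetaBar Kb N ℓ y) = ψ (heckeBetaBar Kb N ℓ y)) : φ = ψ := by
  apply FF_ringHom_ext
  · intro a
    have := hα (algebraMap Kb (FF N) a)
    rwa [AlgHom.commutes] at this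
  · intro d _ hd
    rcases jd_mem_alpha_or_beta N ℓ d hd with ⟨y, hy⟩ | ⟨y, hy⟩
    · rw [← hy]; exact hα y
    · rw [← hy]; exact hβ y

theorem map_mem {E : Type*} [Field E] (φ : FF (N * ℓ) →+* E) (S : Subfield E)
    (hα : ∀ y : FF N, φ (heckeAlphaBar Kb N ℓ y) ∈ S)
    (hβ : ∀ y : FF N, φ (heckeBetaBar Kb N ℓ y) ∈ S) (x : FF (N * ℓ)) : φ x ∈ S := by
  apply FF_map_mem
  · intro a
    have := hα (algebraMap Kb (FF N) a)
    rwa [AlgHom.commutes] at this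
  · intro d _ hd
    rcases jd_mem_alpha_or_beta N ℓ d hd with ⟨y, hy⟩ | ⟨y, hy⟩
    · rw [← hy]; exact hα y
    · rw [← hy]; exact hβ y

end gens

/-! ### the involution on meromorphic functions -/

section mer

variable {ℓ : ℕ}

lemma merMap_diag_heckeMatrix_zero (hℓ : ℓ ≠ 0) (x : Mer) :
    merMap (heckeDiagMatrix ℓ) (det_heckeDiagMatrix_pos ℓ)
      (merMap (heckeMatrix ℓ 0) (det_heckeMatrix_pos ℓ 0) x) = x := by
  have : (merMap (heckeDiagMatrix ℓ) (det_heckeDiagMatrix_pos ℓ)).comp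
      (merMap (heckeMatrix ℓ 0) (det_heckeMatrix_pos ℓ 0)) = RingHom.id Mer := by
    apply Mer_ringHom_ext
    intro F
    rw [RingHom.comp_apply, merMap_toMer, merMap_toMer, RingHom.id_apply]
    apply congrArg toMer
    apply Subtype.ext
    funext τ
    rw [compHom_apply, compHom_apply]
    apply congrArg (F : ℍ → ℂ)
    apply UpperHalfPlane.ext
    rw [coe_heckeMatrix_smul hℓ, coe_heckeDiagMatrix_smul hℓ]
    have : (ℓ : ℂ) ≠ 0 := by exact_mod_cast hℓ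
    push_cast
    field_simp
    ring
  exact DFunLike.congr_fun this x

end mer

section W

variable (N ℓ : ℕ) [NeZero N] [Fact ℓ.Prime]

omit [NeZero N] in
/-- There is `γ₀ = (a b; N ℓ) ∈ Γ₀(N)`. -/
lemma exists_gamma (hℓN : ¬ ℓ ∣ N) :
    ∃ γ : SL(2, ℤ), γ 1 0 = N ∧ γ 1 1 = ℓ := by
  have hℓ : ℓ.Prime := Fact.out
  have hcop : IsCoprime (ℓ : ℤ) (N : ℤ) :=
    Nat.isCoprime_iff_coprime.2 ((Nat.Prime.coprime_iff_not_dvd hℓ).2 hℓN)
  obtain ⟨a, b, hab⟩ := hcop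
  exact ⟨⟨!![a, -b; N, ℓ], by rw [Matrix.det_fin_two_of]; linear_combination hab⟩, rfl, rfl⟩

/-- the Atkin-Lehner involution on `Mer`. -/
noncomputable def Wmer (γ : SL(2, ℤ)) : Mer →+* Mer :=
  (merMap (heckeDiagMatrix ℓ) (det_heckeDiagMatrix_pos ℓ)).comp (act γ⁻¹)

variable {N ℓ}

omit [NeZero N] [Fact ℓ.Prime] in
lemma mem_Gamma0 {γ : SL(2, ℤ)} (h10 : γ 1 0 = N) : γ ∈ CongruenceSubgroup.Gamma0 N := by
  rw [CongruenceSubgroup.Gamma0_mem, h10]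
  simp

lemma Wmer_alpha {γ : SL(2, ℤ)} (h10 : γ 1 0 = N) (y : FF N) :
    Wmer ℓ γ (Psi (N * ℓ) (heckeAlphaBar Kb N ℓ y)) = Psi (N * ℓ) (heckeBetaBar Kb N ℓ y) := by
  rw [Wmer, RingHom.comp_apply, KEmb.Psi_alpha, KEmb.act_Psi_of_mem N (inv_mem (mem_Gamma0 h10)),
    KEmb.Psi_beta]

lemma Wmer_beta {γ : SL(2, ℤ)} (h10 : γ 1 0 = N) (h11 : γ 1 1 = ℓ) (y : FF N) :
    Wmer ℓ γ (Psi (N * ℓ) (heckeBetaBar Kb N ℓ y)) = Psi (N * ℓ) (heckeAlphaBar Kb N ℓ y) := by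
  have hℓ : ℓ ≠ 0 := (Fact.out : ℓ.Prime).ne_zero
  obtain ⟨g', hg', hmul⟩ := heckeDiagMatrix_mul_of_eq hℓ γ 0 1 (by rw [h11]; simp)
  have hg'mem : g' ∈ CongruenceSubgroup.Gamma0 N := mem_Gamma0 (hg'.trans h10)
  have hpos : 0 < (heckeDiagMatrix ℓ * mapGL ℝ γ).det.val := by
    rw [map_mul, Units.val_mul]
    exact mul_pos (det_heckeDiagMatrix_pos ℓ) (KEmb.det_mapGL_pos _)
  have hpos' : 0 < (mapGL ℝ g' * heckeMatrix ℓ 0).det.val := by
    rw [map_mul, Units.val_mul]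
    exact mul_pos (KEmb.det_mapGL_pos _) (det_heckeMatrix_pos ℓ 0)
  rw [Wmer, RingHom.comp_apply, KEmb.Psi_beta, KEmb.act_eq_merMap, KEmb.merMap_comp _ _ _ _ hpos,
    KEmb.merMap_congr hmul hpos hpos',
    ← KEmb.merMap_comp _ _ (det_heckeMatrix_pos ℓ 0) (KEmb.det_mapGL_pos g') hpos',
    ← KEmb.act_eq_merMap, KEmb.act_Psi_of_mem N (inv_mem hg'mem),
    merMap_diag_heckeMatrix_zero hℓ, KEmb.Psi_alpha]

variable (N ℓ)

/-- **The Atkin-Lehner involution** of `FF (N ℓ)`: it exchanges the two degeneracy maps. -/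
theorem exists_W (hℓN : ¬ ℓ ∣ N) :
    ∃ W : FF (N * ℓ) ≃ₐ[Kb] FF (N * ℓ),
      (∀ y : FF N, W (heckeAlphaBar Kb N ℓ y) = heckeBetaBar Kb N ℓ y) ∧
      (∀ y : FF N, W (heckeBetaBar Kb N ℓ y) = heckeAlphaBar Kb N ℓ y) := by
  obtain ⟨γ, h10, h11⟩ := exists_gamma N ℓ hℓN
  set Ψ : FF (N * ℓ) →+* Mer := Psi (N * ℓ) with hΨ
  have hmem : ∀ x : FF (N * ℓ), ((Wmer ℓ γ).comp Ψ) x ∈ Ψ.fieldRange := by
    apply map_mem N ℓ
    · intro y
      rw [RingHom.comp_apply, hΨ, Wmer_alpha h10]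
      exact ⟨_, rfl⟩
    · intro y
      rw [RingHom.comp_apply, hΨ, Wmer_beta h10 h11]
      exact ⟨_, rfl⟩
  let W0 : FF (N * ℓ) →+* FF (N * ℓ) :=
    (Ψ.rangeRestrictFieldEquiv.symm : Ψ.fieldRange →+* FF (N * ℓ)).comp
      (((Wmer ℓ γ).comp Ψ).codRestrict Ψ.fieldRange hmem)
  have hW0 : ∀ x, Ψ (W0 x) = Wmer ℓ γ (Ψ x) := by
    intro x
    exact Ψ.rangeRestrictFieldEquiv_apply_symm_apply _
  have hα : ∀ y : FF N, W0 (heckeAlphaBar Kb N ℓ y) = heckeBetaBar Kb N ℓ y := by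
    intro y
    apply Ψ.injective
    rw [hW0, hΨ, Wmer_alpha h10]
  have hβ : ∀ y : FF N, W0 (heckeBetaBar Kb N ℓ y) = heckeAlphaBar Kb N ℓ y := by
    intro y
    apply Ψ.injective
    rw [hW0, hΨ, Wmer_beta h10 h11]
  have hinv : W0.comp W0 = RingHom.id _ := by
    apply ringHom_ext N ℓ
    · intro y
      rw [RingHom.comp_apply, hα, hβ, RingHom.id_apply]
    · intro y
      rw [RingHom.comp_apply, hβ, hα, RingHom.id_apply]
  let W1 : FF (N * ℓ) →ₐ[Kb] FF (N * ℓ) :=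
    { W0 with
      commutes' := fun a => by
        have := hα (algebraMap Kb (FF N) a)
        rwa [AlgHom.commutes, AlgHom.commutes] at this }
  have hinv1 : W1.comp W1 = AlgHom.id Kb _ := by
    apply AlgHom.ext
    intro x
    exact DFunLike.congr_fun hinv x
  exact ⟨AlgEquiv.ofAlgHom W1 W1 hinv1 hinv1, hα, hβ⟩

end W

/-! ### the transposed Hecke operator -/

/-- The transposed multiplicative Hecke operator `h ↦ β⁻¹ (Norm_β (α h))`. -/
noncomputable def heckeMulT (N ℓ : ℕ) [NeZero N] [NeZero ℓ] : FF N →* FF N :=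
  letI := algebraAlong (heckeBetaBar Kb N ℓ)
  (Algebra.norm (FF N)).comp ((heckeAlphaBar Kb N ℓ : FF N →ₐ[Kb] FF (N * ℓ)) : FF N →* FF (N * ℓ))

theorem heckeMulT_apply (N ℓ : ℕ) [NeZero N] [NeZero ℓ] (u : FF N) :
    heckeMulT N ℓ u =
      letI := algebraAlong (heckeBetaBar Kb N ℓ)
      Algebra.norm (FF N) (heckeAlphaBar Kb N ℓ u) := rfl

section T

variable (N ℓ : ℕ) [NeZero N] [Fact ℓ.Prime]

/-- **KT**: the Hecke correspondence is symmetric. -/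
theorem heckeMulT_eq (hℓN : ¬ ℓ ∣ N) : heckeMulT N ℓ = heckeMul N ℓ := by
  obtain ⟨W, hα, hβ⟩ := exists_W N ℓ hℓN
  apply MonoidHom.ext
  intro u
  rw [heckeMulT_apply, heckeMul_apply]
  have := @Algebra.norm_eq_of_equiv_equiv (FF N) (FF (N * ℓ)) (FF N) (FF (N * ℓ)) _ _ _ _
    (algebraAlong (heckeAlphaBar Kb N ℓ)) (algebraAlong (heckeBetaBar Kb N ℓ))
    (RingEquiv.refl _) (W : FF (N * ℓ) ≃+* FF (N * ℓ)) (by
      apply RingHom.ext
      intro y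
      exact (hα y).symm) (heckeBetaBar Kb N ℓ u)
  rw [this]
  change _ = @Algebra.norm (FF N) (FF (N * ℓ)) _ _ (algebraAlong (heckeBetaBar Kb N ℓ))
    (W (heckeBetaBar Kb N ℓ u))
  rw [hβ]

theorem heckeBeta_finite (hℓN : ¬ ℓ ∣ N) : FiniteAlong Kb (heckeBetaBar Kb N ℓ) := by
  obtain ⟨W, hα, hβ⟩ := exists_W N ℓ hℓN
  exact @Module.Finite.of_equiv_equiv (FF N) (FF (N * ℓ)) (FF N) (FF (N * ℓ)) _ _ _ _
    (algebraAlong (heckeAlphaBar Kb N ℓ)) (algebraAlong (heckeBetaBar Kb N ℓ))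
    (RingEquiv.refl _) (W : FF (N * ℓ) ≃+* FF (N * ℓ)) (by
      apply RingHom.ext
      intro y
      exact (hα y).symm) (heckeAlpha_finite N ℓ)

theorem finrank_heckeBeta (hℓN : ¬ ℓ ∣ N) : finrankAlong Kb (heckeBetaBar Kb N ℓ) = ℓ + 1 := by
  obtain ⟨W, hα, hβ⟩ := exists_W N ℓ hℓN
  have := @Algebra.finrank_eq_of_equiv_equiv (FF N) (FF (N * ℓ)) _ _
    (algebraAlong (heckeAlphaBar Kb N ℓ)) (FF N) (FF (N * ℓ)) _ _
    (algebraAlong (heckeBetaBar Kb N ℓ))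
    (RingEquiv.refl _) (W : FF (N * ℓ) ≃+* FF (N * ℓ)) (by
      apply RingHom.ext
      intro y
      exact (hα y).symm)
  rw [finrankAlong, ← this]
  exact finrank_heckeAlpha N ℓ hℓN

/-! ### the Kronecker congruence -/

/-- **Kronecker congruence** for the multiplicative Hecke operator. -/
theorem cong_heckeMul (hℓN : ¬ ℓ ∣ N) (A : ValuationSubring Kb) (hA : A.LiesOverPrime ℓ) (σ : GQ)
    (hσ : A.IsFrobeniusAt σ ℓ) (P : FF N) (hP : IsPrimA A (P : LaurentSeries Kb)) :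
    IsPrimA A (KMain.frobHom N ℓ σ P : LaurentSeries Kb) ∧
      CongA A (heckeMul N ℓ P : LaurentSeries Kb) (KMain.frobHom N ℓ σ P : LaurentSeries Kb) := by
  have hdec : σ ∈ A.decompositionSubgroup ℚ := hσ.mem_decompositionSubgroup
  have hdec' : σ⁻¹ ∈ A.decompositionSubgroup ℚ := inv_mem hdec
  obtain ⟨ζ, hζ, hform⟩ := exists_qExpand_heckeMul_of N ℓ (Psi_heckeMul N ℓ hℓN)
  exact ⟨IsPrimA.mul (IsPrimA.coeffMap hdec hP) (IsPrimA.pow (IsPrimA.coeffMap hdec' hP) ℓ),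
      (cong_formal ℓ A hA σ hσ ζ hζ _ _ hP.1 (hform P)).2⟩

/-- **Transposed Kronecker congruence**. -/
theorem cong_heckeMulT (hℓN : ¬ ℓ ∣ N) (A : ValuationSubring Kb) (hA : A.LiesOverPrime ℓ) (σ : GQ)
    (hσ : A.IsFrobeniusAt σ ℓ) (P : FF N) (hP : IsPrimA A (P : LaurentSeries Kb)) :
    IsPrimA A (KMain.frobHom N ℓ σ P : LaurentSeries Kb) ∧
      CongA A (heckeMulT N ℓ P : LaurentSeries Kb) (KMain.frobHom N ℓ σ P : LaurentSeries Kb) := by
  rw [heckeMulT_eq N ℓ hℓN]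
  exact cong_heckeMul N ℓ hℓN A hA σ hσ P hP

end T

end Fermat.Agent.S37.KT
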