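import Fermat.Agent.ES.KDiv
import Fermat.Agent.S24.FFMain
import Fermat.Prelude.Def_ModularCurve_HeckeOperatorTotal

set_option autoImplicit false
set_option linter.style.haveILetI false
set_option linter.unusedSectionVars false

/-!
# S37, package HI : the inputs of the Hecke operator hold

For a finite extension `E / F` of function fields in one variable over an algebraically closed
field of characteristic zero: the order of a norm is the sum of the orders at the places above,
hence the norm formula for the push forward of divisors and the fundamental identity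
`∑ e = n`.  Applied to the two degeneracy maps `FF N → FF (N ℓ)`.
-/

namespace Fermat.Agent.S37

open AlgebraicCurve IsDedekindDomain WithZero UniqueFactorizationMonoid

namespace HI

/-- universe polymorphic version of `IsAlgClosed.of_ringEquiv` -/
theorem isAlgClosed_of_ringEquiv {k k' : Type*} [Field k] [Field k'] (e : k ≃+* k')
    [IsAlgClosed k] : IsAlgClosed k' := by
  apply IsAlgClosed.of_exists_root
  intro p hmp hp
  have hpe : Polynomial.degree (p.map e.symm.toRingHom) ≠ 0 := by
    rw [Polynomial.degree_map]
    exact ne_of_gt (Polynomial.degree_pos_of_irreducible hp)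
  rcases IsAlgClosed.exists_root (k := k) (p.map e.symm.toRingHom) hpe with ⟨x, hx⟩
  use e x
  rw [Polynomial.IsRoot] at hx
  apply e.symm.injective
  rw [map_zero, ← hx]
  clear hx hpe hp hmp
  induction p using Polynomial.induction_on <;> simp_all

section abstract

variable {K F E : Type*} [Field K] [IsAlgClosed K] [CharZero K] [Field F] [Field E] [Algebra K F]
  [Algebra K E] [Algebra F E] [IsScalarTower K F E] [FiniteDimensional F E]
  [S24.FF.IsFF K F]

open Classical in
/-- **the order of a norm** -/
theorem ord_norm (v : Place K F) (y : E) (hy : y ≠ 0) (s : Finset (Place K E))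
    (hs : ∀ w : Place K E, w.restrict F = v → w.ord y ≠ 0 → w ∈ s) :
    v.ord (Algebra.norm F y) = ∑ w ∈ s with w.restrict F = v, w.ord y := by
  haveI : CharZero F := charZero_of_injective_algebraMap (algebraMap K F).injective
  let O := v.toValuationSubring
  let B := integralClosure O E
  haveI : IsDedekindDomain B := integralClosure.isDedekindDomain O F E
  haveI : Module.Finite O B := IsIntegralClosure.finite O F E B
  haveI : IsFractionRing B E := IsIntegralClosure.isFractionRing_of_finite_extension O F E B
  letI : Algebra K B := ((algebraMap O B).comp (algebraMap K O)).toAlgebra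
  haveI : IsScalarTower K B E := IsScalarTower.of_algebraMap_eq fun a => by
    change algebraMap K E a = algebraMap O E (algebraMap K O a)
    rw [IsScalarTower.algebraMap_apply K F E]
    rfl
  haveI : Module.IsTorsionFree O E := .trans_faithfulSMul O F E
  haveI : Module.IsTorsionFree O B := IsIntegralClosure.isTorsionFree O E
  set m : Ideal O := v.heightOneSpectrum.asIdeal with hm
  haveI hmmax : m.IsMaximal := v.heightOneSpectrum.isMaximal
  have hm0 : m ≠ ⊥ := v.heightOneSpectrum.ne_bot
  -- every prime of `B` lies over `m`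
  have hlies : ∀ P : HeightOneSpectrum B, P.asIdeal.LiesOver m := by
    intro P
    constructor
    have h1 : (P.asIdeal.under O).IsPrime := Ideal.comap_isPrime _ _
    have h2 : P.asIdeal.under O ≠ ⊥ := by
      intro h
      exact P.ne_bot (Ideal.eq_bot_of_comap_eq_bot h)
    have h3 : (P.asIdeal.under O).IsMaximal := Ring.DimensionLEOne.maximalOfPrime h2 h1
    exact (IsLocalRing.eq_maximalIdeal h3).symm
  -- the inertia degrees are one
  have hinert : ∀ P : HeightOneSpectrum B, P.asIdeal.inertiaDeg O = 1 := by
    intro P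
    haveI := hlies P
    haveI : P.asIdeal.IsMaximal := P.isMaximal
    rw [Ideal.inertiaDeg_eq_of_isMaximal m P.asIdeal]
    letI : Field (O ⧸ m) := Ideal.Quotient.field _
    letI : Field (B ⧸ P.asIdeal) := Ideal.Quotient.field _
    let e : K ≃+* (O ⧸ m) :=
      RingEquiv.ofBijective (algebraMap K v.ResidueField) (S24.FF.algebraMap_residue_bijective v)
    haveI : IsAlgClosed (O ⧸ m) := isAlgClosed_of_ringEquiv e
    haveI : Module.Finite (O ⧸ m) (B ⧸ P.asIdeal) := inferInstance
    have hbij := IsAlgClosed.algebraMap_bijective_of_isIntegral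
      (k := O ⧸ m) (K := B ⧸ P.asIdeal)
    have := (LinearEquiv.ofBijective (Algebra.linearMap (O ⧸ m) (B ⧸ P.asIdeal))
      hbij).finrank_eq
    rw [← this, Module.finrank_self]
  have hrel : ∀ P : HeightOneSpectrum B, Ideal.relNorm O P.asIdeal = m := by
    intro P
    haveI := hlies P
    haveI : P.asIdeal.IsMaximal := P.isMaximal
    rw [Ideal.relNorm_eq_pow_of_isMaximal P.asIdeal m, hinert P, pow_one]
  have hmprime : Prime m := Ideal.prime_of_isPrime hm0 hmmax.isPrime
  have hcount : ∀ P : HeightOneSpectrum B,
      Multiset.count m (normalizedFactors (Ideal.relNorm O P.asIdeal)) = 1 := by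
    intro P
    rw [hrel P, normalizedFactors_irreducible hmprime.irreducible, normalize_eq,
      Multiset.count_singleton_self]
  -- finitely many primes
  haveI : Finite (HeightOneSpectrum B) := by
    haveI : Finite (m.primesOver B) := Algebra.QuasiFinite.finite_primesOver m
    refine Finite.of_injective
      (fun P : HeightOneSpectrum B => (⟨P.asIdeal, P.isPrime, hlies P⟩ : m.primesOver B)) ?_
    intro P Q h
    exact HeightOneSpectrum.ext (congrArg Subtype.val h)
  letI : Fintype (HeightOneSpectrum B) := Fintype.ofFinite _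
  let pl : HeightOneSpectrum B → Place K E := fun P => Place.ofHeightOneSpectrum (K := K) (F := E) P
  have hpl_inj : Function.Injective pl := S24.FF.ofHeightOneSpectrum_injective
  have hpl_restrict : ∀ P, (pl P).restrict F = v := by
    intro P
    refine (S24.FF.eq_of_le ?_).symm
    intro a ha
    show algebraMap F E a ∈ (pl P).toValuationSubring
    have : algebraMap F E a = algebraMap B E (algebraMap O B ⟨a, ha⟩) := rfl
    rw [this]
    exact P.valuation_le_one _
  have hpl_surj : ∀ w : Place K E, w.restrict F = v → ∃ P, pl P = w := by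
    intro w hw
    refine S24.FF.exists_heightOneSpectrum (R := B) w fun r => ?_
    refine S24.FF.mem_of_isIntegralElem w (algebraMap O E) (fun a => ?_) r.2
    have : (a : F) ∈ (w.restrict F).toValuationSubring := by rw [hw]; exact a.2
    exact this
  -- orders of integral elements
  have hordB : ∀ (P : HeightOneSpectrum B) (r : B), r ≠ 0 → (pl P).ord (algebraMap B E r) =
      (Multiset.count P.asIdeal (normalizedFactors (Ideal.span {r})) : ℤ) := by
    intro P r hr
    rw [S24.FF.ord_ofHeightOneSpectrum, ES.KNorm.neg_log_valuation P hr]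
  -- orders of the norms of integral elements
  have hnorm : ∀ r : B, r ≠ 0 → Algebra.norm F (algebraMap B E r) ≠ 0 ∧
      v.ord (Algebra.norm F (algebraMap B E r)) = ∑ P : HeightOneSpectrum B,
        (pl P).ord (algebraMap B E r) := by
    intro r hr
    have hr1 : algebraMap B E r ≠ 0 := by simpa using hr
    have hn0 : Algebra.norm F (algebraMap B E r) ≠ 0 := by
      rw [Ne, Algebra.norm_eq_zero_iff]; exact hr1
    refine ⟨hn0, ?_⟩
    have hi0 : Algebra.intNorm O B r ≠ 0 := by
      intro h0
      apply hn0
      rw [← Algebra.algebraMap_intNorm (A := O) (K := F) (L := E) (B := B), h0, map_zero]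
    have h1 : v.ord (Algebra.norm F (algebraMap B E r)) =
        (Multiset.count m (normalizedFactors (Ideal.relNorm O (Ideal.span {r}))) : ℤ) := by
      rw [← Algebra.algebraMap_intNorm (A := O) (K := F) (L := E) (B := B),
        Ideal.relNorm_singleton, ← ES.KNorm.neg_log_valuation (L := F) v.heightOneSpectrum hi0]
      rfl
    have hsr : Ideal.span {r} ≠ ⊥ := by simpa using hr
    have h2 := ES.KNorm.count_relNorm (O := O) m _ hsr
      (Finset.univ.image (fun P : HeightOneSpectrum B => P.asIdeal)) (by
        intro P hP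
        rw [Multiset.mem_toFinset] at hP
        have hPp := prime_of_normalized_factor P hP
        rw [Finset.mem_image]
        exact ⟨⟨P, Ideal.isPrime_of_prime hPp, hPp.ne_zero⟩, Finset.mem_univ _, rfl⟩)
    rw [h1, h2, Finset.sum_image (fun P _ Q _ h => HeightOneSpectrum.ext h)]
    refine Finset.sum_congr rfl fun P _ => ?_
    rw [hcount P, hordB P r hr]
    simp
  obtain ⟨b, d, hd, hbd⟩ := IsFractionRing.div_surjective B y
  have hd0 : d ≠ 0 := nonZeroDivisors.ne_zero hd
  have hb0 : b ≠ 0 := by
    rintro rfl
    rw [map_zero, zero_div] at hbd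
    exact hy hbd.symm
  have hb1 : algebraMap B E b ≠ 0 := by simpa using hb0
  have hd1 : algebraMap B E d ≠ 0 := by simpa using hd0
  have hmul : Algebra.norm F y * Algebra.norm F (algebraMap B E d) =
      Algebra.norm F (algebraMap B E b) := by
    rw [← map_mul, ← hbd, div_mul_cancel₀ _ hd1]
  have hy' : Algebra.norm F y ≠ 0 := by
    rw [Ne, Algebra.norm_eq_zero_iff]; exact hy
  have hsub : v.ord (Algebra.norm F y) = v.ord (Algebra.norm F (algebraMap B E b)) -
      v.ord (Algebra.norm F (algebraMap B E d)) := by
    rw [← hmul, v.ord_mul hy' (hnorm d hd0).1]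
    ring
  have hsum : v.ord (Algebra.norm F y) = ∑ P : HeightOneSpectrum B, (pl P).ord y := by
    rw [hsub, (hnorm b hb0).2, (hnorm d hd0).2, ← Finset.sum_sub_distrib]
    refine Finset.sum_congr rfl fun P _ => ?_
    rw [← hbd, div_eq_mul_inv, Place.ord_mul _ hb1 (inv_ne_zero hd1), Place.ord_inv]
    ring
  rw [hsum, ← Finset.sum_image (f := fun w : Place K E => w.ord y) (g := pl)
    (fun P _ Q _ h => hpl_inj h)]
  symm
  refine Finset.sum_subset ?_ ?_
  · intro w hw
    rw [Finset.mem_filter] at hw
    obtain ⟨P, rfl⟩ := hpl_surj w hw.2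
    exact Finset.mem_image_of_mem _ (Finset.mem_univ _)
  · intro w hw hw'
    rw [Finset.mem_image] at hw
    obtain ⟨P, -, rfl⟩ := hw
    by_contra h0
    exact hw' (Finset.mem_filter.mpr ⟨hs _ (hpl_restrict P) h0, hpl_restrict P⟩)

variable [S24.FF.IsFF K E]

omit [CharZero K] [FiniteDimensional F E] in
theorem inertiaDeg_eq_one [Algebra.IsIntegral F E] (w : Place K E) : w.inertiaDeg F = 1 := by
  have h := w.deg_restrict_mul_inertiaDeg (F := F)
  rw [S24.FF.deg_eq_one, S24.FF.deg_eq_one, one_mul] at h
  exact h

/-- **the norm formula** -/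
theorem pushforwardNormFormula : Divisor.PushforwardNormFormula K F E := by
  classical
  intro f hf D hD v
  rw [Divisor.pushforward_apply, ord_norm v f hf D.support (fun w _ hw => by
    rw [Finsupp.mem_support_iff, hD]; exact hw), Finset.sum_filter]
  refine Finset.sum_congr rfl fun w _ => ?_
  rw [inertiaDeg_eq_one, hD]
  simp

/-- **the fundamental identity** -/
theorem sumRamificationInertia [HasPrincipalDivisors K E] : SumRamificationInertia K F E := by
  classical
  constructor
  intro v
  obtain ⟨π, hπ⟩ := S24.Place.exists_ord_eq_one v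
  have hπ0 : π ≠ 0 := by
    rintro rfl
    simp at hπ
  have h := ord_norm v (algebraMap F E π) (by simpa using hπ0) (v.fiber E)
    (fun w hw _ => Place.mem_fiber.mpr hw)
  rw [Algebra.norm_algebraMap, S24.FF.ord_pow, hπ, mul_one] at h
  rw [h, Finset.sum_filter]
  refine Finset.sum_congr rfl fun w hw => ?_
  rw [if_pos (Place.mem_fiber.mp hw), inertiaDeg_eq_one, w.ord_restrict, Place.mem_fiber.mp hw, hπ]
  simp

end abstract

section along

variable {K F E : Type*} [Field K] [IsAlgClosed K] [CharZero K] [Field F] [Field E] [Algebra K F]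
  [Algebra K E] [S24.FF.IsFF K F] [S24.FF.IsFF K E]

theorem normFormulaAlong (φ : F →ₐ[K] E) (hfin : FiniteAlong K φ) : NormFormulaAlong K φ hfin := by
  letI := algebraAlong φ
  haveI := isScalarTower_along φ
  haveI : FiniteDimensional F E := hfin
  exact pushforwardNormFormula

theorem fundamentalIdentityAlong [HasPrincipalDivisors K E] (φ : F →ₐ[K] E)
    (hfin : FiniteAlong K φ) (hφ : φ.toRingHom.IsIntegral) : FundamentalIdentityAlong K φ hφ := by
  letI := algebraAlong φ
  haveI := isScalarTower_along φ
  haveI : FiniteDimensional F E := hfin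
  haveI := isIntegral_along φ hφ
  haveI : SumRamificationInertia K F E := sumRamificationInertia
  exact instFundamentalIdentityOfSumRamificationInertia

/-- any `K`-embedding of function fields is finite -/
theorem finiteAlong (φ : F →ₐ[K] E) : FiniteAlong K φ := by
  obtain ⟨x, hx, -⟩ := S24.FF.IsFF.exists_transcendental (K := K) (F := F)
  have h2 : Transcendental K (φ x) := by
    intro h
    exact hx ((isAlgebraic_algHom_iff φ φ.injective).mp h)
  haveI := S24.FF.finiteDimensional_adjoin h2
  exact ES.KDiv.finiteAlong_of φ (φ x) ⟨x, rfl⟩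

theorem integralAlong (φ : F →ₐ[K] E) : φ.toRingHom.IsIntegral := by
  letI := algebraAlong φ
  haveI : FiniteDimensional F E := finiteAlong φ
  exact fun x => Algebra.IsIntegral.isIntegral (R := F) x

end along

end HI

open ModularCurve S24

instance isFF_FF (N : ℕ) [NeZero N] : S24.FF.IsFF Kb (FF N) :=
  haveI := finiteDimensional_FF N
  S24.isFF (jF N) (transcendental_jF N)

theorem hasPrincipalDivisors_FF (N : ℕ) [NeZero N] : HasPrincipalDivisors Kb (FF N) :=
  haveI := finiteDimensional_FF N
  S24.hasPrincipalDivisors (jF N) (transcendental_jF N)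

/-- **S37 [HI]** : the inputs of the Hecke operator hold. -/
theorem heckeInputsAlong (N ℓ : ℕ) [NeZero N] [NeZero ℓ] : HeckeInputsAlong Kb N ℓ :=
  haveI := hasPrincipalDivisors_FF (N * ℓ)
  heckeInputsAlong_intro (HI.integralAlong _) (HI.integralAlong _)
    (HI.fundamentalIdentityAlong _ (HI.finiteAlong _) _) (HI.finiteAlong _)
    (HI.normFormulaAlong _ _)


/-- the Hecke operator on divisors (all inputs supplied) -/
noncomputable def heckeDiv (N ℓ : ℕ) [NeZero N] [NeZero ℓ] : Divisor Kb (FF N) →+ Divisor Kb (FF N) :=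
  haveI := hasPrincipalDivisors_FF (N * ℓ)
  heckeDivBar (L := Kb) (N := N) (ℓ := ℓ) (HI.integralAlong _) (HI.integralAlong _)

theorem heckeDiv_mem_degZero (N ℓ : ℕ) [NeZero N] [NeZero ℓ] {D : Divisor Kb (FF N)}
    (hD : D ∈ Divisor.degZero (K := Kb) (F := FF N)) :
    heckeDiv N ℓ D ∈ Divisor.degZero (K := Kb) (F := FF N) :=
  haveI := hasPrincipalDivisors_FF (N * ℓ)
  Divisor.correspondence_mem_degZero _ _ _ _
    (HI.fundamentalIdentityAlong _ (HI.finiteAlong _) _) hD

/-- the Hecke operator on classes is induced by `heckeDiv` -/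
theorem heckeOperatorAlong_mk (N ℓ : ℕ) [NeZero N] [NeZero ℓ]
    (D : Divisor.degZero (K := Kb) (F := FF N)) :
    heckeOperatorAlong Kb N ℓ (Pic0.mk D) =
      Pic0.mk ⟨heckeDiv N ℓ D, heckeDiv_mem_degZero N ℓ D.2⟩ := by
  haveI := hasPrincipalDivisors_FF (N * ℓ)
  rw [heckeOperatorAlong_eq (HI.integralAlong _) (HI.integralAlong _)
    (HI.fundamentalIdentityAlong _ (HI.finiteAlong _) _) (HI.finiteAlong _)
    (HI.normFormulaAlong _ _)]
  rfl

/-- the divisor of `heckeMul f = Norm_α (β f)` is `heckeDiv (div f)` -/
theorem heckeDiv_apply_of_ord (N ℓ : ℕ) [NeZero N] [NeZero ℓ] (f : FF N) (hf : f ≠ 0)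
    (D : Divisor Kb (FF N)) (hD : ∀ v, D v = v.ord f) (v : Place Kb (FF N)) :
    heckeDiv N ℓ D v = v.ord (letI := algebraAlong (heckeAlphaBar Kb N ℓ);
      Algebra.norm (FF N) (heckeBetaBar Kb N ℓ f)) := by
  haveI := hasPrincipalDivisors_FF (N * ℓ)
  have h1 : ∀ w, Divisor.pullbackAlong (heckeBetaBar Kb N ℓ) (HI.integralAlong _) D w =
      w.ord (heckeBetaBar Kb N ℓ f) := by
    intro w
    rw [Divisor.pullbackAlong_apply, hD, ← Place.ord_restrictAlong]
  exact HI.normFormulaAlong (heckeAlphaBar Kb N ℓ) (HI.finiteAlong _) (heckeBetaBar Kb N ℓ f)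
    ((map_ne_zero _).mpr hf) _ h1 v

/-- the same with `ES.heckeMul` -/
theorem heckeDiv_apply_heckeMul (N ℓ : ℕ) [NeZero N] [NeZero ℓ] (f : FF N) (hf : f ≠ 0)
    (D : Divisor Kb (FF N)) (hD : ∀ v, D v = v.ord f) (v : Place Kb (FF N)) :
    heckeDiv N ℓ D v = v.ord (ES.heckeMul N ℓ f) :=
  heckeDiv_apply_of_ord N ℓ f hf D hD v

end Fermat.Agent.S37
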