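import Fermat.Agent.S37.Rat
import Fermat.Agent.ES.InstDefs

/-!
# S37 / S34, package RAT (R3) : the section of a chart attached to a rational place

`P` a place of `FF N` fixed by `Gal(ℚ̄ / K₀)`, `A` a valuation ring of `ℚ̄`, `R = A ∩ K₀`.
A ring `B` of `K₀`-rational functions, regular at `P` with values in `A`, has the section
`b ↦ b(P) : B → R`.  Regularity and integrality of the values follow from integrality over a ring
of functions with the same property (for example `R[x]` with `x(P) ∈ A`).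
-/

set_option autoImplicit false

noncomputable section

namespace Fermat.Agent.S37.Rat

open AlgebraicCurve ModularCurve Polynomial Fermat.Agent.S24 Fermat.Agent.ES
  Fermat.Agent.ES.IDvr Fermat.Agent.ES.Inst Fermat.Agent.ES.QE

section General

variable {K F : Type*} [Field K] [Field F] [Algebra K F] [IsAlgClosed K] [FF.IsFF K F]

omit [IsAlgClosed K] [FF.IsFF K F] in
/-- integral over regular functions ⟹ regular -/
theorem mem_of_isIntegralElem (v : Place K F) {S : Type*} [CommRing S] (ψ : S →+* F)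
    (hψ : ∀ s, ψ s ∈ v.toValuationSubring) {f : F} (hf : ψ.IsIntegralElem f) :
    f ∈ v.toValuationSubring := by
  obtain ⟨p, hp, hpf⟩ := hf
  have h1 : IsIntegral v.toValuationSubring f := by
    refine ⟨p.map (ψ.codRestrict v.toValuationSubring.toSubring hψ), hp.map _, ?_⟩
    rw [eval₂_map]
    exact hpf
  obtain ⟨y, hy⟩ := (IsIntegrallyClosed.isIntegral_iff (R := v.toValuationSubring) (K := F)).1 h1
  rw [← hy]
  exact y.2

/-- integral over regular functions with values in `A` ⟹ the value lies in `A` -/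
theorem val_mem_of_isIntegralElem (v : Place K F) (A : ValuationSubring K) {S : Type*}
    [CommRing S] (ψ : S →+* F) (hψ : ∀ s, ψ s ∈ v.toValuationSubring)
    (hA : ∀ s, val v (ψ s) ∈ A) {f : F} (hf : ψ.IsIntegralElem f) : val v f ∈ A := by
  have hmem := mem_of_isIntegralElem v ψ hψ hf
  obtain ⟨p, hp, hpf⟩ := hf
  set ψ' : S →+* v.toValuationSubring := ψ.codRestrict v.toValuationSubring.toSubring hψ with hψ'
  have h0 : eval₂ ψ' (⟨f, hmem⟩ : v.toValuationSubring) p = 0 := by
    apply Subtype.ext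
    have := hom_eval₂ p ψ' v.toValuationSubring.subtype ⟨f, hmem⟩
    rw [ValuationSubring.subtype_apply] at this
    rw [this]
    exact hpf
  have h1 : eval₂ ((ev v).comp ψ') (ev v ⟨f, hmem⟩) p = 0 := by
    rw [← hom_eval₂, h0, map_zero]
  have hA' : ∀ s, ((ev v).comp ψ') s ∈ A := by
    intro s
    have := hA s
    rwa [val_of_mem v (hψ s)] at this
  have h2 : IsIntegral A (ev v ⟨f, hmem⟩) := by
    refine ⟨p.map (((ev v).comp ψ').codRestrict A.toSubring hA'), hp.map _, ?_⟩
    rw [eval₂_map]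
    exact h1
  obtain ⟨y, hy⟩ := (IsIntegrallyClosed.isIntegral_iff (R := A) (K := K)).1 h2
  rw [val_of_mem v hmem, ← hy]
  exact y.2

end General

section Modular

variable (N : ℕ) [NeZero N]

omit [NeZero N] in
/-- a function whose `q`-expansion has coefficients in `K₀` is fixed by `Gal(ℚ̄ / K₀)` -/
theorem gal_eq_of_bc (K₀ : IntermediateField ℚ Kb) (u : FF N) (f : LaurentSeries K₀)
    (h : (u : LaurentSeries Kb) = bc K₀ f) (σ : GQ) (hσ : ∀ x ∈ K₀, σ x = x) :
    gal N σ u = u := by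
  apply Subtype.ext
  show coeffMap (σ : Kb →+* Kb) (u : LaurentSeries Kb) = (u : LaurentSeries Kb)
  rw [h, bc, coeffMap_coeffMap]
  exact coeffMap_congr (RingHom.ext fun a : K₀ => hσ (a : Kb) a.2) _

/-- **RAT (R3)**, abstract form: the section attached to a `K₀`-rational place. -/
theorem exists_section (K₀ : IntermediateField ℚ Kb) (A : ValuationSubring Kb)
    (P : Place Kb (FF N)) (hP : ∀ σ : GQ, (∀ x ∈ K₀, σ x = x) → galP N σ P = P)
    {B : Type*} [CommRing B] (ι : B →+* FF N)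
    (hfix : ∀ (b : B) (σ : GQ), (∀ x ∈ K₀, σ x = x) → gal N σ (ι b) = ι b)
    (hreg : ∀ b, ι b ∈ P.toValuationSubring) (hA : ∀ b, val P (ι b) ∈ A) :
    ∃ φ : B →+* R0 K₀ A, ∀ b, (((φ b : R0 K₀ A) : K₀) : Kb) = val P (ι b) := by
  have hK : ∀ b, val P (ι b) ∈ K₀ := fun b => val_mem N K₀ P hP (ι b) (hfix b)
  refine ⟨{ toFun := fun b => ⟨⟨val P (ι b), hK b⟩, hA b⟩
            map_one' := ?_, map_mul' := ?_, map_zero' := ?_, map_add' := ?_ }, fun b => rfl⟩
  · apply Subtype.ext; apply Subtype.ext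
    show val P (ι 1) = 1
    rw [map_one, ← map_one (algebraMap Kb (FF N)), val_algebraMap]
  · intro a b
    apply Subtype.ext; apply Subtype.ext
    show val P (ι (a * b)) = val P (ι a) * val P (ι b)
    rw [map_mul, val_mul P (hreg a) (hreg b)]
  · apply Subtype.ext; apply Subtype.ext
    show val P (ι 0) = 0
    rw [map_zero, ← map_zero (algebraMap Kb (FF N)), val_algebraMap]
  · intro a b
    apply Subtype.ext; apply Subtype.ext
    show val P (ι (a + b)) = val P (ι a) + val P (ι b)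
    rw [map_add, val_add P (hreg a) (hreg b)]

variable {N}

/-- `R → FF N` (constants), `R = A ∩ K₀` -/
def cstR (N : ℕ) (K₀ : IntermediateField ℚ Kb) (A : ValuationSubring Kb) : R0 K₀ A →+* FF N :=
  (algebraMap Kb (FF N)).comp ((algebraMap K₀ Kb).comp (R0 K₀ A).subtype)

/-- `R[X] → FF N`, `X ↦ x` -/
def evR (K₀ : IntermediateField ℚ Kb) (A : ValuationSubring Kb) (x : FF N) :
    (R0 K₀ A)[X] →+* FF N := eval₂RingHom (cstR N K₀ A) x

theorem evR_mem_and_val_mem (K₀ : IntermediateField ℚ Kb) (A : ValuationSubring Kb)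
    (P : Place Kb (FF N)) {x : FF N} (hx : x ∈ P.toValuationSubring) (hxA : val P x ∈ A)
    (s : (R0 K₀ A)[X]) : evR K₀ A x s ∈ P.toValuationSubring ∧ val P (evR K₀ A x s) ∈ A := by
  have hpow : ∀ n : ℕ, x ^ n ∈ P.toValuationSubring ∧ val P (x ^ n) ∈ A := by
    intro n
    induction n with
    | zero =>
      rw [pow_zero, ← map_one (algebraMap Kb (FF N)), val_algebraMap]
      exact ⟨P.algebraMap_mem' 1, one_mem _⟩
    | succ n ih =>
      rw [pow_succ, val_mul P ih.1 hx]
      exact ⟨mul_mem ih.1 hx, mul_mem ih.2 hxA⟩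
  induction s using Polynomial.induction_on' with
  | add p q hp hq =>
    rw [map_add, val_add P hp.1 hq.1]
    exact ⟨add_mem hp.1 hq.1, add_mem hp.2 hq.2⟩
  | monomial n a =>
    have h1 : evR K₀ A x (monomial n a)
        = algebraMap Kb (FF N) (((a : R0 K₀ A) : K₀) : Kb) * x ^ n := by
      rw [evR, coe_eval₂RingHom, eval₂_monomial]
      rfl
    rw [h1, val_mul P (P.algebraMap_mem' _) (hpow n).1, val_algebraMap]
    exact ⟨mul_mem (P.algebraMap_mem' _) (hpow n).1, mul_mem a.2 (hpow n).2⟩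

/-- **RAT (R3)** : `B` a ring of `K₀`-rational functions integral over `R[x]`, `P` a `K₀`-rational
place with `x(P) ∈ A`: the section `b ↦ b(P) : B → R`. -/
theorem exists_section_of_integral (K₀ : IntermediateField ℚ Kb) (A : ValuationSubring Kb)
    (P : Place Kb (FF N)) (hP : ∀ σ : GQ, (∀ x ∈ K₀, σ x = x) → galP N σ P = P)
    {x : FF N} (hx : x ∈ P.toValuationSubring) (hxA : val P x ∈ A)
    {B : Type*} [CommRing B] (ι : B →+* FF N)
    (hfix : ∀ (b : B) (σ : GQ), (∀ x ∈ K₀, σ x = x) → gal N σ (ι b) = ι b)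
    (hint : ∀ b, (evR K₀ A x).IsIntegralElem (ι b)) :
    ∃ φ : B →+* R0 K₀ A, ∀ b, ι b ∈ P.toValuationSubring ∧
      (((φ b : R0 K₀ A) : K₀) : Kb) = val P (ι b) := by
  have h1 := fun s => (evR_mem_and_val_mem K₀ A P hx hxA s).1
  have h2 := fun s => (evR_mem_and_val_mem K₀ A P hx hxA s).2
  have hreg : ∀ b, ι b ∈ P.toValuationSubring := fun b =>
    mem_of_isIntegralElem P _ h1 (hint b)
  obtain ⟨φ, hφ⟩ := exists_section N K₀ A P hP ι hfix hreg
    (fun b => val_mem_of_isIntegralElem P A _ h1 h2 (hint b))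
  exact ⟨φ, fun b => ⟨hreg b, hφ b⟩⟩

/-- the kernel of the section -/
theorem section_eq_zero_iff {K₀ : IntermediateField ℚ Kb} {A : ValuationSubring Kb}
    {P : Place Kb (FF N)} {B : Type*} [CommRing B] {ι : B →+* FF N} {φ : B →+* R0 K₀ A}
    (hφ : ∀ b, ι b ∈ P.toValuationSubring ∧ (((φ b : R0 K₀ A) : K₀) : Kb) = val P (ι b)) (b : B) :
    φ b = 0 ↔ ι b = 0 ∨ 0 < P.ord (ι b) := by
  rw [← val_eq_zero_iff P (hφ b).1, ← (hφ b).2]
  constructor
  · intro h
    rw [h]
    rfl
  · intro h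
    apply Subtype.ext
    apply Subtype.ext
    exact h

/-- **RAT (R3)** for the charts of a `QData`. -/
theorem exists_section_chart {A : ValuationSubring Kb} {K₀ : IntermediateField ℚ Kb}
    [IsDiscreteValuationRing (R0 K₀ A)] (D : QData (R0 K₀ A) K₀ (kA A)) (X : D.Coord)
    (ι : D.F0 →+* FF N)
    (hι : ∀ f : D.F0, ((ι f : FF N) : LaurentSeries Kb) = bc K₀ (f : LaurentSeries K₀))
    (P : Place Kb (FF N)) (hP : ∀ σ : GQ, (∀ x ∈ K₀, σ x = x) → galP N σ P = P)
    (hx : ι X.x ∈ P.toValuationSubring) (hxA : val P (ι X.x) ∈ A) :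
    ∃ φ : X.chart →+* R0 K₀ A, ∀ b : X.chart, ι b ∈ P.toValuationSubring ∧
      (((φ b : R0 K₀ A) : K₀) : Kb) = val P (ι b) := by
  have hcomp : ι.comp X.phiF = evR K₀ A (ι X.x) := by
    apply Polynomial.ringHom_ext
    · intro a
      rw [evR, coe_eval₂RingHom, eval₂_C]
      apply Subtype.ext
      rw [RingHom.comp_apply, hι, X.coe_phiF, X.phi_apply, evS_C]
      show bc K₀ (coeffMap _ (HahnSeries.C a)) = algebraMap Kb (LaurentSeries Kb) _
      rw [coeffMap_C, bc, coeffMap_C, algebraMap_eq_C]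
      rfl
    · rw [evR, coe_eval₂RingHom, eval₂_X, RingHom.comp_apply]
      congr 1
      apply Subtype.ext
      rw [X.coe_phiF, X.phi_apply, evS_X]
      rfl
  refine exists_section_of_integral K₀ A P hP hx hxA (ι.comp X.chart.subtype)
    (fun b σ hσ => gal_eq_of_bc N K₀ _ _ (hι _) σ hσ) ?_
  intro b
  obtain ⟨p, hp, hpb⟩ := b.2
  refine ⟨p, hp, ?_⟩
  rw [← hcomp]
  have h3 : eval₂ X.phiF (b : D.F0) p = 0 := by
    apply Subtype.ext
    have := hom_eval₂ p X.phiF D.F0.val.toRingHom (b : D.F0)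
    exact this.trans hpb
  show eval₂ (ι.comp X.phiF) (ι (b : D.F0)) p = 0
  rw [← hom_eval₂, h3, map_zero]

end Modular

end Fermat.Agent.S37.Rat
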