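import Fermat.Agent.S37.PDefs
import Fermat.Agent.ES.GaussK
import Fermat.Agent.ES.InstPl

/-!
# S37, package CONST

A reduction which comes both from a Gauss-integral function regular on the non-cuspidal places and
from a Gauss-integral function regular on the cuspidal discs is a constant.
-/

set_option autoImplicit false

noncomputable section

namespace Fermat.Agent.S37

open ModularCurve AlgebraicCurve Fermat.Agent.S24 Fermat.Agent.ES Fermat.Agent.ES.AbsInj
  Fermat.Agent.ES.TC IntermediateField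

namespace Const

section generic

variable {K F : Type*} [Field K] [Field F] [Algebra K F]

/-- `1 - c / x`. -/
def fac (x : F) (c : K) : F := 1 - algebraMap K F c * x⁻¹

theorem ne_zero_of_transcendental {x : F} (hx : Transcendental K x) : x ≠ 0 := by
  rintro rfl
  exact hx isAlgebraic_zero

theorem sub_ne_zero_of_transcendental {x : F} (hx : Transcendental K x) (c : K) :
    x - algebraMap K F c ≠ 0 := by
  intro h
  rw [sub_eq_zero] at h
  exact hx (h ▸ isAlgebraic_algebraMap c)

theorem fac_eq {x : F} (hx : Transcendental K x) (c : K) :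
    fac x c = (x - algebraMap K F c) * x⁻¹ := by
  have := ne_zero_of_transcendental hx
  rw [fac]
  field_simp

theorem fac_ne_zero {x : F} (hx : Transcendental K x) (c : K) : fac x c ≠ 0 := by
  rw [fac_eq hx]
  exact mul_ne_zero (sub_ne_zero_of_transcendental hx c)
    (inv_ne_zero (ne_zero_of_transcendental hx))

variable (v : Place K F)

theorem ord_fac {x : F} (hx : Transcendental K x) (c : K) :
    v.ord (fac x c) = v.ord (x - algebraMap K F c) - v.ord x := by
  rw [fac_eq hx, v.ord_mul (sub_ne_zero_of_transcendental hx c)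
    (inv_ne_zero (ne_zero_of_transcendental hx)), v.ord_inv]
  ring

theorem ord_fac_nonneg {x : F} (hx : Transcendental K x) (c : K) (h : v.ord x ≤ 0) :
    0 ≤ v.ord (fac x c) := by
  rw [ord_fac v hx]
  have h1 := Place.ord_sub_ge v (sub_ne_zero_of_transcendental hx c)
  rw [Place.ord_algebraMap] at h1
  have h2 : v.ord x ≤ min (v.ord x) 0 := le_min le_rfl h
  omega

theorem ord_fac_pos {x : F} (hx : Transcendental K x) (c : K) (h : v.ord x ≤ 0)
    (h2 : 0 < v.ord (x - algebraMap K F c)) : 1 ≤ v.ord (fac x c) := by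
  rw [ord_fac v hx]
  omega

theorem ord_fac_eq_zero {x : F} (hx : Transcendental K x) (c : K) (h : v.ord x < 0) :
    v.ord (fac x c) = 0 := by
  rw [ord_fac v hx]
  have h1 : v.ord (x + -algebraMap K F c) = v.ord x :=
    Place.ord_add_eq_of_lt v (ne_zero_of_transcendental hx)
      (by rw [Place.ord_neg, Place.ord_algebraMap]; exact h)
  rw [← sub_eq_add_neg] at h1
  rw [h1, sub_self]

theorem ord_prod {ι : Type*} (s : Finset ι) (f : ι → F) (hf : ∀ i ∈ s, f i ≠ 0) :
    v.ord (∏ i ∈ s, f i) = ∑ i ∈ s, v.ord (f i) := by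
  classical
  induction s using Finset.induction_on with
  | empty => simp
  | insert i s hi ih =>
    rw [Finset.prod_insert hi, Finset.sum_insert hi,
      v.ord_mul (hf i (Finset.mem_insert_self i s))
        (Finset.prod_ne_zero_iff.2 fun j hj => hf j (Finset.mem_insert_of_mem hj)),
      ih fun j hj => hf j (Finset.mem_insert_of_mem hj)]

end generic

theorem red_prod {F Fb : Type*} [Field F] [Field Fb] {O : ValuationSubring F} {red : O →+* Fb}
    {ι : Type*} (s : Finset ι) {f : ι → F} {y : ι → Fb} (h : ∀ i ∈ s, Red O red (f i) (y i)) :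
    Red O red (∏ i ∈ s, f i) (∏ i ∈ s, y i) := by
  classical
  induction s using Finset.induction_on with
  | empty => simpa using Red.one
  | insert i s hi ih =>
    rw [Finset.prod_insert hi, Finset.prod_insert hi]
    exact (h i (Finset.mem_insert_self i s)).mul
      (ih fun j hj => h j (Finset.mem_insert_of_mem hj))

end Const

open Fermat.Agent.S37.Const

theorem const_of_lat (M ℓ : ℕ) [NeZero M] (hℓ : ℓ.Prime) (hℓM : ¬ ℓ ∣ M)
    (A : ValuationSubring Kb) (hA : A.LiesOverPrime ℓ) (b₁ b₂ : FF M)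
    (h₁ : b₁ ∈ Lat A M (nc M) 0) (h₂ : b₂ ∈ Lat A M (cu A M) 0)
    (h : Gauss.redFun A M b₁ = Gauss.redFun A M b₂) :
    ∃ κ : Gauss.kA A, Gauss.redFun A M b₁ = HahnSeries.C κ := by
  classical
  have : Fact ℓ.Prime := ⟨hℓ⟩
  obtain ⟨hg₁, hr₁⟩ := h₁
  obtain ⟨hg₂, hr₂⟩ := h₂
  -- trivial cases
  rcases eq_or_ne b₁ 0 with rfl | hb₁
  · exact ⟨0, by rw [Gauss.redFun_zero, map_zero]⟩
  rcases eq_or_ne b₂ 0 with rfl | hb₂
  · exact ⟨0, by rw [h, Gauss.redFun_zero, map_zero]⟩
  replace hr₁ := hr₁.resolve_left hb₁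
  replace hr₂ := hr₂.resolve_left hb₂
  set O := gaussO A M ℓ hA with hO
  set red := redK A M ℓ hℓM hA with hred
  set j := jF M with hj
  set jb := jk (Gauss.kA A) M with hjb
  have hjt : Transcendental Kb j := transcendental_jF M
  have hjbt : Transcendental (Gauss.kA A) jb := transcendental_jk _ M
  have hker := redK_hker A M ℓ hℓM hA
  have hKk := redK_hKk A M ℓ hℓM hA
  have hjred : Red O red j jb := redK_jF A M ℓ hℓM hA
  obtain ⟨b, bb, hb, hind⟩ := exists_orthonormalK A M ℓ hℓM hA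
  obtain ⟨H1, H2, -⟩ := int_abs (K := Kb) (k := Gauss.kA A) O red hker hKk j jb hjred hjbt b bb hb
    hind
  -- the reduction
  set y : Fk (Gauss.kA A) M := red ⟨b₁, hg₁⟩ with hy
  have hy1 : Red O red b₁ y := Red.of_mem hg₁
  have hy2 : Red O red b₂ y := ⟨hg₂, Subtype.ext h.symm⟩
  have hyc : (y : LaurentSeries (Gauss.kA A)) = Gauss.redFun A M b₁ := rfl
  -- `y` is integral over `κ[j]`
  have hc1 : y ∈ chart (Gauss.kA A) jb := by
    refine H1 b₁ y ?_ hy1
    refine Inst.isIntegral_of_ord M j hjt b₁ fun v hv => ?_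
    have := hr₁ v hv
    simpa using this
  -- the poles of `b₂`
  obtain ⟨D, hD, -⟩ := (hasPrincipalDivisors_FF M).exists_divisor b₂ hb₂
  have Ha : ∀ v : Place Kb (FF M), ∃ a ∈ A, v.ord b₂ < 0 →
      0 < v.ord (j - algebraMap Kb (FF M) a) := by
    intro v
    by_cases hv : v.ord b₂ < 0
    · have h1 : ¬ cu A M v := by
        intro hcu
        have := hr₂ v hcu
        simp only [Finsupp.coe_zero, Pi.zero_apply, add_zero] at this
        omega
      rw [cu, not_not] at h1
      obtain ⟨a, ha, h2⟩ := h1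
      exact ⟨a, ha, fun _ => h2⟩
    · exact ⟨0, A.zero_mem, fun h => absurd h hv⟩
  choose a haA ha using Ha
  have Hκ : ∀ v : Place Kb (FF M), ∃ κ : Gauss.kA A,
      Red O red (algebraMap Kb (FF M) (a v)) (algebraMap (Gauss.kA A) (Fk (Gauss.kA A) M) κ) := by
    intro v
    have hm : algebraMap Kb (FF M) (a v) ∈ O :=
      Gauss.IsGInt.of_isIntA (by rw [Gauss.coe_algebraMap]; exact Gauss.isIntA_C (haA v))
    obtain ⟨κ, hκ⟩ := hKk _ _ (Red.of_mem (red := red) hm)
    exact ⟨κ, hκ ▸ Red.of_mem hm⟩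
  choose κ hκ using Hκ
  set γ : FF M := ∏ v ∈ D.support, fac j (a v) ^ (D v).natAbs with hγ
  set γb : Fk (Gauss.kA A) M := ∏ v ∈ D.support, fac jb (κ v) ^ (D v).natAbs with hγb
  have hjb0 : jb ≠ 0 := ne_zero_of_transcendental hjbt
  have hγred : Red O red γ γb := red_prod _ fun v _ =>
    (Red.one.sub ((hκ v).mul (hjred.inv hker hjb0))).pow _
  have hγ0 : γ ≠ 0 := Finset.prod_ne_zero_iff.2 fun v _ => pow_ne_zero _ (fac_ne_zero hjt _)
  have hγb0 : γb ≠ 0 := Finset.prod_ne_zero_iff.2 fun v _ => pow_ne_zero _ (fac_ne_zero hjbt _)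
  have hjt' : Transcendental Kb j⁻¹ := by
    intro h1
    apply hjt
    have := h1.inv
    rwa [inv_inv] at this
  -- `y γb` is integral over `κ[1/j]`
  have hc2 : y * γb ∈ chart (Gauss.kA A) jb⁻¹ := by
    refine H2 (b₂ * γ) (y * γb) ?_ (hy2.mul hγred)
    have : FiniteDimensional Kb⟮j⁻¹⟯ (FF M) :=
      (ConstAbs.adjoin_inv_eq (K := Kb) j).symm ▸ (inferInstance : FiniteDimensional Kb⟮j⟯ (FF M))
    refine Inst.isIntegral_of_ord M j⁻¹ hjt' (b₂ * γ) fun v hv => ?_
    rw [v.ord_inv] at hv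
    have hv' : v.ord j ≤ 0 := by omega
    rw [v.ord_mul hb₂ hγ0, hγ, ord_prod v _ _ fun u _ => pow_ne_zero _ (fac_ne_zero hjt _)]
    have hnn : ∀ u ∈ D.support, 0 ≤ v.ord (fac j (a u) ^ (D u).natAbs) := by
      intro u _
      rw [Place.ord_pow]
      exact mul_nonneg (Int.natCast_nonneg _) (ord_fac_nonneg v hjt _ hv')
    by_cases hpole : v.ord b₂ < 0
    · have hvS : v ∈ D.support := by
        rw [Finsupp.mem_support_iff, hD]
        omega
      have h1 := Finset.single_le_sum hnn hvS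
      have h2 : -v.ord b₂ ≤ v.ord (fac j (a v) ^ (D v).natAbs) := by
        rw [Place.ord_pow, hD]
        have h3 := ord_fac_pos v hjt (a v) hv' (ha v hpole)
        have h4 : -v.ord b₂ ≤ ((v.ord b₂).natAbs : ℤ) := by omega
        nlinarith [Int.natCast_nonneg (v.ord b₂).natAbs]
      omega
    · have := Finset.sum_nonneg hnn
      omega
  -- `y` has no poles
  obtain ⟨ζ, hζ, hmod, -⟩ := ResField.exists_zeta (A := A) M ℓ hℓ hℓM hA
  have : Infinite (Gauss.kA A) := IsAlgClosed.instInfinite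
  obtain ⟨i1, i2⟩ := Fk_finite_separable ζ hζ hmod
  have halg : IsAlgebraic (Gauss.kA A) y := by
    refine ConstAbs.isAlgebraic_of_ord_nonneg hjbt y fun Q => ?_
    rcases eq_or_ne y 0 with hy0 | hy0
    · rw [hy0, Place.ord_zero]
    by_cases hQ : 0 ≤ Q.ord jb
    · exact Inst.InstPl.ord_nonneg_of_isIntegral hc1 Q hQ
    · have hQ' : Q.ord jb < 0 := by omega
      have h1 : 0 ≤ Q.ord (y * γb) :=
        Inst.InstPl.ord_nonneg_of_isIntegral hc2 Q (by rw [Q.ord_inv]; omega)
      have h2 : Q.ord γb = 0 := by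
        rw [hγb, ord_prod Q _ _ fun u _ => pow_ne_zero _ (fac_ne_zero hjbt _)]
        refine Finset.sum_eq_zero fun u _ => ?_
        rw [Place.ord_pow, ord_fac_eq_zero Q hjbt _ hQ', mul_zero]
      rw [Q.ord_mul hy0 hγb0, h2, add_zero] at h1
      exact h1
  obtain ⟨c, hc⟩ := Fk_const y halg
  refine ⟨c, ?_⟩
  rw [← hyc, hc, ← LaurentSeries.algebraMap_apply]
  rfl

end Fermat.Agent.S37
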