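import Fermat.Agent.ES.KGal
import Fermat.Agent.S37.HI

/-!
# S37 / S34, package RAT : values of functions at places, open stabilisers, rationality

* `Rat.ev v : 𝒪_v →+* K` : the value of a regular function at a place (`K` algebraically closed),
* `Rat.val v f : K` : the same for `f : F` (junk value `0` if `f` has a pole),
* Galois equivariance of values,
* `Rat.exists_finite_fixing_place` : every place of `FF N` is fixed by an open subgroup of `G_ℚ`,
* `Rat.val_mem` : a function fixed by `Gal(ℚ̄ / K₀)` takes a value in `K₀` at a place fixed by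
  `Gal(ℚ̄ / K₀)`.
-/

set_option autoImplicit false

noncomputable section

namespace Fermat.Agent.S37.Rat

open AlgebraicCurve ModularCurve Fermat.Agent.S24 Fermat.Agent.ES

section General

variable {K F : Type*} [Field K] [Field F] [Algebra K F] [IsAlgClosed K] [FF.IsFF K F]

/-- the value of a regular function at a place -/
def ev (v : Place K F) : v.toValuationSubring →+* K :=
  ((RingEquiv.ofBijective (algebraMap K v.ResidueField)
    (FF.algebraMap_residue_bijective v)).symm : v.ResidueField →+* K).comp
    (IsLocalRing.residue v.toValuationSubring)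

theorem algebraMap_ev (v : Place K F) (a : v.toValuationSubring) :
    algebraMap K v.ResidueField (ev v a) = IsLocalRing.residue v.toValuationSubring a :=
  (RingEquiv.ofBijective (algebraMap K v.ResidueField)
    (FF.algebraMap_residue_bijective v)).apply_symm_apply _

theorem ev_eq_iff (v : Place K F) (a : v.toValuationSubring) (c : K) :
    ev v a = c ↔ a - algebraMap K v.toValuationSubring c
      ∈ IsLocalRing.maximalIdeal v.toValuationSubring := by
  rw [← IsLocalRing.residue_eq_zero_iff, map_sub, sub_eq_zero, ← algebraMap_ev]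
  exact ((FF.algebraMap_residue_bijective v).1.eq_iff).symm

theorem ev_algebraMap (v : Place K F) (c : K) :
    ev v (algebraMap K v.toValuationSubring c) = c := by
  rw [ev_eq_iff, sub_self]
  exact zero_mem _

theorem ev_eq_zero_iff (v : Place K F) (a : v.toValuationSubring) :
    ev v a = 0 ↔ a ∈ IsLocalRing.maximalIdeal v.toValuationSubring := by
  rw [ev_eq_iff, map_zero, sub_zero]

open Classical in
/-- the value of a function at a place (`0` at a pole) -/
def val (v : Place K F) (f : F) : K :=
  if h : f ∈ v.toValuationSubring then ev v ⟨f, h⟩ else 0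

theorem val_of_mem (v : Place K F) {f : F} (h : f ∈ v.toValuationSubring) :
    val v f = ev v ⟨f, h⟩ := dif_pos h

theorem val_of_not_mem (v : Place K F) {f : F} (h : f ∉ v.toValuationSubring) :
    val v f = 0 := dif_neg h

/-- characterisation of the value by orders -/
theorem val_eq_iff (v : Place K F) {f : F} (h : f ∈ v.toValuationSubring) (c : K) :
    val v f = c ↔ f = algebraMap K F c ∨ 0 < v.ord (f - algebraMap K F c) := by
  rw [val_of_mem v h, ev_eq_iff]
  by_cases h2 : (⟨f, h⟩ - algebraMap K v.toValuationSubring c : v.toValuationSubring) = 0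
  · rw [h2]
    have h3 : f - algebraMap K F c = 0 := congrArg Subtype.val h2
    exact ⟨fun _ => Or.inl (sub_eq_zero.1 h3), fun _ => zero_mem _⟩
  · rw [FF.mem_maximalIdeal_iff v h2]
    have h3 : f ≠ algebraMap K F c := fun h4 => h2 (Subtype.ext (sub_eq_zero.2 h4))
    constructor
    · intro h4
      exact Or.inr h4
    · rintro (h4 | h4)
      · exact absurd h4 h3
      · exact h4

theorem val_spec (v : Place K F) {f : F} (h : f ∈ v.toValuationSubring) :
    f = algebraMap K F (val v f) ∨ 0 < v.ord (f - algebraMap K F (val v f)) :=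
  (val_eq_iff v h _).1 rfl

theorem val_algebraMap (v : Place K F) (c : K) : val v (algebraMap K F c) = c :=
  (val_eq_iff v (v.algebraMap_mem' c) c).2 (Or.inl rfl)

theorem val_add (v : Place K F) {f g : F} (hf : f ∈ v.toValuationSubring)
    (hg : g ∈ v.toValuationSubring) : val v (f + g) = val v f + val v g := by
  rw [val_of_mem v hf, val_of_mem v hg, val_of_mem v (add_mem hf hg), ← map_add]
  rfl

theorem val_mul (v : Place K F) {f g : F} (hf : f ∈ v.toValuationSubring)
    (hg : g ∈ v.toValuationSubring) : val v (f * g) = val v f * val v g := by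
  rw [val_of_mem v hf, val_of_mem v hg, val_of_mem v (mul_mem hf hg), ← map_mul]
  rfl

theorem val_eq_zero_iff (v : Place K F) {f : F} (h : f ∈ v.toValuationSubring) :
    val v f = 0 ↔ f = 0 ∨ 0 < v.ord f := by
  rw [val_eq_iff v h, map_zero, sub_zero]

/-- values are equivariant under semilinear automorphisms -/
theorem val_smul (g : SemilinearAut K F) (v : Place K F) (f : F) :
    val (g • v) (g • f) = SemilinearAut.baseAut g (val v f) := by
  have hmem : g • f ∈ (g • v).toValuationSubring ↔ f ∈ v.toValuationSubring := by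
    rw [SemilinearAut.smul_toValuationSubring,
      ValuationSubring.mem_pointwise_smul_iff_inv_smul_mem, inv_smul_smul]
  by_cases h : f ∈ v.toValuationSubring
  · rw [val_eq_iff _ (hmem.2 h)]
    rcases val_spec v h with h1 | h1
    · left
      conv_lhs => rw [h1]
      exact SemilinearAut.smul_algebraMap g _
    · right
      rw [← SemilinearAut.smul_algebraMap, ← smul_sub, SemilinearAut.ord_smul]
      exact h1
  · rw [val_of_not_mem _ h, val_of_not_mem _ (fun h' => h (hmem.1 h')), map_zero]

end General

section Modular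

variable (N : ℕ)

/-- the Galois action on places of `FF N` -/
abbrev galP (σ : GQ) (P : Place Kb (FF N)) : Place Kb (FF N) :=
  arithmeticGalois (modularFunctionFieldFull N) σ • P

theorem ord_galP (σ : GQ) (P : Place Kb (FF N)) (f : FF N) :
    (galP N σ P).ord (gal N σ f) = P.ord f :=
  SemilinearAut.ord_smul (arithmeticGalois (modularFunctionFieldFull N) σ) P f

theorem gal_mem_galP_iff (σ : GQ) (P : Place Kb (FF N)) (f : FF N) :
    gal N σ f ∈ (galP N σ P).toValuationSubring ↔ f ∈ P.toValuationSubring := by
  have h : gal N σ f = arithmeticGalois (modularFunctionFieldFull N) σ • f := rfl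
  rw [h, SemilinearAut.smul_toValuationSubring,
    ValuationSubring.mem_pointwise_smul_iff_inv_smul_mem, inv_smul_smul]

theorem galP_one (P : Place Kb (FF N)) : galP N 1 P = P := by
  rw [galP, map_one, one_smul]

theorem galP_mul (σ τ : GQ) (P : Place Kb (FF N)) :
    galP N (σ * τ) P = galP N σ (galP N τ P) := by
  rw [galP, map_mul, mul_smul]

/-- finitely many functions are fixed by an open subgroup -/
theorem exists_finite_fixing_finset (s : Finset (FF N)) :
    ∃ L : IntermediateField ℚ Kb, FiniteDimensional ℚ L ∧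
      ∀ σ : GQ, (∀ x ∈ L, σ x = x) → ∀ u ∈ s, gal N σ u = u := by
  classical
  induction s using Finset.induction_on with
  | empty => exact ⟨⊥, inferInstance, fun _ _ u hu => absurd hu (Finset.notMem_empty u)⟩
  | insert a s _ ih =>
    obtain ⟨L₁, h₁, hL₁⟩ := ih
    obtain ⟨L₂, h₂, hL₂⟩ := exists_finite_fixing N a
    refine ⟨L₁ ⊔ L₂, IntermediateField.finiteDimensional_sup L₁ L₂, ?_⟩
    intro σ hσ u hu
    rcases Finset.mem_insert.1 hu with rfl | hu
    · exact hL₂ σ fun x hx => hσ x ((le_sup_right : L₂ ≤ L₁ ⊔ L₂) hx)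
    · exact hL₁ σ (fun x hx => hσ x ((le_sup_left : L₁ ≤ L₁ ⊔ L₂) hx)) u hu

variable [NeZero N]

/-- **RAT (R1)** : every place of `FF N` is fixed by an open subgroup of `G_ℚ`. -/
theorem exists_finite_fixing_place (P : Place Kb (FF N)) :
    ∃ L : IntermediateField ℚ Kb, FiniteDimensional ℚ L ∧
      ∀ σ : GQ, (∀ x ∈ L, σ x = x) → galP N σ P = P := by
  classical
  obtain ⟨π, hπ⟩ := S24.Place.exists_ord_eq_one P
  have hπ0 : π ≠ 0 := by
    rintro rfl
    simp at hπ
  obtain ⟨D, hD, -⟩ := (hasPrincipalDivisors_FF N).exists_divisor π hπ0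
  -- separating functions
  have hsep : ∀ Q : Place Kb (FF N), ∃ y : FF N, Q ≠ P →
      y ∈ P.toValuationSubring ∧ y ∉ Q.toValuationSubring := by
    intro Q
    by_cases hQ : Q = P
    · exact ⟨0, fun h => absurd hQ h⟩
    · have : ¬ P.toValuationSubring ≤ Q.toValuationSubring :=
        fun h => hQ (S24.Place.eq_of_le h).symm
      obtain ⟨y, hy1, hy2⟩ := SetLike.not_le_iff_exists.1 this
      exact ⟨y, fun _ => ⟨hy1, hy2⟩⟩
  choose y hy using hsep
  obtain ⟨L, hL, hfix⟩ := exists_finite_fixing_finset N (insert π (D.support.image y))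
  refine ⟨L, hL, fun σ hσ => ?_⟩
  by_contra hne
  have h1 : (galP N σ P).ord π = 1 := by
    have := ord_galP N σ P π
    rwa [hfix σ hσ π (Finset.mem_insert_self _ _), hπ] at this
  have h2 : galP N σ P ∈ D.support := by
    rw [Finsupp.mem_support_iff, hD, h1]
    exact one_ne_zero
  obtain ⟨h3, h4⟩ := hy _ hne
  apply h4
  have h5 := (gal_mem_galP_iff N σ P (y (galP N σ P))).2 h3
  rwa [hfix σ hσ _ (Finset.mem_insert_of_mem (Finset.mem_image_of_mem y h2))] at h5

/-- every divisor of `FF N` is fixed by an open subgroup of `G_ℚ`; more precisely all the places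
of its support are. -/
theorem exists_finite_fixing_support (D : Divisor Kb (FF N)) :
    ∃ L : IntermediateField ℚ Kb, FiniteDimensional ℚ L ∧
      ∀ σ : GQ, (∀ x ∈ L, σ x = x) → ∀ P ∈ D.support, galP N σ P = P := by
  classical
  suffices h : ∀ s : Finset (Place Kb (FF N)), ∃ L : IntermediateField ℚ Kb,
      FiniteDimensional ℚ L ∧ ∀ σ : GQ, (∀ x ∈ L, σ x = x) → ∀ P ∈ s, galP N σ P = P from
    h D.support
  intro s
  induction s using Finset.induction_on with
  | empty => exact ⟨⊥, inferInstance, fun _ _ u hu => absurd hu (Finset.notMem_empty u)⟩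
  | insert a s _ ih =>
    obtain ⟨L₁, h₁, hL₁⟩ := ih
    obtain ⟨L₂, h₂, hL₂⟩ := exists_finite_fixing_place N a
    refine ⟨L₁ ⊔ L₂, IntermediateField.finiteDimensional_sup L₁ L₂, ?_⟩
    intro σ hσ u hu
    rcases Finset.mem_insert.1 hu with rfl | hu
    · exact hL₂ σ fun x hx => hσ x ((le_sup_right : L₂ ≤ L₁ ⊔ L₂) hx)
    · exact hL₁ σ (fun x hx => hσ x ((le_sup_left : L₁ ≤ L₁ ⊔ L₂) hx)) u hu

/-- Galois equivariance of values -/
theorem val_galP (σ : GQ) (P : Place Kb (FF N)) (f : FF N) :
    val (galP N σ P) (gal N σ f) = σ (val P f) :=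
  val_smul (arithmeticGalois (modularFunctionFieldFull N) σ) P f

/-- **RAT (R2)** : a `K₀`-rational function takes `K₀`-rational values at `K₀`-rational places. -/
theorem val_mem (K₀ : IntermediateField ℚ Kb) (P : Place Kb (FF N))
    (hP : ∀ σ : GQ, (∀ x ∈ K₀, σ x = x) → galP N σ P = P) (f : FF N)
    (hf : ∀ σ : GQ, (∀ x ∈ K₀, σ x = x) → gal N σ f = f) : val P f ∈ K₀ := by
  have h1 : val P f ∈ IntermediateField.fixedField (IntermediateField.fixingSubgroup K₀) := by
    rw [IntermediateField.mem_fixedField_iff]
    intro σ hσ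
    have h2 : ∀ x ∈ K₀, σ x = x := fun x hx =>
      (IntermediateField.mem_fixingSubgroup_iff K₀ σ).1 hσ x hx
    have h3 := val_galP N σ P f
    rw [hP σ h2, hf σ h2] at h3
    exact h3.symm
  have h4 : IsAlgClosure ℚ Kb := @AlgebraicClosure.instIsAlgClosure ℚ _
  have h5 : IsGalois ℚ Kb := IsAlgClosure.isGalois ℚ Kb
  rwa [InfiniteGalois.fixedField_fixingSubgroup] at h1

end Modular

end Fermat.Agent.S37.Rat
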