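import Fermat.Agent.S37.HI
import Fermat.Prelude.Def_ModularCurve_HeckeModule

set_option autoImplicit false
set_option linter.style.haveILetI false

/-!
# S37, package HI, complements : `heckeDiv` on a single place, `heckeGen ℓ •` on divisor classes
-/

namespace Fermat.Agent.S37

open ModularCurve AlgebraicCurve Fermat.Agent.S24 Fermat.Agent.ES

section Formulas

variable (N ℓ : ℕ) [NeZero N] [NeZero ℓ]

theorem heckeDiv_apply (D : Divisor Kb (FF N)) :
    haveI := hasPrincipalDivisors_FF (N * ℓ)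
    heckeDiv N ℓ D = Divisor.pushforwardAlong (heckeAlphaBar Kb N ℓ) (HI.integralAlong _)
      (Divisor.pullbackAlong (heckeBetaBar Kb N ℓ) (HI.integralAlong _) D) := rfl

theorem inertiaDegAlong_eq_one {K F E : Type*} [Field K] [IsAlgClosed K] [Field F] [Field E]
    [Algebra K F] [Algebra K E] [FF.IsFF K F] [FF.IsFF K E] (φ : F →ₐ[K] E)
    (hφ : φ.toRingHom.IsIntegral) (W : Place K E) : W.inertiaDegAlong φ hφ = 1 := by
  letI := algebraAlong φ
  haveI := isScalarTower_along φ
  haveI := isIntegral_along φ hφ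
  exact HI.inertiaDeg_eq_one W

/-- `T_ℓ Q = ∑_{W ∣_β Q} e_β(W) α(W)` -/
theorem heckeDiv_single (Q : Place Kb (FF N)) (n : ℤ) :
    haveI := hasPrincipalDivisors_FF (N * ℓ)
    heckeDiv N ℓ (Finsupp.single Q n) =
      ∑ W ∈ Place.fiberAlong (heckeBetaBar Kb N ℓ) (HI.integralAlong _) Q,
        Finsupp.single (W.restrictAlong (heckeAlphaBar Kb N ℓ) (HI.integralAlong _))
          (n * W.ramificationIndexAlong (heckeBetaBar Kb N ℓ)) := by
  haveI := hasPrincipalDivisors_FF (N * ℓ)
  rw [heckeDiv_apply, Divisor.pullbackAlong_single, map_sum]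
  refine Finset.sum_congr rfl fun W _ => ?_
  rw [Divisor.pushforwardAlong_single, inertiaDegAlong_eq_one]
  simp

/-- `∑_{W ∣_φ Q} e_φ(W) = [E : φ F]` -/
theorem sum_ramificationIndexAlong {K F E : Type*} [Field K] [IsAlgClosed K] [CharZero K]
    [Field F] [Field E] [Algebra K F] [Algebra K E] [FF.IsFF K F] [FF.IsFF K E]
    [HasPrincipalDivisors K E] (φ : F →ₐ[K] E) (hφ : φ.toRingHom.IsIntegral) (Q : Place K F) :
    ∑ W ∈ Place.fiberAlong φ hφ Q, (W.ramificationIndexAlong φ : ℤ) = (finrankAlong K φ : ℤ) := by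
  letI := algebraAlong φ
  haveI := isScalarTower_along φ
  haveI : FiniteDimensional F E := HI.finiteAlong φ
  haveI := isIntegral_along φ hφ
  have h := (HI.sumRamificationInertia (K := K) (F := F)
    (E := E)).sum_ramificationIndex_mul_inertiaDeg Q
  simp only [HI.inertiaDeg_eq_one, Nat.cast_one, mul_one] at h
  exact h

end Formulas

/-- the action of `heckeGen ℓ` on a divisor class -/
theorem heckeGen_smul_mk (N : ℕ) [NeZero N] (hcomm : HeckeOperatorsCommuteBar N) (ℓ : Nat.Primes)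
    (D : Divisor.degZero (K := Kb) (F := FF N)) :
    haveI : NeZero (ℓ : ℕ) := ⟨ℓ.2.ne_zero⟩
    (letI := heckeModuleBar N; heckeGen ℓ • (Pic0.mk D : JZero N)) =
      Pic0.mk ⟨heckeDiv N ℓ D, heckeDiv_mem_degZero N ℓ D.2⟩ := by
  haveI : NeZero (ℓ : ℕ) := ⟨ℓ.2.ne_zero⟩
  rw [heckeModuleBar_heckeGen_smul hcomm, heckeOperatorBar_apply, heckeOperatorAlong_mk]

end Fermat.Agent.S37
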