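import Fermat.Agent.S37.PDefs
import Fermat.Agent.S37.RatSec
import Fermat.Agent.S37.KT
import Fermat.Agent.ES.QEMod
import Fermat.Agent.ES.ResField

set_option autoImplicit false
set_option linter.style.haveILetI false

/-!
# S37, package STAB-H : the charts `nc`, `cu` are stable under the Hecke correspondence
-/

noncomputable section

namespace Fermat.Agent.S37

open ModularCurve AlgebraicCurve Polynomial Fermat.Agent.S24 Fermat.Agent.ES

namespace StabH

/-- `A[X] → FF N`, `X ↦ x` -/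
def evA (A : ValuationSubring Kb) {N : ℕ} (x : FF N) : (A : Type)[X] →+* FF N :=
  eval₂RingHom ((algebraMap Kb (FF N)).comp A.subtype) x

/-- the inclusion `FF N → ℚ̄((q))` -/
def incl (N : ℕ) : FF N →+* LaurentSeries Kb := (modularFunctionFieldBar N).val.toRingHom

theorem incl_apply (N : ℕ) (x : FF N) : incl N x = (x : LaurentSeries Kb) := rfl

theorem incl_comp_evA (A : ValuationSubring Kb) {N : ℕ} (x : FF N) (y : LaurentSeries A)
    (h : (x : LaurentSeries Kb) = coeffMap A.subtype y) :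
    (incl N).comp (evA A x) = (coeffMap A.subtype).comp (QE.evS y) := by
  apply Polynomial.ringHom_ext
  · intro a
    simp only [RingHom.comp_apply, evA, coe_eval₂RingHom, eval₂_C, QE.evS_C, QE.coeffMap_C]
    exact QE.algebraMap_eq_C _
  · simp only [RingHom.comp_apply, evA, coe_eval₂RingHom, eval₂_X, QE.evS_X]
    exact h

variable (M ℓ : ℕ) [NeZero M] [NeZero ℓ]

/-- `j(q^ℓ)` is integral over `A[j(q)]` -/
theorem int_beta (A : ValuationSubring Kb) :
    (evA A (heckeAlphaBar Kb M ℓ (jF M))).IsIntegralElem (heckeBetaBar Kb M ℓ (jF M)) := by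
  obtain ⟨ζ, hζ, h1, -⟩ := ResField.exists_zetaA A (M * ℓ)
  have hd : ℓ ∈ (M * ℓ).divisors := Nat.mem_divisors.2 ⟨dvd_mul_left ℓ M, NeZero.ne _⟩
  obtain ⟨P, hP, -, h0⟩ := QE.exists_monic_root (M * ℓ) ζ hζ.pow_eq_one h1
    (MvPolynomial.X ((false, ⟨ℓ, hd⟩) : S28.Gen (M * ℓ)))
  refine ⟨P, hP, ?_⟩
  apply (incl (M * ℓ)).injective
  rw [map_zero, hom_eval₂, incl_comp_evA A _ (jqModC A)
    (by rw [coe_heckeAlphaBar, coe_jF', coeffMap_jqModC])]
  have h2 : incl (M * ℓ) (heckeBetaBar Kb M ℓ (jF M)) = coeffMap A.subtype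
      (S28.ev0 A (M * ℓ) (MvPolynomial.X ((false, ⟨ℓ, hd⟩) : S28.Gen (M * ℓ)))) := by
    rw [incl_apply, coe_heckeBetaBar, coe_jF', S28.ev0, MvPolynomial.aeval_X, S28.coeffMap_gen,
      S28.gen, if_neg (by simp), S28.gX, S28.qExp_eq]
  rw [h2, ← hom_eval₂, h0, map_zero]


/-- `j(q)` is integral over `A[j(q^ℓ)]` (Atkin-Lehner) -/
theorem int_alpha [Fact ℓ.Prime] (hℓM : ¬ ℓ ∣ M) (A : ValuationSubring Kb) :
    (evA A (heckeBetaBar Kb M ℓ (jF M))).IsIntegralElem (heckeAlphaBar Kb M ℓ (jF M)) := by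
  obtain ⟨W, hα, hβ⟩ := KT.exists_W M ℓ hℓM
  obtain ⟨P, hP, h0⟩ := int_beta M ℓ A
  refine ⟨P, hP, ?_⟩
  have h1 : (W : FF (M * ℓ) →+* FF (M * ℓ)).comp (evA A (heckeAlphaBar Kb M ℓ (jF M))) =
      evA A (heckeBetaBar Kb M ℓ (jF M)) := by
    apply Polynomial.ringHom_ext
    · intro a
      simp only [RingHom.comp_apply, evA, coe_eval₂RingHom, eval₂_C]
      exact W.commutes _
    · simp only [RingHom.comp_apply, evA, coe_eval₂RingHom, eval₂_X]
      exact hα _
  have h2 := congrArg (W : FF (M * ℓ) →+* FF (M * ℓ)) h0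
  rw [hom_eval₂, h1, map_zero] at h2
  have h3 : (W : FF (M * ℓ) →+* FF (M * ℓ)) (heckeBetaBar Kb M ℓ (jF M)) =
      heckeAlphaBar Kb M ℓ (jF M) := hβ _
  rwa [h3] at h2

omit [NeZero M] [NeZero ℓ] in
/-- polynomials over `A` in a function regular at `P` with value in `A` -/
theorem evA_mem_and_val_mem {N : ℕ} [NeZero N] (A : ValuationSubring Kb)
    (P : Place Kb (FF N)) {x : FF N} (hx : x ∈ P.toValuationSubring) (hxA : Rat.val P x ∈ A)
    (s : (A : Type)[X]) : evA A x s ∈ P.toValuationSubring ∧ Rat.val P (evA A x s) ∈ A := by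
  have hpow : ∀ n : ℕ, x ^ n ∈ P.toValuationSubring ∧ Rat.val P (x ^ n) ∈ A := by
    intro n
    induction n with
    | zero =>
      rw [pow_zero, ← map_one (algebraMap Kb (FF N)), Rat.val_algebraMap]
      exact ⟨P.algebraMap_mem' 1, one_mem _⟩
    | succ n ih =>
      rw [pow_succ, Rat.val_mul P ih.1 hx]
      exact ⟨mul_mem ih.1 hx, mul_mem ih.2 hxA⟩
  induction s using Polynomial.induction_on' with
  | add p q hp hq =>
    rw [map_add, Rat.val_add P hp.1 hq.1]
    exact ⟨add_mem hp.1 hq.1, add_mem hp.2 hq.2⟩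
  | monomial n a =>
    have h1 : evA A x (monomial n a) = algebraMap Kb (FF N) (a : Kb) * x ^ n := by
      rw [evA, coe_eval₂RingHom, eval₂_monomial]
      rfl
    rw [h1, Rat.val_mul P (P.algebraMap_mem' _) (hpow n).1, Rat.val_algebraMap]
    exact ⟨mul_mem (P.algebraMap_mem' _) (hpow n).1, mul_mem a.2 (hpow n).2⟩

omit [NeZero M] [NeZero ℓ] in
/-- regularity only (take `A = ⊤`) -/
theorem mem_of_int {N : ℕ} [NeZero N] (A : ValuationSubring Kb) (P : Place Kb (FF N))
    {x y : FF N} (hx : x ∈ P.toValuationSubring) (h : (evA A x).IsIntegralElem y) :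
    y ∈ P.toValuationSubring := by
  refine Rat.mem_of_isIntegralElem P (evA A x) (fun s => ?_) h
  induction s using Polynomial.induction_on' with
  | add p q hp hq =>
    rw [map_add]
    exact add_mem hp hq
  | monomial n a =>
    have h1 : evA A x (monomial n a) = algebraMap Kb (FF N) (a : Kb) * x ^ n := by
      rw [evA, coe_eval₂RingHom, eval₂_monomial]
      rfl
    rw [h1]
    exact mul_mem (P.algebraMap_mem' _) (pow_mem hx n)

omit [NeZero M] [NeZero ℓ] in
theorem val_mem_of_int {N : ℕ} [NeZero N] (A : ValuationSubring Kb) (P : Place Kb (FF N))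
    {x y : FF N} (hx : x ∈ P.toValuationSubring) (hxA : Rat.val P x ∈ A)
    (h : (evA A x).IsIntegralElem y) : Rat.val P y ∈ A :=
  Rat.val_mem_of_isIntegralElem P A (evA A x) (fun s => (evA_mem_and_val_mem A P hx hxA s).1)
    (fun s => (evA_mem_and_val_mem A P hx hxA s).2) h

/-! ### places of `FF (M ℓ)` and their restrictions -/

section Restrict

variable {K F F' : Type*} [Field K] [Field F] [Field F'] [Algebra K F] [Algebra K F']

theorem ramificationIndexAlong_pos (φ : F →ₐ[K] F') (hφ : φ.toRingHom.IsIntegral)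
    (W : Place K F') : 0 < W.ramificationIndexAlong φ := by
  letI := algebraAlong φ
  haveI := isScalarTower_along φ
  haveI := isIntegral_along φ hφ
  exact W.ramificationIndex_pos (F := F)

theorem ord_nonneg_iff (φ : F →ₐ[K] F') (hφ : φ.toRingHom.IsIntegral) (W : Place K F') (f : F) :
    0 ≤ W.ord (φ f) ↔ 0 ≤ (W.restrictAlong φ hφ).ord f := by
  rw [Place.ord_restrictAlong φ hφ]
  have := ramificationIndexAlong_pos φ hφ W
  constructor
  · intro h
    by_contra h'
    push Not at h'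
    have : (W.ramificationIndexAlong φ : ℤ) * (W.restrictAlong φ hφ).ord f < 0 :=
      mul_neg_of_pos_of_neg (by exact_mod_cast this) h'
    omega
  · intro h
    positivity

theorem ord_pos_iff (φ : F →ₐ[K] F') (hφ : φ.toRingHom.IsIntegral) (W : Place K F') (f : F) :
    0 < W.ord (φ f) ↔ 0 < (W.restrictAlong φ hφ).ord f := by
  rw [Place.ord_restrictAlong φ hφ]
  have := ramificationIndexAlong_pos φ hφ W
  constructor
  · intro h
    by_contra h'
    push Not at h'
    have : (W.ramificationIndexAlong φ : ℤ) * (W.restrictAlong φ hφ).ord f ≤ 0 :=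
      mul_nonpos_of_nonneg_of_nonpos (by positivity) h'
    omega
  · intro h
    positivity

end Restrict


omit [NeZero M] in
/-- `j` is not constant -/
theorem jF_ne_algebraMap (c : Kb) : jF M ≠ algebraMap Kb (FF M) c := by
  intro h
  have h1 : (jF M : LaurentSeries Kb) = algebraMap Kb (LaurentSeries Kb) c :=
    congrArg (incl M) h
  rw [coe_jF', QE.algebraMap_eq_C] at h1
  have h2 := QE.evS_jqModC_ne_zero (A := Kb) (p := X - C c) (X_sub_C_ne_zero c)
  rw [map_sub, QE.evS_X, QE.evS_C, h1, sub_self] at h2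
  exact h2 rfl

theorem mem_of_ord_nonneg {K F : Type*} [Field K] [Field F] [Algebra K F] (v : Place K F) {f : F}
    (h : 0 ≤ v.ord f) : f ∈ v.toValuationSubring := by
  rcases eq_or_ne f 0 with rfl | hf
  · exact zero_mem _
  · exact (S24.Place.mem_iff_ord_nonneg v hf).2 h

/-- abstract form of the stability of `nc` -/
theorem nc_of_int {φ ψ : FF M →ₐ[Kb] FF (M * ℓ)} (A : ValuationSubring Kb)
    (h : (evA A (φ (jF M))).IsIntegralElem (ψ (jF M))) (W : Place Kb (FF (M * ℓ)))
    (hW : nc M (W.restrictAlong φ (HI.integralAlong _))) :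
    nc M (W.restrictAlong ψ (HI.integralAlong _)) := by
  rw [nc, ← ord_nonneg_iff] at hW ⊢
  exact S24.Place.ord_nonneg_of_mem W (mem_of_int A W (mem_of_ord_nonneg W hW) h)

/-- abstract form of the stability of `cu` (contrapositive) -/
theorem not_cu_of_int {φ ψ : FF M →ₐ[Kb] FF (M * ℓ)} (A : ValuationSubring Kb)
    (h : (evA A (φ (jF M))).IsIntegralElem (ψ (jF M))) (W : Place Kb (FF (M * ℓ)))
    (hW : ¬ cu A M (W.restrictAlong φ (HI.integralAlong _))) :
    ¬ cu A M (W.restrictAlong ψ (HI.integralAlong _)) := by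
  rw [cu, not_not] at hW ⊢
  obtain ⟨a, ha, hpos⟩ := hW
  rw [← ord_pos_iff, map_sub, AlgHom.commutes] at hpos
  have hmem : φ (jF M) ∈ W.toValuationSubring := by
    have h1 := add_mem (mem_of_ord_nonneg W hpos.le) (W.algebraMap_mem' a)
    rwa [sub_add_cancel] at h1
  have hval : Rat.val W (φ (jF M)) = a := (Rat.val_eq_iff W hmem a).2 (Or.inr hpos)
  have hmem' := mem_of_int A W hmem h
  have hval' := val_mem_of_int A W hmem (by rw [hval]; exact ha) h
  refine ⟨_, hval', ?_⟩
  rw [← ord_pos_iff, map_sub, AlgHom.commutes]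
  rcases Rat.val_spec W hmem' with h1 | h1
  · exfalso
    rw [← AlgHom.commutes ψ] at h1
    exact jF_ne_algebraMap M _ (ψ.toRingHom.injective h1)
  · exact h1

end StabH

theorem heckeStable_nc (M ℓ : ℕ) [NeZero M] [Fact ℓ.Prime] (hℓM : ¬ ℓ ∣ M) :
    HeckeStable M ℓ (nc M) :=
  fun W hW => StabH.nc_of_int M ℓ ⊤ (StabH.int_beta M ℓ ⊤) W hW

theorem heckeStable_cu (A : ValuationSubring Kb) (M ℓ : ℕ) [NeZero M] [Fact ℓ.Prime]
    (hℓM : ¬ ℓ ∣ M) : HeckeStable M ℓ (cu A M) :=
  fun W hW => by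
    by_contra h
    exact StabH.not_cu_of_int M ℓ A (StabH.int_alpha M ℓ hℓM A) W h hW

/-- the converse direction for `nc` -/
theorem heckeStable_nc' (M ℓ : ℕ) [NeZero M] [Fact ℓ.Prime] (hℓM : ¬ ℓ ∣ M)
    (W : Place Kb (FF (M * ℓ)))
    (hW : nc M (W.restrictAlong (heckeBetaBar Kb M ℓ) (HI.integralAlong _))) :
    nc M (W.restrictAlong (heckeAlphaBar Kb M ℓ) (HI.integralAlong _)) :=
  StabH.nc_of_int M ℓ ⊤ (StabH.int_alpha M ℓ hℓM ⊤) W hW

/-- the converse direction for `cu` -/
theorem heckeStable_cu' (A : ValuationSubring Kb) (M ℓ : ℕ) [NeZero M] [NeZero ℓ]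
    (W : Place Kb (FF (M * ℓ)))
    (hW : cu A M (W.restrictAlong (heckeBetaBar Kb M ℓ) (HI.integralAlong _))) :
    cu A M (W.restrictAlong (heckeAlphaBar Kb M ℓ) (HI.integralAlong _)) := by
  by_contra h
  exact StabH.not_cu_of_int M ℓ A (StabH.int_beta M ℓ A) W h hW

end Fermat.Agent.S37
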