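import Mathlib
import Fermat.Prelude.Def_HeckeGalois_EichlerShimura
import Fermat.Agent.Lib.Frobenius

/-!
# S37, package [QUOT] : the universal specialization

`J` an abelian group with commuting actions of the Hecke algebra and of `G = Gal(L/K)`, `A` a
valuation subring of `L`, `φ₀` a Frobenius element at `A`.  Let `M0` be the subgroup of `J`
generated by the `τ x - x` (`τ` in the inertia group) and the `φ₀² x - T_ℓ φ₀ x + ℓ x`.  Then
`J' := J / M0`, `sp := mk`, `F := φ₀` is a specialization satisfying the Eichler-Shimura relation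
as soon as `M0` contains no nonzero `p`-power torsion element.
-/

set_option autoImplicit false

namespace Fermat.Agent.S37.Quot

open ModularCurve

section Group

variable {K L : Type*} [Field K] [Field L] [Algebra K L]

theorem mem_inertiaSubgroupIn_iff (A : ValuationSubring L) (σ : L ≃ₐ[K] L) :
    σ ∈ A.inertiaSubgroupIn K ↔ ∃ hσ : σ ∈ A.decompositionSubgroup K,
      ∀ x : IsLocalRing.ResidueField A, (⟨σ, hσ⟩ : A.decompositionSubgroup K) • x = x := by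
  constructor
  · rintro ⟨⟨τ, hτ⟩, h1, rfl⟩
    refine ⟨hτ, fun x => ?_⟩
    have h2 : MulSemiringAction.toRingAut (A.decompositionSubgroup K)
        (IsLocalRing.ResidueField A) ⟨τ, hτ⟩ = 1 := h1
    exact congrArg (fun f => f x) h2
  · rintro ⟨hσ, h⟩
    refine ⟨⟨σ, hσ⟩, ?_, rfl⟩
    show MulSemiringAction.toRingAut (A.decompositionSubgroup K)
        (IsLocalRing.ResidueField A) ⟨σ, hσ⟩ = 1
    ext x
    exact h x

/-- two Frobenius elements differ by an element of the inertia group. -/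
theorem inv_mul_mem_inertia {A : ValuationSubring L} {ℓ : ℕ} {φ σ : L ≃ₐ[K] L}
    (hφ : A.IsFrobeniusAt φ ℓ) (hσ : A.IsFrobeniusAt σ ℓ) : φ⁻¹ * σ ∈ A.inertiaSubgroupIn K := by
  obtain ⟨hφD, hφ⟩ := hφ
  obtain ⟨hσD, hσ⟩ := hσ
  rw [mem_inertiaSubgroupIn_iff]
  refine ⟨mul_mem (inv_mem hφD) hσD, fun x => ?_⟩
  have h1 : (⟨φ⁻¹ * σ, mul_mem (inv_mem hφD) hσD⟩ : A.decompositionSubgroup K)
      = (⟨φ, hφD⟩ : A.decompositionSubgroup K)⁻¹ * ⟨σ, hσD⟩ := rfl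
  rw [h1, mul_smul, hσ, ← hφ, inv_smul_smul]

/-- the inertia group is normalised by the decomposition group. -/
theorem conj_mem_inertia {A : ValuationSubring L} {φ τ : L ≃ₐ[K] L}
    (hφ : φ ∈ A.decompositionSubgroup K) (hτ : τ ∈ A.inertiaSubgroupIn K) :
    φ * τ * φ⁻¹ ∈ A.inertiaSubgroupIn K := by
  rw [mem_inertiaSubgroupIn_iff] at hτ ⊢
  obtain ⟨hτD, hτ⟩ := hτ
  refine ⟨mul_mem (mul_mem hφ hτD) (inv_mem hφ), fun x => ?_⟩
  have h1 : (⟨φ * τ * φ⁻¹, mul_mem (mul_mem hφ hτD) (inv_mem hφ)⟩ : A.decompositionSubgroup K)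
      = (⟨φ, hφ⟩ : A.decompositionSubgroup K) * ⟨τ, hτD⟩ * (⟨φ, hφ⟩ : A.decompositionSubgroup K)⁻¹ :=
    rfl
  rw [h1, mul_smul, mul_smul, hτ, smul_inv_smul]

end Group

section Main

variable {K L : Type*} [Field K] [Field L] [Algebra K L]
variable (J : Type*) [AddCommGroup J] [Module HeckeAlg J]
  [DistribMulAction (L ≃ₐ[K] L) J] [SMulCommClass (L ≃ₐ[K] L) HeckeAlg J]

/-- `Θ x = φ² x - T_ℓ φ x + ℓ x`. -/
noncomputable def Theta (ℓ : Nat.Primes) (φ : L ≃ₐ[K] L) : J →ₗ[HeckeAlg] J :=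
  DistribSMul.toLinearMap HeckeAlg J φ ∘ₗ DistribSMul.toLinearMap HeckeAlg J φ
    - heckeGen ℓ • DistribSMul.toLinearMap HeckeAlg J φ + (ℓ : ℕ) • LinearMap.id

theorem Theta_apply (ℓ : Nat.Primes) (φ : L ≃ₐ[K] L) (x : J) :
    Theta J ℓ φ x = φ • φ • x - heckeGen ℓ • (φ • x) + (ℓ : ℕ) • x := rfl

theorem smul_Theta (ℓ : Nat.Primes) (φ : L ≃ₐ[K] L) (x : J) :
    φ • Theta J ℓ φ x = Theta J ℓ φ (φ • x) := by
  rw [Theta_apply, Theta_apply, smul_add, smul_sub, smul_comm φ (heckeGen ℓ), smul_comm φ (ℓ : ℕ)]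

/-- the generators `τ x - x`, `τ` in the inertia group. -/
def inertiaSet (A : ValuationSubring L) : Set J :=
  {y | ∃ τ ∈ A.inertiaSubgroupIn K, ∃ x : J, y = τ • x - x}

/-- the smallest possible kernel of a specialization map. -/
noncomputable def M0 (A : ValuationSubring L) (ℓ : Nat.Primes) (φ : L ≃ₐ[K] L) : Submodule HeckeAlg J :=
  Submodule.span HeckeAlg (inertiaSet (K := K) J A) ⊔ LinearMap.range (Theta J ℓ φ)

variable {J}

theorem smul_sub_mem_M0 (A : ValuationSubring L) (ℓ : Nat.Primes) (φ : L ≃ₐ[K] L)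
    {τ : L ≃ₐ[K] L} (hτ : τ ∈ A.inertiaSubgroupIn K) (x : J) : τ • x - x ∈ M0 J A ℓ φ :=
  Submodule.mem_sup_left (Submodule.subset_span ⟨τ, hτ, x, rfl⟩)

theorem Theta_mem_M0 (A : ValuationSubring L) (ℓ : Nat.Primes) (φ : L ≃ₐ[K] L) (x : J) :
    Theta J ℓ φ x ∈ M0 J A ℓ φ :=
  Submodule.mem_sup_right ⟨x, rfl⟩

/-- elements of the span of the `τ x - x` are finite sums of such elements. -/
theorem exists_sum_of_mem_span (A : ValuationSubring L) {x : J}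
    (hx : x ∈ Submodule.span HeckeAlg (inertiaSet (K := K) J A)) :
    ∃ (n : ℕ) (τ : Fin n → (L ≃ₐ[K] L)) (z : Fin n → J), (∀ i, τ i ∈ A.inertiaSubgroupIn K) ∧
      x = ∑ i, (τ i • z i - z i) := by
  induction hx using Submodule.span_induction with
  | mem y hy =>
    obtain ⟨τ, hτ, z, rfl⟩ := hy
    exact ⟨1, fun _ => τ, fun _ => z, fun _ => hτ, by simp⟩
  | zero => exact ⟨0, Fin.elim0, Fin.elim0, fun i => i.elim0, by simp⟩
  | add y y' _ _ hy hy' =>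
    obtain ⟨n, τ, z, hτ, rfl⟩ := hy
    obtain ⟨n', τ', z', hτ', rfl⟩ := hy'
    refine ⟨n + n', Fin.append τ τ', Fin.append z z', fun i => ?_, ?_⟩
    · refine Fin.addCases (fun i => ?_) (fun i => ?_) i
      · rw [Fin.append_left]; exact hτ i
      · rw [Fin.append_right]; exact hτ' i
    · rw [Fin.sum_univ_add]
      simp only [Fin.append_left, Fin.append_right]
  | smul T y _ hy =>
    obtain ⟨n, τ, z, hτ, rfl⟩ := hy
    refine ⟨n, τ, fun i => T • z i, hτ, ?_⟩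
    rw [Finset.smul_sum]
    refine Finset.sum_congr rfl fun i _ => ?_
    rw [smul_sub, ← smul_comm (τ i) T (z i)]

/-- **normal form** of the elements of `M0`. -/
theorem mem_M0_iff (A : ValuationSubring L) (ℓ : Nat.Primes) (φ : L ≃ₐ[K] L) (x : J) :
    x ∈ M0 J A ℓ φ ↔
      ∃ (n : ℕ) (τ : Fin n → (L ≃ₐ[K] L)) (z : Fin n → J) (y : J),
        (∀ i, τ i ∈ A.inertiaSubgroupIn K) ∧
        x = ∑ i, (τ i • z i - z i) + (φ • φ • y - heckeGen ℓ • (φ • y) + (ℓ : ℕ) • y) := by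
  constructor
  · intro hx
    obtain ⟨a, ha, b, ⟨y, rfl⟩, rfl⟩ := Submodule.mem_sup.1 hx
    obtain ⟨n, τ, z, hτ, rfl⟩ := exists_sum_of_mem_span A ha
    exact ⟨n, τ, z, y, hτ, rfl⟩
  · rintro ⟨n, τ, z, y, hτ, rfl⟩
    exact add_mem (Submodule.sum_mem _ fun i _ => smul_sub_mem_M0 A ℓ φ (hτ i) (z i))
      (Theta_mem_M0 A ℓ φ y)

/-- `M0` is stable under `φ`. -/
theorem smul_mem_M0 (A : ValuationSubring L) (ℓ : Nat.Primes) {φ : L ≃ₐ[K] L}
    (hφ : φ ∈ A.decompositionSubgroup K) {x : J} (hx : x ∈ M0 J A ℓ φ) :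
    φ • x ∈ M0 J A ℓ φ := by
  obtain ⟨n, τ, z, y, hτ, rfl⟩ := (mem_M0_iff A ℓ φ x).1 hx
  rw [smul_add, Finset.smul_sum]
  refine add_mem (Submodule.sum_mem _ fun i _ => ?_) ?_
  · have h1 : φ • (τ i • z i - z i) = (φ * τ i * φ⁻¹) • (φ • z i) - φ • z i := by
      rw [smul_sub, mul_smul, mul_smul, inv_smul_smul]
    rw [h1]
    exact smul_sub_mem_M0 A ℓ φ (conj_mem_inertia hφ (hτ i)) _
  · rw [← Theta_apply, smul_Theta]
    exact Theta_mem_M0 A ℓ φ _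

end Main

section Final

variable {K L : Type*} [Field K] [Field L] [Algebra K L]
variable {J : Type} [AddCommGroup J] [Module HeckeAlg J]
  [DistribMulAction (L ≃ₐ[K] L) J] [SMulCommClass (L ≃ₐ[K] L) HeckeAlg J]

/-- **[QUOT]** : everything is formal except that `M0` contains no `p`-power torsion. -/
theorem exists_specialization (p : ℕ) (A : ValuationSubring L) (ℓ : ℕ) (hℓ : ℓ.Prime)
    (φ : L ≃ₐ[K] L) (hφ : A.IsFrobeniusAt φ ℓ)
    (hstar : ∀ x ∈ M0 J A ⟨ℓ, hℓ⟩ φ, (∃ n : ℕ, p ^ n • x = 0) → x = 0) :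
    ∃ (J' : Type) (_ : AddCommGroup J') (_ : Module HeckeAlg J') (sp : J →+ J') (F : J' →+ J'),
      IsSpecialization (K := K) p J J' A ℓ sp F ∧ SpecialFibreRelation J' ℓ hℓ F := by
  set M := M0 J A ⟨ℓ, hℓ⟩ φ with hM
  have hstab : M ≤ M.comap (DistribSMul.toLinearMap HeckeAlg J φ) := fun x hx =>
    smul_mem_M0 A ⟨ℓ, hℓ⟩ hφ.mem_decompositionSubgroup hx
  let F : (J ⧸ M) →ₗ[HeckeAlg] (J ⧸ M) := M.mapQ M (DistribSMul.toLinearMap HeckeAlg J φ) hstab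
  have hF : ∀ x : J, F (M.mkQ x) = M.mkQ (φ • x) := fun x => rfl
  have hI : ∀ σ ∈ A.inertiaSubgroupIn K, ∀ x : J, M.mkQ (σ • x) = M.mkQ x := by
    intro σ hσ x
    rw [← sub_eq_zero, ← map_sub, Submodule.mkQ_apply, Submodule.Quotient.mk_eq_zero]
    exact smul_sub_mem_M0 A ⟨ℓ, hℓ⟩ φ hσ x
  refine ⟨J ⧸ M, inferInstance, inferInstance, M.mkQ.toAddMonoidHom, F.toAddMonoidHom,
    ⟨fun T x => map_smul M.mkQ T x, hI, fun σ hσ x => ?_, fun x hx h0 => ?_⟩, fun y => ?_⟩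
  · show M.mkQ (σ • x) = F (M.mkQ x)
    have h1 : σ • x = φ • ((φ⁻¹ * σ) • x) := by rw [← mul_smul, mul_inv_cancel_left]
    rw [h1, ← hF, hI _ (inv_mul_mem_inertia hφ hσ)]
  · refine hstar x ?_ hx
    exact (Submodule.Quotient.mk_eq_zero M).1 h0
  · obtain ⟨x, rfl⟩ := M.mkQ_surjective y
    show F (F (M.mkQ x)) - heckeGen ⟨ℓ, hℓ⟩ • F (M.mkQ x) + ℓ • M.mkQ x = 0
    rw [hF, hF, ← map_smul, ← map_nsmul, ← map_sub, ← map_add, Submodule.mkQ_apply,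
      Submodule.Quotient.mk_eq_zero]
    exact Theta_mem_M0 A ⟨ℓ, hℓ⟩ φ x

/-- `SpecializationExists` from the existence of Frobenius elements and the statement `(*)`. -/
theorem specializationExists_of (N p : ℕ)
    (hfrob : ∀ ℓ : ℕ, ℓ.Prime → ∀ A : ValuationSubring L, A.LiesOverPrime ℓ →
      ∃ φ : L ≃ₐ[K] L, A.IsFrobeniusAt φ ℓ)
    (hstar : ∀ (ℓ : ℕ) (hℓ : ℓ.Prime), ¬ ℓ ∣ N * p → ∀ A : ValuationSubring L,
      A.LiesOverPrime ℓ → ∀ φ : L ≃ₐ[K] L, A.IsFrobeniusAt φ ℓ →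
        ∀ x ∈ M0 J A ⟨ℓ, hℓ⟩ φ, (∃ n : ℕ, p ^ n • x = 0) → x = 0) :
    SpecializationExists (K := K) (L := L) N p J := by
  intro ℓ hℓ hℓN A hA
  obtain ⟨φ, hφ⟩ := hfrob ℓ hℓ A hA
  exact exists_specialization p A ℓ hℓ φ hφ (hstar ℓ hℓ hℓN A hA φ hφ)

end Final

/-- the case `K = ℚ`, `L = ℚ̄`. -/
theorem specializationExists_of_Q {J : Type} [AddCommGroup J] [Module HeckeAlg J]
    [DistribMulAction (AlgebraicClosure ℚ ≃ₐ[ℚ] AlgebraicClosure ℚ) J]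
    [SMulCommClass (AlgebraicClosure ℚ ≃ₐ[ℚ] AlgebraicClosure ℚ) HeckeAlg J] (N p : ℕ)
    (hstar : ∀ (ℓ : ℕ) (hℓ : ℓ.Prime), ¬ ℓ ∣ N * p → ∀ A : ValuationSubring (AlgebraicClosure ℚ),
      A.LiesOverPrime ℓ → ∀ φ : AlgebraicClosure ℚ ≃ₐ[ℚ] AlgebraicClosure ℚ,
        A.IsFrobeniusAt φ ℓ → ∀ x ∈ M0 J A ⟨ℓ, hℓ⟩ φ, (∃ n : ℕ, p ^ n • x = 0) → x = 0) :
    SpecializationExists (K := ℚ) (L := AlgebraicClosure ℚ) N p J :=
  specializationExists_of N p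
    (fun _ hℓ A hA => Fermat.Agent.Lib.Frobenius.exists_isFrobeniusAt A hℓ hA) hstar

end Fermat.Agent.S37.Quot
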