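import Fermat.Agent.S37.Core
import Fermat.Agent.S37.Quot
import Fermat.Agent.S37.HI2

/-!
# S37, package [FIN] : `(*)` (no `p`-power torsion in `M0`) from [CORE]
-/

set_option autoImplicit false
set_option linter.style.haveILetI false

noncomputable section

namespace Fermat.Agent.S37

open ModularCurve AlgebraicCurve Fermat.Agent.S24 Fermat.Agent.ES

namespace Fin

/-- the class map as a homomorphism. -/
def mkHom (N : ℕ) : Divisor.degZero (K := Kb) (F := FF N) →+ JZero N :=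
  QuotientAddGroup.mk' _

theorem mkHom_apply (N : ℕ) (D : Divisor.degZero (K := Kb) (F := FF N)) :
    mkHom N D = Pic0.mk D := rfl

theorem mkHom_surjective (N : ℕ) : Function.Surjective (mkHom N) := Pic0.mk_surjective

theorem mkHom_eq_zero_iff (N : ℕ) (D : Divisor.degZero (K := Kb) (F := FF N)) :
    mkHom N D = 0 ↔ (D : Divisor Kb (FF N)).IsPrincipal := by
  rw [mkHom, QuotientAddGroup.mk'_apply, QuotientAddGroup.eq_zero_iff,
    AddSubgroup.mem_addSubgroupOf, Divisor.mem_principal]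

theorem smul_mkHom (N : ℕ) (σ : GQ) (D : Divisor.degZero (K := Kb) (F := FF N)) :
    σ • mkHom N D = mkHom N (SemilinearAut.degZeroSMulHom (ag N σ) D) := rfl

/-- `heckeDiv` on divisors of degree zero. -/
def heckeDeg (N ℓ : ℕ) [NeZero N] [NeZero ℓ] :
    Divisor.degZero (K := Kb) (F := FF N) →+ Divisor.degZero (K := Kb) (F := FF N) :=
  ((heckeDiv N ℓ).domRestrict _).codRestrict _ (fun D => heckeDiv_mem_degZero N ℓ D.2)

theorem coe_heckeDeg (N ℓ : ℕ) [NeZero N] [NeZero ℓ] (D : Divisor.degZero (K := Kb) (F := FF N)) :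
    (heckeDeg N ℓ D : Divisor Kb (FF N)) = heckeDiv N ℓ D := rfl

theorem heckeGen_smul_mkHom (N : ℕ) [NeZero N] (hcomm : HeckeOperatorsCommuteBar N)
    (ℓ : ℕ) (hℓ : ℓ.Prime) [NeZero ℓ] (D : Divisor.degZero (K := Kb) (F := FF N)) :
    (letI := heckeModuleBar N; heckeGen ⟨ℓ, hℓ⟩ • mkHom N D) = mkHom N (heckeDeg N ℓ D) :=
  heckeGen_smul_mk N hcomm ⟨ℓ, hℓ⟩ D

set_option maxHeartbeats 2000000 in
/-- `(*)` from [CORE]. -/
theorem hstar_of_core (N p : ℕ) [NeZero N] (hcomm : HeckeOperatorsCommuteBar N)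
    (hcore : ∀ (ℓ : ℕ) [Fact ℓ.Prime], ¬ ℓ ∣ N → ∀ A : ValuationSubring Kb, A.LiesOverPrime ℓ →
      ∀ φ : GQ, A.IsFrobeniusAt φ ℓ → ∀ m : ℕ, ¬ ℓ ∣ m → ∀ (n : ℕ) (τ : Fin n → GQ),
      (∀ i, τ i ∈ A.inertiaSubgroupIn ℚ) → ∀ (Ds : Fin n → Divisor Kb (FF N))
      (D' : Divisor Kb (FF N)),
      (m • (∑ i, (ag N (τ i) • Ds i - Ds i) +
        (ag N φ • ag N φ • D' - heckeDiv N ℓ (ag N φ • D') + ℓ • D'))).IsPrincipal →
      (∑ i, (ag N (τ i) • Ds i - Ds i) +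
        (ag N φ • ag N φ • D' - heckeDiv N ℓ (ag N φ • D') + ℓ • D')).IsPrincipal) :
    letI := heckeModuleBar N
    ∀ (_ : SMulCommClass GQ HeckeAlg (JZero N)),
    ∀ (ℓ : ℕ) (hℓ : ℓ.Prime), ¬ ℓ ∣ N * p → ∀ A : ValuationSubring Kb,
      A.LiesOverPrime ℓ → ∀ φ : GQ, A.IsFrobeniusAt φ ℓ →
        ∀ x ∈ Quot.M0 (JZero N) A ⟨ℓ, hℓ⟩ φ, (∃ n : ℕ, p ^ n • x = 0) → x = 0 := by
  letI := heckeModuleBar N
  intro hsc ℓ hℓ hℓNp A hA φ hφ x hx ⟨k, hk⟩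
  haveI : Fact ℓ.Prime := ⟨hℓ⟩
  have hℓN : ¬ ℓ ∣ N := fun h => hℓNp (h.mul_right p)
  have hℓp : ¬ ℓ ∣ p ^ k := fun h => hℓNp ((hℓ.dvd_of_dvd_pow h).mul_left N)
  obtain ⟨n, τ, z, y, hτ, rfl⟩ := (Quot.mem_M0_iff A ⟨ℓ, hℓ⟩ φ x).1 hx
  choose Ds hDs using fun i => mkHom_surjective N (z i)
  obtain ⟨D', rfl⟩ := mkHom_surjective N y
  obtain ⟨E, hE⟩ : ∃ E : Divisor.degZero (K := Kb) (F := FF N), E =
    ∑ i, (SemilinearAut.degZeroSMulHom (ag N (τ i)) (Ds i) - Ds i) +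
      (SemilinearAut.degZeroSMulHom (ag N φ) (SemilinearAut.degZeroSMulHom (ag N φ) D')
        - heckeDeg N ℓ (SemilinearAut.degZeroSMulHom (ag N φ) D') + ℓ • D') := ⟨_, rfl⟩
  have h1 : mkHom N E = ∑ i, (mkHom N (SemilinearAut.degZeroSMulHom (ag N (τ i)) (Ds i))
      - mkHom N (Ds i)) +
      (mkHom N (SemilinearAut.degZeroSMulHom (ag N φ) (SemilinearAut.degZeroSMulHom (ag N φ) D'))
        - mkHom N (heckeDeg N ℓ (SemilinearAut.degZeroSMulHom (ag N φ) D')) + ℓ • mkHom N D') := by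
    rw [hE, (mkHom N).map_add, (mkHom N).map_add, (mkHom N).map_sub, (mkHom N).map_nsmul,
      _root_.map_sum]
    simp only [(mkHom N).map_sub]
  have h2 : ∀ i, τ i • z i - z i = mkHom N (SemilinearAut.degZeroSMulHom (ag N (τ i)) (Ds i))
      - mkHom N (Ds i) := fun i => by rw [← smul_mkHom, hDs]
  have h3 : heckeGen ⟨ℓ, hℓ⟩ • (φ • mkHom N D') =
      mkHom N (heckeDeg N ℓ (SemilinearAut.degZeroSMulHom (ag N φ) D')) :=
    heckeGen_smul_mkHom N hcomm ℓ hℓ _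
  have h4 : φ • φ • mkHom N D' =
      mkHom N (SemilinearAut.degZeroSMulHom (ag N φ) (SemilinearAut.degZeroSMulHom (ag N φ) D')) :=
    rfl
  have hx' : ∑ i, (τ i • z i - z i) + (φ • φ • mkHom N D' -
      heckeGen ⟨ℓ, hℓ⟩ • (φ • mkHom N D') + ((⟨ℓ, hℓ⟩ : Nat.Primes) : ℕ) • mkHom N D') =
      mkHom N E := by
    rw [h1, h3, h4, Finset.sum_congr rfl fun i _ => h2 i]
  rw [hx'] at hk ⊢
  rw [← map_nsmul, mkHom_eq_zero_iff] at hk
  rw [mkHom_eq_zero_iff]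
  have hcoe : (E : Divisor Kb (FF N)) = ∑ i, (ag N (τ i) • (Ds i : Divisor Kb (FF N)) - Ds i) +
      (ag N φ • ag N φ • (D' : Divisor Kb (FF N)) - heckeDiv N ℓ (ag N φ • (D' : Divisor Kb (FF N)))
        + ℓ • (D' : Divisor Kb (FF N))) := by
    rw [hE]
    simp only [AddSubgroup.coe_add, AddSubgroup.coe_sub, AddSubgroup.val_finsetSum,
      SemilinearAut.coe_degZeroSMulHom, coe_heckeDeg, AddSubgroup.coe_nsmul]
  rw [AddSubgroup.coe_nsmul, hcoe] at hk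
  rw [hcoe]
  exact hcore ℓ hℓN A hA φ hφ (p ^ k) hℓp n τ hτ _ _ hk

end Fin

theorem hstar (N p : ℕ) [NeZero N] (hcomm : HeckeOperatorsCommuteBar N) :
    letI := heckeModuleBar N
    ∀ (_ : SMulCommClass GQ HeckeAlg (JZero N)),
    ∀ (ℓ : ℕ) (hℓ : ℓ.Prime), ¬ ℓ ∣ N * p → ∀ A : ValuationSubring Kb,
      A.LiesOverPrime ℓ → ∀ φ : GQ, A.IsFrobeniusAt φ ℓ →
        ∀ x ∈ Quot.M0 (JZero N) A ⟨ℓ, hℓ⟩ φ, (∃ n : ℕ, p ^ n • x = 0) → x = 0 :=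
  Fin.hstar_of_core N p hcomm fun ℓ _ hℓN A hA φ hφ m hℓm _ τ hτ Ds D' hE =>
    core_all N ℓ hℓN A hA φ hφ m hℓm τ hτ Ds D' hE

end Fermat.Agent.S37
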