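import Fermat.Agent.ES.HDiv
import Fermat.Agent.ES.InstPl

/-!
# S37, package LOC, part over `ℚ̄` : `1 ∈ L(E) L(-E)` on an affine chart
-/

set_option autoImplicit false

noncomputable section

namespace Fermat.Agent.S37.LocInv

open IsDedekindDomain FractionalIdeal nonZeroDivisors WithZero AlgebraicCurve IntermediateField
open Fermat.Agent.ES Fermat.Agent.S24

section Abs

variable {B F : Type*} [CommRing B] [IsDedekindDomain B] [Field F] [Algebra B F]
  [IsFractionRing B F]

theorem le_of_mem (D : FractionalIdeal B⁰ F) (g : F) (hg : g ∈ D) (hg0 : g ≠ 0)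
    (v : HeightOneSpectrum B) : count F v D ≤ - log (v.valuation F g) := by
  have h0 : spanSingleton B⁰ g ≠ 0 := by
    rw [Ne, spanSingleton_eq_zero_iff]
    exact hg0
  have hle : spanSingleton B⁰ g ≤ D := (spanSingleton_le_iff_mem).2 hg
  have := count_mono F v h0 hle
  rw [HDiv.log_valuation v g hg0]
  omega

/-- **LOC-INV, abstract form.** -/
theorem exists_witness_of_dedekind (exps : HeightOneSpectrum B → ℤ)
    (hfin : ∀ᶠ v : HeightOneSpectrum B in Filter.cofinite, exps v = 0) :
    ∃ (n : ℕ) (g g' : Fin n → F),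
      (∀ i, g i ≠ 0 → ∀ v : HeightOneSpectrum B, exps v ≤ - log (v.valuation F (g i))) ∧
      (∀ i, g' i ≠ 0 → ∀ v : HeightOneSpectrum B, - exps v ≤ - log (v.valuation F (g' i))) ∧
      ∑ i, g i * g' i = 1 := by
  classical
  set D : FractionalIdeal B⁰ F :=
    ∏ᶠ v : HeightOneSpectrum B, (v.asIdeal : FractionalIdeal B⁰ F) ^ exps v with hD
  have hD0 : D ≠ 0 := by
    rw [hD, finprod_eq_finsetProd_of_mulSupport_subset (s := hfin.toFinset)]
    · exact Finset.prod_ne_zero_iff.2 fun v _ => zpow_ne_zero _ (coeIdeal_ne_zero.mpr v.ne_bot)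
    · rw [Set.Finite.coe_toFinset]
      intro v hv h0
      rw [Function.mem_mulSupport, h0, zpow_zero] at hv
      exact hv rfl
  have hc : ∀ v, count F v D = exps v := fun v => by rw [hD, count_finprod F v exps hfin]
  have h1 : (1 : F) ∈ ((D * D⁻¹ : FractionalIdeal B⁰ F) : Submodule B F) := by
    rw [mul_inv_cancel₀ hD0]
    exact one_mem_one B⁰
  rw [FractionalIdeal.coe_mul] at h1
  obtain ⟨n, g, g', hg, hg', e⟩ := HDiv.exists_sum_of_mem_mul h1
  refine ⟨n, g, g', fun i h0 v => ?_, fun i h0 v => ?_, e⟩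
  · rw [← hc v]
    exact le_of_mem D (g i) (hg i) h0 v
  · rw [← hc v, ← count_inv]
    exact le_of_mem D⁻¹ (g' i) (hg' i) h0 v

end Abs

section Place

variable {K F : Type*} [Field K] [Field F] [Algebra K F]

open scoped IntermediateField.algebraAdjoinAdjoin

/-- **LOC-INV for a function field**: chart `y ≠ ∞`. -/
theorem exists_witness {y : F} (hy : Transcendental K y) [FiniteDimensional K⟮y⟯ F]
    [Algebra.IsSeparable K⟮y⟯ F] (E : Divisor K F) :
    ∃ (n : ℕ) (g g' : Fin n → F),
      (∀ i, g i ≠ 0 → ∀ v : Place K F, 0 ≤ v.ord y → 0 ≤ v.ord (g i) + E v) ∧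
      (∀ i, g' i ≠ 0 → ∀ v : Place K F, 0 ≤ v.ord y → 0 ≤ v.ord (g' i) - E v) ∧
      ∑ i, g i * g' i = 1 := by
  classical
  have := ConstAbs.isPrincipalIdealRing_adjoin hy
  have : IsDedekindDomain (integralClosure (Algebra.adjoin K {y}) F) :=
    integralClosure.isDedekindDomain (Algebra.adjoin K {y}) K⟮y⟯ F
  have : IsFractionRing (integralClosure (Algebra.adjoin K {y}) F) F :=
    integralClosure.isFractionRing_of_finite_extension K⟮y⟯ F
  set pl : HeightOneSpectrum (integralClosure (Algebra.adjoin K {y}) F) → Place K F :=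
    fun w => Place.ofHeightOneSpectrum (K := K) (F := F) w with hpl
  have hinj : Function.Injective pl := FF.ofHeightOneSpectrum_injective
  have hfin : ∀ᶠ w : HeightOneSpectrum (integralClosure (Algebra.adjoin K {y}) F)
      in Filter.cofinite, - E (pl w) = 0 := by
    have h1 : {w | ¬ (- E (pl w) = 0)} ⊆ pl ⁻¹' (E.support : Set (Place K F)) := by
      intro w hw
      simp only [Set.mem_setOf_eq, neg_eq_zero] at hw
      simpa using hw
    exact ((E.support.finite_toSet).preimage hinj.injOn).subset h1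
  obtain ⟨n, g, g', hg, hg', e⟩ := exists_witness_of_dedekind
    (B := integralClosure (Algebra.adjoin K {y}) F) (F := F) (fun w => - E (pl w)) hfin
  have hex : ∀ v : Place K F, 0 ≤ v.ord y → ∃ w, pl w = v := by
    intro v hv
    apply FF.exists_heightOneSpectrum
    intro r
    rcases eq_or_ne (algebraMap (integralClosure (Algebra.adjoin K {y}) F) F r) 0 with h0 | h0
    · rw [h0]; exact zero_mem _
    · exact (FF.mem_iff_ord_nonneg v h0).2 (Inst.InstPl.ord_nonneg_of_isIntegral r.2 v hv)
  refine ⟨n, g, g', fun i h0 v hv => ?_, fun i h0 v hv => ?_, e⟩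
  · obtain ⟨w, rfl⟩ := hex v hv
    have := hg i h0 w
    rw [← FF.ord_ofHeightOneSpectrum (K := K)] at this
    simp only [hpl] at this ⊢
    omega
  · obtain ⟨w, rfl⟩ := hex v hv
    have := hg' i h0 w
    rw [← FF.ord_ofHeightOneSpectrum (K := K)] at this
    simp only [hpl] at this ⊢
    omega

end Place

end Fermat.Agent.S37.LocInv
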