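import Fermat.Agent.S37.F1Core
import Fermat.Agent.S37.LocInv
import Fermat.Agent.ES.InstFinal
import Fermat.Agent.ES.InstJ
import Fermat.Agent.ES.RamJU

/-!
# S37, package F1 : `Pair A N (Cx x) E` for the good charts

`x = Z.xF`, `x = Z.xF⁻¹` (`Z : ZCoord N ℓ` unramified outside `g = 0`, `g` separable modulo `ℓ`),
in particular `x = 1 / j` for every `ℓ ∤ N`.
-/

set_option autoImplicit false

noncomputable section

namespace Fermat.Agent.S37.F1

open ModularCurve AlgebraicCurve Polynomial IntermediateField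
open Fermat.Agent.S24 Fermat.Agent.S28 Fermat.Agent.ES Fermat.Agent.ES.QE Fermat.Agent.ES.Model
  Fermat.Agent.ES.IDvr Fermat.Agent.ES.Inst Fermat.Agent.ES.Inst.InstCoord

theorem isSeparable_of_finite (N : ℕ) (x : FF N) (_hfd : FiniteDimensional Kb⟮x⟯ (FF N)) :
    Algebra.IsSeparable Kb⟮x⟯ (FF N) := by
  have : Algebra.IsAlgebraic Kb⟮x⟯ (FF N) := Algebra.IsAlgebraic.of_finite _ _
  exact Algebra.IsAlgebraic.isSeparable_of_perfectField

/-- the QE data over a sufficiently large number field. -/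
theorem exists_data (N ℓ : ℕ) [NeZero N] (hℓ : ℓ.Prime) (hℓN : ¬ ℓ ∣ N)
    (A : ValuationSubring Kb) (hA : A.LiesOverPrime ℓ) (Z : ZCoord N ℓ) (S : Finset (FF N)) :
    ∃ (K0 : IntermediateField ℚ Kb) (_ : IsDiscreteValuationRing (R0 K0 A))
      (D : QData (R0 K0 A) K0 (kA A)) (ι : D.F0 →+* FF N) (X : D.Coord)
      (y : LaurentSeries (R0 K0 A)) (hxy : X.xW * y = 1),
      D.res = res0 K0 A ∧
      (∀ f : D.F0, ((ι f : FF N) : LaurentSeries Kb) = bc K0 (f : LaurentSeries K0)) ∧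
      ι X.x = Z.xF ∧ ι (X.inv y hxy).x = Z.xF⁻¹ ∧ (∀ f ∈ S, ∃ f0 : D.F0, ι f0 = f) ∧
      ∀ (X' : D.Coord), Transcendental Kb (ι X'.x) → FiniteDimensional Kb⟮ι X'.x⟯ (FF N) →
        ∀ g : (R0 K0 A)[X], (g.map D.res).Separable →
        (∀ a : Kb, (g.map ((algebraMap K0 Kb).comp (algebraMap (R0 K0 A) K0))).eval a ≠ 0 →
          ∀ v : Place Kb (FF N), 0 < v.ord (ι X'.x - algebraMap Kb (FF N) a) →
            v.ord (ι X'.x - algebraMap Kb (FF N) a) = 1) →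
        IsDedekindDomain (X'.chart ⧸ Ideal.span {ϖB X'}) := by
  classical
  obtain ⟨K1, hK1, hQD⟩ := exists_QData N ℓ hℓ hℓN A hA
  obtain ⟨K2, hK2, hDed⟩ := hDed N ℓ hℓ hℓN A hA
  obtain ⟨K0, hK0, hle, hS⟩ := exists_K0 N (K1 ⊔ K2) (insert Z.xF S)
  have hdvr := isDVR K0 A hℓ hA
  have hchar : CharP (kA A) ℓ := ResField.charP hℓ hA
  obtain ⟨D, hF, hres⟩ := hQD K0 hK0 (le_sup_left.trans hle)
  let ι : D.F0 →+* FF N :=
    ((bc K0).comp (algebraMap D.F0 (LaurentSeries K0))).codRestrict (modularFunctionFieldBar N)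
      (fun f => bc_mem K0 N (hF ▸ f.2))
  have hι : ∀ f : D.F0, ((ι f : FF N) : LaurentSeries Kb) = bc K0 (f : LaurentSeries K0) :=
    fun _ => rfl
  have lift : ∀ f ∈ insert Z.xF S, ∃ f0 : D.F0, ι f0 = f := by
    intro f hf
    obtain ⟨f0, hf0, h⟩ := hS f hf
    exact ⟨⟨f0, hF ▸ hf0⟩, Subtype.ext h⟩
  obtain ⟨x0, hx0⟩ := lift Z.xF (by simp)
  have hx : zS K0 Z.xZ ∈ D.F0 := by
    have h1 : bc K0 (x0 : LaurentSeries K0) = bc K0 (zS K0 Z.xZ) := by
      rw [← hι, hx0]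
      exact (coeffMap_zS (algebraMap K0 Kb) Z.xZ).symm
    have h2 : (x0 : LaurentSeries K0) = zS K0 Z.xZ :=
      QE.coeffMap_injective (algebraMap K0 Kb).injective h1
    rw [← h2]
    exact x0.2
  have hxy : (toCoord Z D hx).xW * zS (R0 K0 A) Z.yZ = 1 := toCoord_mul Z D hx
  have hιx : ι (toCoord Z D hx).x = Z.xF := by
    apply Subtype.ext
    rw [hι, coe_toCoord_x]
    exact coeffMap_zS (algebraMap K0 Kb) Z.xZ
  refine ⟨K0, hdvr, D, ι, toCoord Z D hx, zS (R0 K0 A) Z.yZ, hxy, hres, hι, hιx, ?_,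
    fun f hf => lift f (Finset.mem_insert_of_mem hf), ?_⟩
  · rw [(toCoord Z D hx).inv_x _ hxy, map_inv₀, hιx]
  · intro X' h1 h2 g h3 h4
    exact hDed K0 hK0 (le_sup_right.trans hle) D hF hres X' ι hι h1 h2 g h3 h4

/-- common part of the two charts. -/
theorem pair_aux (N : ℕ) [NeZero N] (A : ValuationSubring Kb) {K0 : IntermediateField ℚ Kb}
    [IsDiscreteValuationRing (R0 K0 A)] (D : QData (R0 K0 A) K0 (kA A)) (ι : D.F0 →+* FF N)
    (hres : D.res = res0 K0 A)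
    (hι : ∀ f : D.F0, ((ι f : FF N) : LaurentSeries Kb) = bc K0 (f : LaurentSeries K0))
    (X : D.Coord) (x : FF N) (hx : ι X.x = x) (hxt : Transcendental Kb x)
    (hfd : FiniteDimensional Kb⟮x⟯ (FF N))
    (hD : ∀ g : (R0 K0 A)[X], (g.map D.res).Separable →
        (∀ a : Kb, (g.map ((algebraMap K0 Kb).comp (algebraMap (R0 K0 A) K0))).eval a ≠ 0 →
          ∀ v : Place Kb (FF N), 0 < v.ord (ι X.x - algebraMap Kb (FF N) a) →
            v.ord (ι X.x - algebraMap Kb (FF N) a) = 1) →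
        IsDedekindDomain (X.chart ⧸ Ideal.span {ϖB X}))
    (g : ℤ[X]) (hg : (g.map (Int.castRingHom (kA A))).Separable)
    (hU : ∀ a : Kb, (g.map (Int.castRingHom Kb)).eval a ≠ 0 → ∀ v : Place Kb (FF N),
      0 < v.ord (x - algebraMap Kb (FF N) a) → v.ord (x - algebraMap Kb (FF N) a) = 1)
    (E : Divisor Kb (FF N)) (n : ℕ) (g1 g1' : Fin n → FF N)
    (h11 : ∀ i, g1 i ≠ 0 → ∀ v : Place Kb (FF N), 0 ≤ v.ord x → 0 ≤ v.ord (g1 i) + E v)
    (h12 : ∀ i, g1' i ≠ 0 → ∀ v : Place Kb (FF N), 0 ≤ v.ord x → 0 ≤ v.ord (g1' i) - E v)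
    (h13 : ∑ i, g1 i * g1' i = 1)
    (l1 : ∀ i, ∃ f0 : D.F0, ι f0 = g1 i) (l1' : ∀ i, ∃ f0 : D.F0, ι f0 = g1' i) :
    Pair A N (Cx x) E := by
  subst hx
  choose G1 hG1 using l1
  choose G1' hG1' using l1'
  have hded : IsDedekindDomain (X.chart ⧸ Ideal.span {ϖB X}) := by
    refine hD (g.map (Int.castRingHom _)) ?_ ?_
    · rw [Polynomial.map_map]
      have : D.res.comp (Int.castRingHom (R0 K0 A)) = Int.castRingHom (kA A) :=
        RingHom.ext_int _ _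
      rw [this]
      exact hg
    · intro a ha
      rw [Polynomial.map_map] at ha
      have : ((algebraMap K0 Kb).comp (algebraMap (R0 K0 A) K0)).comp
          (Int.castRingHom (R0 K0 A)) = Int.castRingHom Kb := RingHom.ext_int _ _
      rw [this] at ha
      exact hU a ha
  refine pair_core D ι hres hι X hxt hded E n G1 G1' ?_ ?_ (ι.injective ?_)
  · intro i; rw [hG1]; exact h11 i
  · intro i; rw [hG1']; exact h12 i
  · rw [map_sum, map_one, ← h13]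
    exact Finset.sum_congr rfl fun i _ => by rw [map_mul, hG1, hG1']

/-- **F1** for the chart `x = Z.xF`. -/
theorem pair_of_coord (N ℓ : ℕ) [NeZero N] (hℓ : ℓ.Prime) (hℓN : ¬ ℓ ∣ N)
    (A : ValuationSubring Kb) (hA : A.LiesOverPrime ℓ) (Z : ZCoord N ℓ) (g : ℤ[X])
    (hg : (g.map (Int.castRingHom (kA A))).Separable)
    (hU : ∀ a : Kb, (g.map (Int.castRingHom Kb)).eval a ≠ 0 → ∀ v : Place Kb (FF N),
      0 < v.ord (Z.xF - algebraMap Kb (FF N) a) → v.ord (Z.xF - algebraMap Kb (FF N) a) = 1)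
    (E : Divisor Kb (FF N)) : Pair A N (Cx Z.xF) E := by
  classical
  have hxt := transcendental_xF Z
  have hfd := finiteDimensional_xF Z
  have hsep := isSeparable_of_finite N _ hfd
  obtain ⟨n, g1, g1', h11, h12, h13⟩ := LocInv.exists_witness hxt E
  obtain ⟨K0, hdvr, D, ι, X, y, hxy, hres, hι, hιx, -, lift, hD⟩ :=
    exists_data N ℓ hℓ hℓN A hA Z (Finset.univ.image g1 ∪ Finset.univ.image g1')
  exact pair_aux N A D ι hres hι X Z.xF hιx hxt hfd
    (hD X (by rw [hιx]; exact hxt) (by rw [hιx]; exact hfd)) g hg hU E n g1 g1' h11 h12 h13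
    (fun i => lift _ (by simp)) (fun i => lift _ (by simp))

/-- **F1** for the chart `x = 1 / Z.xF`. -/
theorem pair_of_coord_inv (N ℓ : ℕ) [NeZero N] (hℓ : ℓ.Prime) (hℓN : ¬ ℓ ∣ N)
    (A : ValuationSubring Kb) (hA : A.LiesOverPrime ℓ) (Z : ZCoord N ℓ) (g : ℤ[X])
    (hg : (g.map (Int.castRingHom (kA A))).Separable)
    (hU : ∀ a : Kb, (g.map (Int.castRingHom Kb)).eval a ≠ 0 → ∀ v : Place Kb (FF N),
      0 < v.ord (Z.xF⁻¹ - algebraMap Kb (FF N) a) →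
        v.ord (Z.xF⁻¹ - algebraMap Kb (FF N) a) = 1)
    (E : Divisor Kb (FF N)) : Pair A N (Cx Z.xF⁻¹) E := by
  classical
  have hxt : Transcendental Kb Z.xF⁻¹ := FF.transcendental_inv (transcendental_xF Z)
  have hfd := finiteDimensional_xF_inv Z
  have hsep := isSeparable_of_finite N _ hfd
  obtain ⟨n, g1, g1', h11, h12, h13⟩ := LocInv.exists_witness hxt E
  obtain ⟨K0, hdvr, D, ι, X, y, hxy, hres, hι, -, hιx, lift, hD⟩ :=
    exists_data N ℓ hℓ hℓN A hA Z (Finset.univ.image g1 ∪ Finset.univ.image g1')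
  exact pair_aux N A D ι hres hι (X.inv y hxy) Z.xF⁻¹ hιx hxt hfd
    (hD (X.inv y hxy) (by rw [hιx]; exact hxt) (by rw [hιx]; exact hfd)) g hg hU E n g1 g1'
    h11 h12 h13 (fun i => lift _ (by simp)) (fun i => lift _ (by simp))

/-- **F1**, chart `x`, for a coordinate unramified outside `{0, a, ∞}`. -/
theorem pair_fin (N ℓ : ℕ) [NeZero N] (hℓ : ℓ.Prime) (hℓN : ¬ ℓ ∣ N)
    (A : ValuationSubring Kb) (hA : A.LiesOverPrime ℓ) (Z : ZCoord N ℓ) (hU : Z.Unram)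
    (E : Divisor Kb (FF N)) : Pair A N (Cx Z.xF) E := by
  have hchar : CharP (kA A) ℓ := ResField.charP hℓ hA
  refine pair_of_coord N ℓ hℓ hℓN A hA Z (gFin ℤ Z.a) ?_ ?_ E
  · rw [gFin_map]
    exact InstFinal.separable_gFin _ _ (InstFinal.intCast_ne_zero (kA A) Z.a_prim)
  · intro a ha v hv
    rw [gFin_map] at ha
    exact unram_fin Z hU a ha v hv

/-- **F1**, chart `1 / x`, for a coordinate unramified outside `{0, a, ∞}`. -/
theorem pair_inf (N ℓ : ℕ) [NeZero N] (hℓ : ℓ.Prime) (hℓN : ¬ ℓ ∣ N)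
    (A : ValuationSubring Kb) (hA : A.LiesOverPrime ℓ) (Z : ZCoord N ℓ) (hU : Z.Unram)
    (E : Divisor Kb (FF N)) : Pair A N (Cx Z.xF⁻¹) E := by
  refine pair_of_coord_inv N ℓ hℓ hℓN A hA Z (gInf ℤ Z.a) ?_ ?_ E
  · rw [gInf_map]
    exact InstFinal.separable_gInf _ _
  · intro a ha v hv
    rw [gInf_map] at ha
    exact unram_inf Z hU a ha v hv

/-- the coordinate `j` for an arbitrary prime `ℓ` (dummy branch value `a = 1`). -/
def jCoord1 (N ℓ : ℕ) [NeZero N] (hℓ : ℓ.Prime) : ZCoord N ℓ where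
  xZ := jqModC ℤ
  yZ := jInvW ℤ
  mul_eq := jqModC_mul_jInvW ℤ
  coeff_neg_one := Ord.coeff_single_mul_ofPS ℤ (-1) jNum constantCoeff_jNum
  coeff_of_lt := fun _ hn => Ord.coeff_single_mul_ofPS_of_lt ℤ (-1) jNum hn
  P := X
  Q := 1
  rel := by rw [map_one, mul_one, evS_X]
  Q_prim := by
    have : Fact ℓ.Prime := ⟨hℓ⟩
    rw [Polynomial.map_one]
    exact one_ne_zero
  mem := by
    rw [InstJ.zS_jqModC, ← coe_jF' N]
    exact (jF N).2
  a := 1
  a_prim := by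
    intro h
    have h1 : ℓ ∣ 1 := by exact_mod_cast h
    exact hℓ.one_lt.ne' (Nat.dvd_one.1 h1)

theorem jCoord1_xF (N ℓ : ℕ) [NeZero N] (hℓ : ℓ.Prime) : (jCoord1 N ℓ hℓ).xF = jF N :=
  Subtype.ext ((InstJ.zS_jqModC Kb).trans (coe_jF' N).symm)

/-- **F1**, chart `1 / j`, for every `ℓ ∤ N`. -/
theorem pair_jinv (N ℓ : ℕ) [NeZero N] (hℓ : ℓ.Prime) (hℓN : ¬ ℓ ∣ N)
    (A : ValuationSubring Kb) (hA : A.LiesOverPrime ℓ) (E : Divisor Kb (FF N)) :
    Pair A N (Cx (jF N)⁻¹) E := by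
  have h := pair_of_coord_inv N ℓ hℓ hℓN A hA (jCoord1 N ℓ hℓ) (gInf ℤ 1728) ?_ ?_ E
  · rwa [jCoord1_xF] at h
  · rw [gInf_map]
    exact InstFinal.separable_gInf _ _
  · intro a ha v hv
    rw [jCoord1_xF] at hv ⊢
    refine RamJU.hU_jinv N (Int.castRingHom Kb) a ?_ v hv
    simpa [gInf] using ha

/-- `Pair` is monotone in the chart. -/
theorem pair_mono {A : ValuationSubring Kb} {N : ℕ} {c c' : Place Kb (FF N) → Prop}
    (h : ∀ v, c' v → c v) {E : Divisor Kb (FF N)} (hP : Pair A N c E) : Pair A N c' E := by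
  obtain ⟨n, f, f', hf, hf', e⟩ := hP
  exact ⟨n, f, f', fun k => ⟨(hf k).1, (hf k).2.imp id fun h1 v hv => h1 v (h v hv)⟩,
    fun k => ⟨(hf' k).1, (hf' k).2.imp id fun h1 v hv => h1 v (h v hv)⟩, e⟩

theorem Cx_jinv_of_cu {A : ValuationSubring Kb} {N : ℕ} (v : Place Kb (FF N)) (hv : cu A N v) :
    Cx (jF N)⁻¹ v := by
  unfold Cx
  by_contra hcon
  push Not at hcon
  apply hv
  refine ⟨0, A.zero_mem, ?_⟩
  rw [map_zero, sub_zero]
  rw [v.ord_inv] at hcon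
  omega

/-- **F1** on the cuspidal discs, for every `ℓ ∤ N`. -/
theorem pair_cu (N ℓ : ℕ) [NeZero N] (hℓ : ℓ.Prime) (hℓN : ¬ ℓ ∣ N)
    (A : ValuationSubring Kb) (hA : A.LiesOverPrime ℓ) (E : Divisor Kb (FF N)) :
    Pair A N (cu A N) E :=
  pair_mono Cx_jinv_of_cu (pair_jinv N ℓ hℓ hℓN A hA E)

end Fermat.Agent.S37.F1
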