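import Fermat.Agent.S37.PDefs
import Fermat.Agent.ES.InstXF

/-!
# S37, package INCL : the charts `nc`, `cu` are contained in the charts of the coordinates
-/

set_option autoImplicit false

namespace Fermat.Agent.S37

open ModularCurve AlgebraicCurve Polynomial Fermat.Agent.S24 Fermat.Agent.ES Fermat.Agent.ES.Inst

namespace Incl

/-- the value of a polynomial at an element of negative valuation. -/
theorem val_aeval {K F : Type*} [Field K] [Field F] [Algebra K F] (w : F → ℤ)
    (hmul : ∀ f g : F, f ≠ 0 → g ≠ 0 → w (f * g) = w f + w g)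
    (hadd : ∀ f g : F, f ≠ 0 → w f < w g → w (f + g) = w f)
    (hc : ∀ a : K, w (algebraMap K F a) = 0) {x : F} (hx : w x < 0) :
    ∀ (n : ℕ) (p : K[X]), p.natDegree = n → p ≠ 0 →
      aeval x p ≠ 0 ∧ w (aeval x p) = p.natDegree * w x := by
  have h0 : w 0 = 0 := by simpa using hc 0
  have hx0 : x ≠ 0 := by
    rintro rfl
    rw [h0] at hx
    exact lt_irrefl _ hx
  have hpow : ∀ n : ℕ, w (x ^ n) = n * w x := by
    intro n
    induction n with
    | zero => simpa using hc 1
    | succ n ih =>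
      rw [pow_succ, hmul _ _ (pow_ne_zero _ hx0) hx0, ih]
      push_cast
      ring
  intro n
  induction n using Nat.strong_induction_on with
  | _ n ih =>
    intro p hn hp
    have ha : p.leadingCoeff ≠ 0 := leadingCoeff_ne_zero.mpr hp
    have ha' : algebraMap K F p.leadingCoeff ≠ 0 := (_root_.map_ne_zero _).mpr ha
    set m : F := algebraMap K F p.leadingCoeff * x ^ p.natDegree with hm
    have hm0 : m ≠ 0 := mul_ne_zero ha' (pow_ne_zero _ hx0)
    have hwm : w m = p.natDegree * w x := by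
      rw [hm, hmul _ _ ha' (pow_ne_zero _ hx0), hc, hpow, zero_add]
    have hsplit : aeval x p = m + aeval x p.eraseLead := by
      conv_lhs => rw [← eraseLead_add_monomial_natDegree_leadingCoeff p]
      rw [map_add, aeval_monomial, add_comm]
    rcases eq_or_ne p.eraseLead 0 with hr | hr
    · rw [hsplit, hr, map_zero, add_zero]
      exact ⟨hm0, hwm⟩
    · have hlt : p.eraseLead.natDegree < p.natDegree := by
        rcases eraseLead_natDegree_lt_or_eraseLead_eq_zero p with h | h
        · exact h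
        · exact absurd h hr
      obtain ⟨-, h2⟩ := ih _ (hn ▸ hlt) p.eraseLead rfl hr
      have hlt' : w m < w (aeval x p.eraseLead) := by
        rw [hwm, h2]
        have : (p.eraseLead.natDegree : ℤ) < p.natDegree := by exact_mod_cast hlt
        nlinarith
      have h3 : w (aeval x p) = p.natDegree * w x := by
        rw [hsplit, hadd _ _ hm0 hlt', hwm]
      refine ⟨?_, h3⟩
      intro h4
      rw [h4, h0] at h3
      have : (0 : ℤ) < p.natDegree := by
        have : 0 < p.natDegree := lt_of_le_of_lt (Nat.zero_le _) hlt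
        exact_mod_cast this
      nlinarith

variable {M : ℕ}

/-- the order of the `q`-expansion. -/
noncomputable def wq (f : FF M) : ℤ := (f : LaurentSeries Kb).order

theorem wq_mul (f g : FF M) (hf : f ≠ 0) (hg : g ≠ 0) : wq (f * g) = wq f + wq g := by
  have hf' : (f : LaurentSeries Kb) ≠ 0 := fun h => hf (Subtype.ext h)
  have hg' : (g : LaurentSeries Kb) ≠ 0 := fun h => hg (Subtype.ext h)
  exact HahnSeries.order_mul hf' hg'

theorem wq_add (f g : FF M) (hf : f ≠ 0) (h : wq f < wq g) : wq (f + g) = wq f := by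
  rcases eq_or_ne g 0 with rfl | hg
  · rw [add_zero]
  have hf' : (f : LaurentSeries Kb) ≠ 0 := fun h => hf (Subtype.ext h)
  have hg' : (g : LaurentSeries Kb) ≠ 0 := fun h => hg (Subtype.ext h)
  have h1 : (f : LaurentSeries Kb).orderTop < (g : LaurentSeries Kb).orderTop := by
    rw [← HahnSeries.order_eq_orderTop_of_ne_zero hf', ← HahnSeries.order_eq_orderTop_of_ne_zero hg']
    exact_mod_cast h
  have h2 := HahnSeries.orderTop_add_eq_left h1
  have h3 : (f : LaurentSeries Kb) + g ≠ 0 := by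
    intro h0
    rw [h0, HahnSeries.orderTop_zero] at h2
    exact hf' (HahnSeries.orderTop_eq_top.mp h2.symm)
  rw [← HahnSeries.order_eq_orderTop_of_ne_zero hf', ← HahnSeries.order_eq_orderTop_of_ne_zero h3]
    at h2
  exact_mod_cast h2

theorem wq_algebraMap (a : Kb) : wq (algebraMap Kb (FF M) a) = 0 := by
  have : ((algebraMap Kb (FF M) a : FF M) : LaurentSeries Kb) = HahnSeries.C a := by
    have : ((algebraMap Kb (FF M) a : FF M) : LaurentSeries Kb)
        = algebraMap Kb (LaurentSeries Kb) a := rfl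
    rw [this, algebraMap_laurentSeries_eq_single]
    rfl
  rw [wq, this]
  exact HahnSeries.order_C

/-- `deg P = deg Q + 1`. -/
theorem natDegree_P {ℓ : ℕ} (Z : ZCoord M ℓ) :
    (Z.P.map (Int.castRingHom Kb)).natDegree = (Z.Q.map (Int.castRingHom Kb)).natDegree + 1
      ∧ Z.P.map (Int.castRingHom Kb) ≠ 0 := by
  have hx : wq Z.xF = -1 := InstXF.order_zS Z
  have hj : wq (jF M) = -1 := by
    rw [wq, coe_jF']
    exact S28.Ord.order_jqModC Kb
  have hj0 : jF M ≠ 0 := by
    intro h
    rw [h] at hj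
    simp [wq] at hj
  have hQ := InstXF.map_Q_ne_zero Z
  obtain ⟨hQ0, hQw⟩ := val_aeval wq wq_mul wq_add wq_algebraMap (x := Z.xF) (by rw [hx]; norm_num)
    _ _ rfl hQ
  have hrel := InstXF.rel_FF Z
  have hP : Z.P.map (Int.castRingHom Kb) ≠ 0 := by
    intro h
    rw [h, map_zero] at hrel
    exact mul_ne_zero hj0 hQ0 hrel
  obtain ⟨-, hPw⟩ := val_aeval wq wq_mul wq_add wq_algebraMap (x := Z.xF) (by rw [hx]; norm_num)
    _ _ rfl hP
  refine ⟨?_, hP⟩
  rw [← hrel, wq_mul _ _ hj0 hQ0, hQw, hj, hx] at hPw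
  omega

end Incl

open Incl in
/-- **INCL**. -/
theorem nc_le_Cx {M ℓ : ℕ} (Z : ZCoord M ℓ) (v : Place Kb (FF M)) (h : nc M v) : Cx Z.xF v := by
  rw [Cx]
  by_contra hneg
  push Not at hneg
  obtain ⟨hdeg, hP⟩ := natDegree_P Z
  have hQ := InstXF.map_Q_ne_zero Z
  have key := val_aeval (K := Kb) (fun f : FF M => v.ord f) (fun f g hf hg => v.ord_mul hf hg)
    (fun f g hf hlt => Place.ord_add_eq_of_lt v hf hlt) (fun a => FF.ord_algebraMap v a) hneg
  obtain ⟨hQ0, hQw⟩ := key _ _ rfl hQ
  obtain ⟨hP0, hPw⟩ := key _ _ rfl hP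
  have hrel := InstXF.rel_FF Z
  have hj0 : jF M ≠ 0 := by
    intro h0
    rw [h0, zero_mul] at hrel
    exact hP0 hrel.symm
  rw [← hrel, v.ord_mul hj0 hQ0, hQw, hdeg] at hPw
  rw [nc] at h
  push_cast at hPw
  nlinarith

/-- **INCL**. -/
theorem cu_le_Cx {A : ValuationSubring Kb} {M : ℕ} (v : Place Kb (FF M)) (h : cu A M v) :
    Cx (jF M)⁻¹ v := by
  rw [Cx, Place.ord_inv]
  by_contra hneg
  push Not at hneg
  exact h ⟨0, A.zero_mem, by rw [map_zero, sub_zero]; omega⟩

end Fermat.Agent.S37
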