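import Fermat.Agent.S37.LvlWA
import Fermat.Agent.S37.HI2
import Fermat.Agent.ES.KEmb
import Fermat.Agent.ES.KQExp

set_option autoImplicit false
set_option linter.style.haveILetI false

/-!
# S37, package LVL-H: the Hecke correspondence commutes with the pull back `FF N ⊆ FF (N r)`
-/

namespace Fermat.Agent.S37

open ModularCurve AlgebraicCurve Fermat.Agent.S24 Fermat.Agent.ES

namespace LvlH

/-- **NBC**: the multiplicative Hecke operator commutes with the inclusion `FF N ⊆ FF (N r)`. -/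
theorem heckeMul_alpha (N r ℓ : ℕ) [NeZero N] [NeZero r] [Fact ℓ.Prime] (hℓ : ¬ ℓ ∣ N * r)
    (f : FF N) :
    heckeMul (N * r) ℓ (heckeAlphaBar Kb N r f) = heckeAlphaBar Kb N r (heckeMul N ℓ f) := by
  have hℓN : ¬ ℓ ∣ N := fun h => hℓ (h.mul_right r)
  have h1 := KQExp.formula_C N ℓ f (Psi_heckeMul N ℓ hℓN f)
  have h2 := KQExp.formula_C (N * r) ℓ (heckeAlphaBar Kb N r f) (Psi_heckeMul (N * r) ℓ hℓ _)
  have h3 : iotaL (N * r) (heckeAlphaBar Kb N r f) = iotaL N f := by
    rw [iotaL_apply, iotaL_apply, coe_heckeAlphaBar]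
  rw [h3, ← h1] at h2
  have h4 := (qExpand ℂ ℓ).injective h2
  rw [iotaL_apply, iotaL_apply] at h4
  apply Subtype.ext
  rw [coe_heckeAlphaBar]
  ext n
  have := congrArg (fun s => s.coeff n) h4
  simp only [coeffMap_coeff] at this
  exact iotaC.injective this

section general

variable {K F F' : Type*} [Field K] [Field F] [Field F'] [Algebra K F] [Algebra K F']

theorem exists_of_pushforwardAlong_ne_zero (φ : F →ₐ[K] F') (hφ : φ.toRingHom.IsIntegral)
    (E : Divisor K F') (u : Place K F) (h : Divisor.pushforwardAlong φ hφ E u ≠ 0) :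
    ∃ W : Place K F', W.restrictAlong φ hφ = u ∧ E W ≠ 0 := by
  classical
  letI := algebraAlong φ
  haveI := isScalarTower_along φ
  haveI := isIntegral_along φ hφ
  have h1 : Divisor.pushforward F E u ≠ 0 := h
  rw [Divisor.pushforward_apply] at h1
  obtain ⟨W, hW, hne⟩ := Finset.exists_ne_zero_of_sum_ne_zero h1
  refine ⟨W, ?_, Finsupp.mem_support_iff.mp hW⟩
  by_contra hc
  exact hne (if_neg hc)

end general

theorem exists_of_heckeDiv_ne_zero (M ℓ : ℕ) [NeZero M] [NeZero ℓ] (D : Divisor Kb (FF M))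
    (u : Place Kb (FF M)) (h : heckeDiv M ℓ D u ≠ 0) :
    ∃ W : Place Kb (FF (M * ℓ)),
      W.restrictAlong (heckeAlphaBar Kb M ℓ) (HI.integralAlong _) = u ∧
        D (W.restrictAlong (heckeBetaBar Kb M ℓ) (HI.integralAlong _)) ≠ 0 := by
  haveI := hasPrincipalDivisors_FF (M * ℓ)
  rw [heckeDiv_apply] at h
  obtain ⟨W, hW, hne⟩ := exists_of_pushforwardAlong_ne_zero _ _ _ _ h
  refine ⟨W, hW, ?_⟩
  rw [Divisor.pullbackAlong_apply] at hne
  exact right_ne_zero_of_mul hne

/-- pull back of divisors along `FF N ⊆ FF (N r)`. -/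
noncomputable def pb (N r : ℕ) [NeZero N] [NeZero r] :
    Divisor Kb (FF N) →+ Divisor Kb (FF (N * r)) :=
  haveI := hasPrincipalDivisors_FF (N * r)
  Divisor.pullbackAlong (heckeAlphaBar Kb N r) (HI.integralAlong _)

theorem pb_apply (N r : ℕ) [NeZero N] [NeZero r] (D : Divisor Kb (FF N))
    (w : Place Kb (FF (N * r))) :
    pb N r D w = Place.ramificationIndexAlong (heckeAlphaBar Kb N r) w
      * D (w.restrictAlong (heckeAlphaBar Kb N r) (HI.integralAlong _)) := by
  haveI := hasPrincipalDivisors_FF (N * r)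
  exact Divisor.pullbackAlong_apply _ _ D w

theorem pb_of_ord (N r : ℕ) [NeZero N] [NeZero r] (f : FF N) (D : Divisor Kb (FF N))
    (hD : ∀ v, D v = v.ord f) (w : Place Kb (FF (N * r))) :
    pb N r D w = w.ord (heckeAlphaBar Kb N r f) := by
  rw [pb_apply, hD, ← Place.ord_restrictAlong]

/-- the defect `π^* T - T π^*`. -/
noncomputable def delta (N r ℓ : ℕ) [NeZero N] [NeZero r] [NeZero ℓ] :
    Divisor Kb (FF N) →+ Divisor Kb (FF (N * r)) :=
  (pb N r).comp (heckeDiv N ℓ) - (heckeDiv (N * r) ℓ).comp (pb N r)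

theorem delta_apply (N r ℓ : ℕ) [NeZero N] [NeZero r] [NeZero ℓ] (D : Divisor Kb (FF N)) :
    delta N r ℓ D = pb N r (heckeDiv N ℓ D) - heckeDiv (N * r) ℓ (pb N r D) := rfl

theorem delta_principal (N r ℓ : ℕ) [NeZero N] [NeZero r] [Fact ℓ.Prime] (hℓ : ¬ ℓ ∣ N * r)
    (D : Divisor Kb (FF N)) (hD : D.IsPrincipal) : delta N r ℓ D = 0 := by
  obtain ⟨f, hf, hDf⟩ := hD
  rw [delta_apply, sub_eq_zero]
  ext u
  have hαf : heckeAlphaBar Kb N r f ≠ 0 := (map_ne_zero _).mpr hf
  rw [pb_of_ord N r (heckeMul N ℓ f) _ (heckeDiv_apply_heckeMul N ℓ f hf D hDf),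
    heckeDiv_apply_heckeMul (N * r) ℓ _ hαf _ (pb_of_ord N r f D hDf), heckeMul_alpha N r ℓ hℓ]

theorem delta_finite (N r ℓ : ℕ) [NeZero N] [NeZero r] [NeZero ℓ] (u : Place Kb (FF (N * r))) :
    {v : Place Kb (FF N) | delta N r ℓ (Finsupp.single v 1) u ≠ 0}.Finite := by
  classical
  haveI := hasPrincipalDivisors_FF (N * ℓ)
  haveI := hasPrincipalDivisors_FF (N * r * ℓ)
  refine Set.Finite.subset (s := ↑((Place.fiberAlong (heckeAlphaBar Kb N ℓ) (HI.integralAlong _)
      (u.restrictAlong (heckeAlphaBar Kb N r) (HI.integralAlong _))).image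
        (fun W => W.restrictAlong (heckeBetaBar Kb N ℓ) (HI.integralAlong _)) ∪
    (Place.fiberAlong (heckeAlphaBar Kb (N * r) ℓ) (HI.integralAlong _) u).image
        (fun W => (W.restrictAlong (heckeBetaBar Kb (N * r) ℓ) (HI.integralAlong _)).restrictAlong
          (heckeAlphaBar Kb N r) (HI.integralAlong _)))) (Finset.finite_toSet _) ?_
  intro v hv
  have hv' : delta N r ℓ (Finsupp.single v 1) u ≠ 0 := hv
  rw [delta_apply, Finsupp.sub_apply] at hv'
  rw [Finset.mem_coe, Finset.mem_union, Finset.mem_image, Finset.mem_image]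
  by_cases h1 : pb N r (heckeDiv N ℓ (Finsupp.single v 1)) u = 0
  · right
    rw [h1, zero_sub, neg_ne_zero] at hv'
    obtain ⟨W, hW, hne⟩ := exists_of_heckeDiv_ne_zero _ _ _ _ hv'
    refine ⟨W, Place.mem_fiberAlong.mpr hW, ?_⟩
    rw [pb_apply] at hne
    have := right_ne_zero_of_mul hne
    by_contra hc
    exact this (Finsupp.single_eq_of_ne (fun h => hc h))
  · left
    rw [pb_apply] at h1
    obtain ⟨W, hW, hne⟩ := exists_of_heckeDiv_ne_zero _ _ _ _ (right_ne_zero_of_mul h1)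
    refine ⟨W, Place.mem_fiberAlong.mpr hW, ?_⟩
    by_contra hc
    exact hne (Finsupp.single_eq_of_ne (fun h => hc h))

theorem delta_eq_zero (N r ℓ : ℕ) [NeZero N] [NeZero r] [Fact ℓ.Prime] (hℓ : ¬ ℓ ∣ N * r) :
    delta N r ℓ = 0 := by
  haveI := hasPrincipalDivisors_FF N
  exact delta_zero (fun v s hvs => exists_avoid v s hvs) _ (delta_principal N r ℓ hℓ)
    (delta_finite N r ℓ)

theorem pb_heckeDiv (N r ℓ : ℕ) [NeZero N] [NeZero r] [Fact ℓ.Prime] (hℓ : ¬ ℓ ∣ N * r)
    (D : Divisor Kb (FF N)) :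
    pb N r (heckeDiv N ℓ D) = heckeDiv (N * r) ℓ (pb N r D) := by
  have h := congrArg (fun φ => φ D) (delta_eq_zero N r ℓ hℓ)
  simp only [AddMonoidHom.zero_apply] at h
  rw [delta_apply, sub_eq_zero] at h
  exact h

end LvlH

end Fermat.Agent.S37
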