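import Fermat.Agent.S37.PDefs
import Fermat.Agent.S37.HI2
import Fermat.Agent.S37.LvlH
import Fermat.Agent.ES.KDeg

/-!
# S37, package LVL-G : the pull back `FF N → FF (N r)` of divisors: Galois action and descent
-/

set_option autoImplicit false
set_option linter.style.haveILetI false

namespace Fermat.Agent.S37.LvlP

open ModularCurve AlgebraicCurve Fermat.Agent.S24 Fermat.Agent.ES
open scoped Pointwise

section General

variable {K F E : Type*} [Field K] [Field F] [Field E] [Algebra K F] [Algebra K E]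

theorem ramIdx_pos (φ : F →ₐ[K] E) (hφ : φ.toRingHom.IsIntegral)
    (W : AlgebraicCurve.Place K E) : 0 < W.ramificationIndexAlong φ := by
  letI := algebraAlong φ
  haveI := isScalarTower_along φ
  haveI := isIntegral_along φ hφ
  exact W.ramificationIndex_pos (F := F)

theorem ord_key (φ : F →ₐ[K] E) (hφ : φ.toRingHom.IsIntegral)
    (g : SemilinearAut K F) (g' : SemilinearAut K E) (hc : ∀ f, φ (g • f) = g' • φ f)
    (W : AlgebraicCurve.Place K E) (f0 : F) :
    ((g' • W).ramificationIndexAlong φ : ℤ) * ((g' • W).restrictAlong φ hφ).ord (g • f0) =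
      (W.ramificationIndexAlong φ : ℤ) * (W.restrictAlong φ hφ).ord f0 := by
  rw [← Place.ord_restrictAlong, ← Place.ord_restrictAlong, hc, SemilinearAut.ord_smul]

theorem restrictAlong_smul (φ : F →ₐ[K] E) (hφ : φ.toRingHom.IsIntegral)
    (g : SemilinearAut K F) (g' : SemilinearAut K E) (hc : ∀ f, φ (g • f) = g' • φ f)
    (W : AlgebraicCurve.Place K E) :
    (g' • W).restrictAlong φ hφ = g • W.restrictAlong φ hφ := by
  apply S24.Place.ext_of_ord_imp
  intro f _ h
  obtain ⟨f0, rfl⟩ : ∃ f0, g • f0 = f := ⟨g⁻¹ • f, smul_inv_smul g f⟩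
  rw [SemilinearAut.ord_smul]
  have h1 := ord_key φ hφ g g' hc W f0
  have h2 := ramIdx_pos φ hφ W
  have h3 := ramIdx_pos φ hφ (g' • W)
  by_contra hneg
  push Not at hneg
  have h4 : (W.ramificationIndexAlong φ : ℤ) * (W.restrictAlong φ hφ).ord f0 < 0 :=
    mul_neg_of_pos_of_neg (by exact_mod_cast h2) hneg
  have h5 : 0 ≤ ((g' • W).ramificationIndexAlong φ : ℤ) *
      ((g' • W).restrictAlong φ hφ).ord (g • f0) := by positivity
  omega

theorem ramIdx_smul (φ : F →ₐ[K] E) (hφ : φ.toRingHom.IsIntegral)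
    (g : SemilinearAut K F) (g' : SemilinearAut K E) (hc : ∀ f, φ (g • f) = g' • φ f)
    (W : AlgebraicCurve.Place K E) :
    (g' • W).ramificationIndexAlong φ = W.ramificationIndexAlong φ := by
  obtain ⟨π, hπ⟩ := S24.Place.exists_ord_eq_one (W.restrictAlong φ hφ)
  have h1 := ord_key φ hφ g g' hc W π
  rw [restrictAlong_smul φ hφ g g' hc, SemilinearAut.ord_smul, hπ, mul_one, mul_one] at h1
  exact_mod_cast h1

theorem pullbackAlong_smul [HasPrincipalDivisors K E] (φ : F →ₐ[K] E)
    (hφ : φ.toRingHom.IsIntegral)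
    (g : SemilinearAut K F) (g' : SemilinearAut K E) (hc : ∀ f, φ (g • f) = g' • φ f)
    (D : Divisor K F) :
    Divisor.pullbackAlong φ hφ (g • D) = g' • Divisor.pullbackAlong φ hφ D := by
  ext W
  obtain ⟨W, rfl⟩ : ∃ W0, g' • W0 = W := ⟨g'⁻¹ • W, smul_inv_smul g' W⟩
  rw [SemilinearAut.divisor_smul_apply_smul, Divisor.pullbackAlong_apply,
    Divisor.pullbackAlong_apply, restrictAlong_smul φ hφ g g' hc, ramIdx_smul φ hφ g g' hc,
    SemilinearAut.divisor_smul_apply_smul]

theorem push_pull [IsAlgClosed K] [CharZero K] [FF.IsFF K F] [FF.IsFF K E]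
    [HasPrincipalDivisors K E] (φ : F →ₐ[K] E) (hφ : φ.toRingHom.IsIntegral) (D : Divisor K F) :
    Divisor.pushforwardAlong φ hφ (Divisor.pullbackAlong φ hφ D) = finrankAlong K φ • D := by
  induction D using Finsupp.induction with
  | zero => simp
  | single_add v n D _ _ ih =>
    rw [map_add, map_add, ih, smul_add]
    congr 1
    rw [Divisor.pullbackAlong_single, map_sum]
    have h1 : ∀ W ∈ Place.fiberAlong φ hφ v,
        Divisor.pushforwardAlong φ hφ (Finsupp.single W (n * W.ramificationIndexAlong φ)) =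
          Finsupp.single v (n * W.ramificationIndexAlong φ) := by
      intro W hW
      rw [Divisor.pushforwardAlong_single, inertiaDegAlong_eq_one, Place.mem_fiberAlong.1 hW]
      simp
    rw [Finset.sum_congr rfl h1, ← Finsupp.single_finsetSum, ← Finset.mul_sum,
      sum_ramificationIndexAlong, Finsupp.smul_single]
    congr 1
    rw [nsmul_eq_mul, mul_comm]

theorem isPrincipal_zsmul {D : Divisor K F} (h : D.IsPrincipal) (a : ℤ) :
    (a • D).IsPrincipal :=
  (Divisor.principal (K := K) (F := F)).zsmul_mem h a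

theorem isPrincipal_of_pullback [IsAlgClosed K] [CharZero K] [FF.IsFF K F] [FF.IsFF K E]
    [HasPrincipalDivisors K E] (φ : F →ₐ[K] E) (hφ : φ.toRingHom.IsIntegral) (m : ℕ)
    (hd : Nat.Coprime (finrankAlong K φ) m) (D : Divisor K F)
    (h1 : (m • D).IsPrincipal) (h2 : (Divisor.pullbackAlong φ hφ D).IsPrincipal) :
    D.IsPrincipal := by
  have h3 : (finrankAlong K φ • D).IsPrincipal := by
    rw [← push_pull φ hφ]
    exact Divisor.isPrincipal_pushforwardAlong φ hφ (HI.finiteAlong φ) (HI.normFormulaAlong φ _) h2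
  have h4 : ((finrankAlong K φ : ℕ) : ℤ) * Nat.gcdA (finrankAlong K φ) m
      + (m : ℤ) * Nat.gcdB (finrankAlong K φ) m = 1 := by
    have := Nat.gcd_eq_gcd_ab (finrankAlong K φ) m
    rw [hd] at this
    exact_mod_cast this.symm
  have h5 : D = Nat.gcdA (finrankAlong K φ) m • (finrankAlong K φ • D)
      + Nat.gcdB (finrankAlong K φ) m • (m • D) := by
    rw [← natCast_zsmul D, ← natCast_zsmul D, smul_smul, smul_smul, ← add_smul,
      mul_comm _ ((finrankAlong K φ : ℕ) : ℤ), mul_comm _ (m : ℤ), h4, one_smul]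
  rw [h5]
  exact (Divisor.principal (K := K) (F := F)).add_mem (isPrincipal_zsmul h3 _)
    (isPrincipal_zsmul h1 _)

end General

open LvlH

theorem alpha_smul (N r : ℕ) [NeZero N] [NeZero r] (σ : GQ) (f : FF N) :
    heckeAlphaBar Kb N r (ag N σ • f) = ag (N * r) σ • heckeAlphaBar Kb N r f := by
  apply Subtype.ext
  rw [coe_heckeAlphaBar, coe_arithmeticGalois_smul, coe_arithmeticGalois_smul, coe_heckeAlphaBar]

theorem pb_smul (N r : ℕ) [NeZero N] [NeZero r] (σ : GQ) (D : Divisor Kb (FF N)) :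
    pb N r (ag N σ • D) = ag (N * r) σ • pb N r D := by
  haveI := hasPrincipalDivisors_FF (N * r)
  exact pullbackAlong_smul _ _ _ _ (alpha_smul N r σ) D

theorem isPrincipal_of_pb (N r m : ℕ) [NeZero N] [NeZero r]
    (hd : Nat.Coprime (finrankAlong Kb (heckeAlphaBar Kb N r)) m) (D : Divisor Kb (FF N))
    (h1 : (m • D).IsPrincipal) (h2 : (pb N r D).IsPrincipal) : D.IsPrincipal := by
  haveI := hasPrincipalDivisors_FF (N * r)
  haveI := isFF_FF N
  haveI := isFF_FF (N * r)
  exact isPrincipal_of_pullback _ _ m hd D h1 h2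

theorem isPrincipal_pb (N r : ℕ) [NeZero N] [NeZero r] {D : Divisor Kb (FF N)}
    (h : D.IsPrincipal) : (pb N r D).IsPrincipal :=
  haveI := hasPrincipalDivisors_FF (N * r)
  Divisor.isPrincipal_pullbackAlong _ _ h

end Fermat.Agent.S37.LvlP
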