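import Fermat.Agent.S37.PDefs

set_option autoImplicit false
set_option linter.style.haveILetI false

/-!
# S37, package STAB-G : the charts `nc`, `cu` are stable under the decomposition group
-/

namespace Fermat.Agent.S37

open ModularCurve AlgebraicCurve Fermat.Agent.S24 Fermat.Agent.ES

namespace StabG

/-- `j` is fixed by Galois -/
theorem ag_smul_jF (M : ℕ) (σ : GQ) : ag M σ • jF M = jF M := by
  refine Subtype.ext ?_
  rw [coe_arithmeticGalois_smul, coe_jF', coeffMap_jqModC]

theorem ag_smul_algebraMap (M : ℕ) (σ : GQ) (a : Kb) :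
    ag M σ • algebraMap Kb (FF M) a = algebraMap Kb (FF M) (σ a) :=
  SemilinearAut.smul_algebraMap (ag M σ) a

theorem ord_smul_jF (M : ℕ) (σ : GQ) (v : Place Kb (FF M)) :
    (ag M σ • v).ord (jF M) = v.ord (jF M) := by
  conv_lhs => rw [← ag_smul_jF M σ]
  exact SemilinearAut.ord_smul _ _ _

theorem ord_smul_jF_sub (M : ℕ) (σ : GQ) (v : Place Kb (FF M)) (a : Kb) :
    (ag M σ • v).ord (jF M - algebraMap Kb (FF M) (σ a)) =
      v.ord (jF M - algebraMap Kb (FF M) a) := by
  conv_lhs => rw [← ag_smul_jF M σ, ← ag_smul_algebraMap, ← smul_sub]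
  exact SemilinearAut.ord_smul _ _ _

end StabG

theorem galStable_nc (A : ValuationSubring Kb) (M : ℕ) : GalStable A M (nc M) := by
  intro σ _ v hv
  rw [nc, StabG.ord_smul_jF]
  exact hv

theorem galStable_cu (A : ValuationSubring Kb) (M : ℕ) : GalStable A M (cu A M) := by
  rintro σ hσ v hv ⟨a, ha, h⟩
  refine hv ⟨σ⁻¹ a, KInt.smul_mem_of_mem_decomposition (inv_mem hσ) ha, ?_⟩
  rw [← StabG.ord_smul_jF_sub M σ]
  have : σ (σ⁻¹ a) = a := by
    rw [← AlgEquiv.mul_apply, mul_inv_cancel, AlgEquiv.one_apply]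
  rw [this]
  exact h

end Fermat.Agent.S37
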