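import Fermat.Agent.S37.PDefs
import Fermat.Agent.S37.Const
import Fermat.Agent.ES.InjAll

/-!
# S37, package Z1 : a torsion divisor which is trivial on both charts is principal
-/

set_option autoImplicit false
set_option linter.unusedVariables false

noncomputable section

namespace Fermat.Agent.S37

open ModularCurve AlgebraicCurve Fermat.Agent.S24 Fermat.Agent.ES

namespace Z1

variable {A : ValuationSubring Kb} {M : ℕ}

/-- `redFun w = 1` implies `GaussOne`. -/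
theorem gaussOne_of_redFun {w : FF M} (hw : Gauss.IsGInt A M w) (h : Gauss.redFun A M w = 1) :
    GaussOne A M w := by
  obtain ⟨P, Q, hP, hQ, e⟩ := hw
  refine ⟨P, Q, hQ, hP, ?_, e⟩
  rw [Gauss.redFun_eq hP hQ e, div_eq_one_iff_eq (Gauss.redL_ne_zero_of_isPrimA hQ)] at h
  intro n
  have hn : (redL A (P : LaurentSeries Kb)).coeff n = (redL A (Q : LaurentSeries Kb)).coeff n := by
    rw [h]
  rw [Gauss.redL_coeff hP, Gauss.redL_coeff hQ.1, ← sub_eq_zero, ← map_sub,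
    IsLocalRing.residue_eq_zero_iff] at hn
  exact ValuationSubring.mem_nonunits_iff_exists_mem_maximalIdeal.2 ⟨_, hn⟩

/-- `w f ^ m` lies in `Lat c 0` and reduces to `red w`. -/
theorem mul_pow_mem {c : Place Kb (FF M) → Prop} {E : Divisor Kb (FF M)} {m : ℕ} {w f : FF M}
    (hw0 : w ≠ 0) (hw : Gauss.IsGInt A M w) (hE : ∀ v : Place Kb (FF M), (m • E) v = v.ord w)
    (hf : f ∈ Lat A M c E) (hf1 : Gauss.redFun A M f = 1) :
    w * f ^ m ∈ Lat A M c 0 ∧ Gauss.redFun A M (w * f ^ m) = Gauss.redFun A M w := by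
  obtain ⟨hfG, hfo⟩ := hf
  have hpow : ∀ k : ℕ, Gauss.IsGInt A M (f ^ k) ∧ Gauss.redFun A M (f ^ k) = 1 := by
    intro k
    induction k with
    | zero =>
      rw [pow_zero]
      exact ⟨Gauss.IsGInt.of_isIntA IsPrimA.one.1, Gauss.redFun_one⟩
    | succ k ih =>
      rw [pow_succ]
      exact ⟨ih.1.mul hfG, by rw [Gauss.redFun_mul ih.1 hfG, ih.2, hf1, one_mul]⟩
  have hf0 : f ≠ 0 := by
    rintro rfl
    rw [Gauss.redFun_zero] at hf1
    exact zero_ne_one hf1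
  refine ⟨⟨hw.mul (hpow m).1, Or.inr ?_⟩, by rw [Gauss.redFun_mul hw (hpow m).1, (hpow m).2, mul_one]⟩
  intro v hv
  have h1 := (hfo.resolve_left hf0) v hv
  rw [v.ord_mul hw0 (pow_ne_zero m hf0), FF.ord_pow, ← hE v]
  simp only [Finsupp.coe_smul, Pi.smul_apply, Finsupp.coe_zero, Pi.zero_apply, nsmul_eq_mul,
    add_zero]
  have : (m : ℤ) * E v + m * v.ord f = m * (v.ord f + E v) := by ring
  rw [this]
  positivity

end Z1

open Z1 in
theorem principal_of_triv (M ℓ : ℕ) [NeZero M] (hℓ : ℓ.Prime) (hℓM : ¬ ℓ ∣ M)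
    (A : ValuationSubring Kb) (hA : A.LiesOverPrime ℓ) (m : ℕ) (hℓm : ¬ ℓ ∣ m)
    (E : Divisor Kb (FF M)) (hE : (m • E).IsPrincipal)
    (h1 : Triv A M (nc M) E) (h2 : Triv A M (nc M) (-E))
    (h3 : Triv A M (cu A M) E) (h4 : Triv A M (cu A M) (-E)) : E.IsPrincipal := by
  have : Fact ℓ.Prime := ⟨hℓ⟩
  have hm0 : m ≠ 0 := by
    rintro rfl
    exact hℓm (dvd_zero ℓ)
  obtain ⟨w₀, hw₀, hEw₀⟩ := hE
  -- normalise `w`
  obtain ⟨c, hc, hcw, hcw'⟩ := gauss_hV A M ℓ hA w₀ hw₀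
  set w := algebraMap Kb (FF M) c * w₀ with hwdef
  have hc' : algebraMap Kb (FF M) c ≠ 0 := by simpa using hc
  have hw0 : w ≠ 0 := mul_ne_zero hc' hw₀
  have hEw : ∀ v : Place Kb (FF M), (m • E) v = v.ord w := by
    intro v
    rw [hwdef, v.ord_mul hc' hw₀, FF.ord_algebraMap, zero_add, hEw₀ v]
  have hwG : Gauss.IsGInt A M w := hcw
  have hwG' : Gauss.IsGInt A M w⁻¹ := hcw'
  have hω : Gauss.redFun A M w ≠ 0 := by
    intro h0
    have := Gauss.redFun_mul hwG hwG'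
    rw [mul_inv_cancel₀ hw0, Gauss.redFun_one, h0, zero_mul] at this
    exact one_ne_zero this
  obtain ⟨f₁, hf₁, hf₁'⟩ := h1
  obtain ⟨f₃, hf₃, hf₃'⟩ := h3
  obtain ⟨hb₁, hr₁⟩ := mul_pow_mem hw0 hwG hEw hf₁ hf₁'
  obtain ⟨hb₂, hr₂⟩ := mul_pow_mem hw0 hwG hEw hf₃ hf₃'
  obtain ⟨κ, hκ⟩ := const_of_lat M ℓ hℓ hℓM A hA _ _ hb₁ hb₂ (hr₁.trans hr₂.symm)
  rw [hr₁] at hκ
  have hκ0 : κ ≠ 0 := by
    rintro rfl
    rw [map_zero] at hκ
    exact hω hκ
  obtain ⟨a, rfl⟩ := IsLocalRing.residue_surjective κ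
  have haU : IsUnit a := by
    by_contra hna
    exact hκ0 ((IsLocalRing.residue_eq_zero_iff a).2 ((IsLocalRing.mem_maximalIdeal a).2 hna))
  obtain ⟨a', ha'⟩ := haU.exists_right_inv
  have ha0 : (a' : Kb) ≠ 0 := by
    intro h
    have : a' = 0 := Subtype.ext h
    rw [this, mul_zero] at ha'
    exact zero_ne_one ha'
  -- `w' = a' w` reduces to `1`
  set w' := algebraMap Kb (FF M) (a' : Kb) * w with hw'def
  have ha'' : algebraMap Kb (FF M) (a' : Kb) ≠ 0 := by simpa using ha0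
  have hw'0 : w' ≠ 0 := mul_ne_zero ha'' hw0
  have haG : Gauss.IsGInt A M (algebraMap Kb (FF M) (a' : Kb)) :=
    Gauss.IsGInt.of_isIntA (by rw [Gauss.coe_algebraMap]; exact Gauss.isIntA_C a'.2)
  have hw'G : Gauss.IsGInt A M w' := haG.mul hwG
  have hw'1 : Gauss.redFun A M w' = 1 := by
    rw [hw'def, Gauss.redFun_mul haG hwG, hκ, Gauss.redFun_algebraMap a'.2, ← map_mul, ← map_mul]
    have : (⟨(a' : Kb), a'.2⟩ : A) * a = 1 := by rw [mul_comm]; exact ha'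
    rw [this, map_one, map_one]
  have hdiv : IsPDiv m M w' := by
    refine ⟨hw'0, fun v => ?_⟩
    rw [hw'def, v.ord_mul ha'' hw0, FF.ord_algebraMap, zero_add, ← hEw v]
    simp only [Finsupp.coe_smul, Pi.smul_apply, nsmul_eq_mul]
    exact dvd_mul_right _ _
  have hℓN : ¬ ℓ ∣ M * m := fun h => (hℓ.dvd_mul.1 h).elim hℓM hℓm
  obtain ⟨z, hz⟩ := inj_all m M ℓ hℓ hℓN A hA w' hdiv (gaussOne_of_redFun hw'G hw'1)
  have hz0 : z ≠ 0 := by
    rintro rfl
    rw [zero_pow hm0] at hz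
    exact hw'0 hz
  refine ⟨z, hz0, fun v => ?_⟩
  have h5 : (m • E) v = v.ord w' := by
    rw [hw'def, v.ord_mul ha'' hw0, FF.ord_algebraMap, zero_add, hEw v]
  rw [hz, FF.ord_pow] at h5
  simp only [Finsupp.coe_smul, Pi.smul_apply, nsmul_eq_mul] at h5
  exact mul_left_cancel₀ (by exact_mod_cast hm0) h5

end Fermat.Agent.S37
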