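import Fermat.Agent.S37.LatOp
import Fermat.Agent.S37.Quot

/-!
# S37 [Z2] : inertia acts trivially up to `Triv`

For `τ` in the inertia group of `A`, a `D_A`-stable chart `c` and a divisor `D` with `Pair c D`,
both `τ D - D` and `-(τ D - D)` are `Triv` on `c`.
-/

set_option autoImplicit false

noncomputable section

namespace Fermat.Agent.S37

open ModularCurve AlgebraicCurve Fermat.Agent.S24 Fermat.Agent.ES

variable {A : ValuationSubring Kb} {M : ℕ}

namespace Z2

theorem isGInt_sum {ι : Type*} (s : Finset ι) (f : ι → FF M)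
    (hf : ∀ i ∈ s, Gauss.IsGInt A M (f i)) : Gauss.IsGInt A M (∑ i ∈ s, f i) := by
  classical
  induction s using Finset.induction_on with
  | empty =>
    rw [Finset.sum_empty]
    refine Gauss.IsGInt.of_isIntA ?_
    rw [ZeroMemClass.coe_zero]
    exact Gauss.isIntA_zero
  | insert a s ha ih =>
    rw [Finset.sum_insert ha]
    exact (hf a (Finset.mem_insert_self a s)).add
      (ih fun i hi => hf i (Finset.mem_insert_of_mem hi))

theorem redFun_sum {ι : Type*} (s : Finset ι) (f : ι → FF M)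
    (hf : ∀ i ∈ s, Gauss.IsGInt A M (f i)) :
    Gauss.redFun A M (∑ i ∈ s, f i) = ∑ i ∈ s, Gauss.redFun A M (f i) := by
  classical
  induction s using Finset.induction_on with
  | empty => rw [Finset.sum_empty, Finset.sum_empty, Gauss.redFun_zero]
  | insert a s ha ih =>
    rw [Finset.sum_insert ha, Finset.sum_insert ha,
      Gauss.redFun_add (hf a (Finset.mem_insert_self a s))
        (isGInt_sum s f fun i hi => hf i (Finset.mem_insert_of_mem hi)),
      ih fun i hi => hf i (Finset.mem_insert_of_mem hi)]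

theorem mem_decomposition_of_mem_inertia {τ : GQ} (hτ : τ ∈ A.inertiaSubgroupIn ℚ) :
    τ ∈ A.decompositionSubgroup ℚ :=
  ((Quot.mem_inertiaSubgroupIn_iff A τ).1 hτ).1

end Z2

theorem triv_inertia {c : Place Kb (FF M) → Prop} (hc : GalStable A M c) {τ : GQ}
    (hτ : τ ∈ A.inertiaSubgroupIn ℚ) {D : Divisor Kb (FF M)} (hP : Pair A M c D) :
    Triv A M c (ag M τ • D - D) ∧ Triv A M c (-(ag M τ • D - D)) := by
  obtain ⟨n, f, f', hf, hf', h1⟩ := hP
  have hτD := Z2.mem_decomposition_of_mem_inertia hτ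
  have hG : ∀ k, Gauss.IsGInt A M (f k) := fun k => (hf k).1
  have hG' : ∀ k, Gauss.IsGInt A M (f' k) := fun k => (hf' k).1
  have hτG : ∀ k, Gauss.IsGInt A M (gal M τ (f k)) := fun k => isGInt_gal hτD (hG k)
  have hτG' : ∀ k, Gauss.IsGInt A M (gal M τ (f' k)) := fun k => isGInt_gal hτD (hG' k)
  have h1' : ∑ k, Gauss.redFun A M (f k) * Gauss.redFun A M (f' k) = 1 := by
    rw [← h1, Z2.redFun_sum _ _ fun k _ => (hG k).mul (hG' k)]
    exact Finset.sum_congr rfl fun k _ => (Gauss.redFun_mul (hG k) (hG' k)).symm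
  constructor
  · refine ⟨∑ k, gal M τ (f k) * f' k, ?_, ?_⟩
    · refine Lat.sum _ _ fun k _ => ?_
      rw [sub_eq_add_neg]
      exact Lat.mul (Lat.gal_mem hc hτD (hf k)) (hf' k)
    · rw [Z2.redFun_sum _ _ fun k _ => (hτG k).mul (hG' k), ← h1']
      refine Finset.sum_congr rfl fun k _ => ?_
      rw [Gauss.redFun_mul (hτG k) (hG' k), redFun_gal_of_inertia hτ (hG k)]
  · refine ⟨∑ k, f k * gal M τ (f' k), ?_, ?_⟩
    · refine Lat.sum _ _ fun k _ => ?_
      have e : -(ag M τ • D - D) = D + ag M τ • (-D) := by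
        rw [smul_neg]; abel
      rw [e]
      exact Lat.mul (hf k) (Lat.gal_mem hc hτD (hf' k))
    · rw [Z2.redFun_sum _ _ fun k _ => (hG k).mul (hτG' k), ← h1']
      refine Finset.sum_congr rfl fun k _ => ?_
      rw [Gauss.redFun_mul (hG k) (hτG' k), redFun_gal_of_inertia hτ (hG' k)]


end Fermat.Agent.S37
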