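import Fermat.Agent.S37.PDefs
import Fermat.Agent.S37.HI2

set_option autoImplicit false
set_option linter.style.haveILetI false

/-!
# S37, package TPOS : `heckeDiv` preserves positivity on a Hecke stable chart
-/

namespace Fermat.Agent.S37

open ModularCurve AlgebraicCurve Fermat.Agent.S24 Fermat.Agent.ES

namespace TPos

open Classical in
/-- the value of a push forward at a place -/
theorem pushforwardAlong_apply {K F F' : Type*} [Field K] [Field F] [Field F'] [Algebra K F]
    [Algebra K F'] (φ : F →ₐ[K] F') (hφ : φ.toRingHom.IsIntegral) (G : Divisor K F')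
    (v : Place K F) :
    Divisor.pushforwardAlong φ hφ G v =
      ∑ W ∈ G.support, if W.restrictAlong φ hφ = v then G W * W.inertiaDegAlong φ hφ else 0 := by
  classical
  conv_lhs => rw [← Finsupp.sum_single G]
  rw [Finsupp.sum, map_sum, Finsupp.finsetSum_apply]
  refine Finset.sum_congr rfl fun W _ => ?_
  rw [Divisor.pushforwardAlong_single, Finsupp.single_apply]

theorem pushforwardAlong_nonneg {K F F' : Type*} [Field K] [Field F] [Field F'] [Algebra K F]
    [Algebra K F'] (φ : F →ₐ[K] F') (hφ : φ.toRingHom.IsIntegral) (G : Divisor K F')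
    (v : Place K F) (h : ∀ W : Place K F', W.restrictAlong φ hφ = v → 0 ≤ G W) :
    0 ≤ Divisor.pushforwardAlong φ hφ G v := by
  classical
  rw [pushforwardAlong_apply]
  refine Finset.sum_nonneg fun W _ => ?_
  split_ifs with hW
  · exact mul_nonneg (h W hW) (Int.natCast_nonneg _)
  · exact le_rfl

end TPos

/-- [TPOS] -/
theorem heckeDiv_nonneg (M ℓ : ℕ) [NeZero M] [NeZero ℓ] {c : Place Kb (FF M) → Prop}
    (hc : HeckeStable M ℓ c) (E : Divisor Kb (FF M)) (hE : ∀ v, c v → 0 ≤ E v)
    (v : Place Kb (FF M)) (hv : c v) : 0 ≤ heckeDiv M ℓ E v := by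
  haveI := hasPrincipalDivisors_FF (M * ℓ)
  rw [heckeDiv_apply]
  refine TPos.pushforwardAlong_nonneg _ _ _ _ fun W hW => ?_
  rw [Divisor.pullbackAlong_apply]
  refine mul_nonneg (Int.natCast_nonneg _) (hE _ (hc W ?_))
  rw [hW]
  exact hv

end Fermat.Agent.S37
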