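import Mathlib

/-!
# S37 [ZABS] : the abstract unit ideal lemma (Mathlib only)

`Bb` a subring of a commutative ring `Ω`, `L`, `L'` additive subgroups with `L L' ⊆ Bb` and
`1 ∈ L L'`, `F`, `G` ring endomorphisms of `Ω` preserving `Bb`.  Then the elements
`F (x x') * G (x x') ^ ℓ` (`x ∈ L`, `x' ∈ L'`) generate the unit ideal of `Bb`.
-/

set_option autoImplicit false

namespace Fermat.Agent.S37

namespace ZAbs

/-- an additive group is not the union of two proper subgroups. -/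
theorem eq_top_or_eq_top {G : Type*} [AddGroup G] (H₁ H₂ : AddSubgroup G)
    (h : ∀ x, x ∈ H₁ ∨ x ∈ H₂) : (∀ x, x ∈ H₁) ∨ (∀ x, x ∈ H₂) := by
  by_contra hcon
  push Not at hcon
  obtain ⟨⟨a, ha⟩, ⟨b, hb⟩⟩ := hcon
  have ha2 : a ∈ H₂ := (h a).resolve_left ha
  have hb1 : b ∈ H₁ := (h b).resolve_right hb
  rcases h (a + b) with h1 | h2
  · apply ha
    have := H₁.sub_mem h1 hb1
    rwa [add_sub_cancel_right] at this
  · apply hb
    have := H₂.add_mem (H₂.neg_mem ha2) h2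
    rwa [neg_add_cancel_left] at this

variable {Ω : Type*} [CommRing Ω]

/-- bilinear version: if every product `x x'` lies in `P₁` or in `P₂` (additive subgroups), then
all products lie in `P₁` or all products lie in `P₂`. -/
theorem all_mem_or_all_mem (L L' P₁ P₂ : AddSubgroup Ω)
    (h : ∀ x ∈ L, ∀ x' ∈ L', x * x' ∈ P₁ ∨ x * x' ∈ P₂) :
    (∀ x ∈ L, ∀ x' ∈ L', x * x' ∈ P₁) ∨ (∀ x ∈ L, ∀ x' ∈ L', x * x' ∈ P₂) := by
  -- for fixed `x`
  have step : ∀ x ∈ L, (∀ x' ∈ L', x * x' ∈ P₁) ∨ (∀ x' ∈ L', x * x' ∈ P₂) := by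
    intro x hx
    have := eq_top_or_eq_top (G := L')
      ((P₁.comap (AddMonoidHom.mulLeft x)).comap L'.subtype)
      ((P₂.comap (AddMonoidHom.mulLeft x)).comap L'.subtype)
      (fun x' => h x hx x' x'.2)
    rcases this with h1 | h2
    · exact Or.inl fun x' hx' => h1 ⟨x', hx'⟩
    · exact Or.inr fun x' hx' => h2 ⟨x', hx'⟩
  let S : AddSubgroup Ω → AddSubgroup L := fun P =>
    { carrier := {x | ∀ x' ∈ L', (x : Ω) * x' ∈ P}
      zero_mem' := fun x' _ => by simp [P.zero_mem]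
      add_mem' := fun {a b} ha hb x' hx' => by
        rw [AddSubgroup.coe_add, add_mul]
        exact P.add_mem (ha x' hx') (hb x' hx')
      neg_mem' := fun {a} ha x' hx' => by
        rw [AddSubgroup.coe_neg, neg_mul]
        exact P.neg_mem (ha x' hx') }
  rcases eq_top_or_eq_top (S P₁) (S P₂) (fun x => step x x.2) with h1 | h2
  · exact Or.inl fun x hx => h1 ⟨x, hx⟩
  · exact Or.inr fun x hx => h2 ⟨x, hx⟩

end ZAbs

open ZAbs in
/-- **[ZABS]** -/
theorem zabs {Ω : Type*} [CommRing Ω] (Bb : Subring Ω) (L L' : AddSubgroup Ω)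
    (hLL : ∀ x ∈ L, ∀ x' ∈ L', x * x' ∈ Bb) (F G : Ω →+* Ω) (hF : ∀ y ∈ Bb, F y ∈ Bb)
    (hG : ∀ y ∈ Bb, G y ∈ Bb) (ℓ : ℕ) {n : ℕ} (x x' : Fin n → Ω) (hx : ∀ k, x k ∈ L)
    (hx' : ∀ k, x' k ∈ L') (h1 : ∑ k, x k * x' k = 1) :
    ∃ (m : ℕ) (b y y' : Fin m → Ω), (∀ j, b j ∈ Bb) ∧ (∀ j, y j ∈ L) ∧ (∀ j, y' j ∈ L') ∧
      ∑ j, b j * (F (y j * y' j) * G (y j * y' j) ^ ℓ) = 1 := by
  classical
  -- the restrictions of `F`, `G` to `Bb`
  let FB : Bb →+* Bb := (F.comp Bb.subtype).codRestrict Bb fun y => hF y y.2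
  let GB : Bb →+* Bb := (G.comp Bb.subtype).codRestrict Bb fun y => hG y y.2
  -- the generators
  let gen : Set Bb := {z | ∃ y ∈ L, ∃ y' ∈ L', (z : Ω) = F (y * y') * G (y * y') ^ ℓ}
  have htop : Ideal.span gen = ⊤ := by
    by_contra hne
    obtain ⟨NN, hNN, hle⟩ := Ideal.exists_le_maximal _ hne
    have hprime : NN.IsPrime := hNN.isPrime
    -- the two primes, as additive subgroups of `Ω`
    let P : (Bb →+* Bb) → AddSubgroup Ω := fun φ =>
      ((NN.comap φ).toAddSubgroup).map Bb.subtype.toAddMonoidHom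
    have hP : ∀ (φ : Bb →+* Bb) (z : Bb), (z : Ω) ∈ P φ ↔ φ z ∈ NN := by
      intro φ z
      constructor
      · rintro ⟨w, hw, hwz⟩
        have : w = z := Subtype.ext hwz
        rw [← this]
        exact hw
      · intro hz
        exact ⟨z, hz, rfl⟩
    have hor : ∀ y ∈ L, ∀ y' ∈ L', y * y' ∈ P FB ∨ y * y' ∈ P GB := by
      intro y hy y' hy'
      set z : Bb := ⟨y * y', hLL y hy y' hy'⟩ with hz
      have hmem : FB z * GB z ^ ℓ ∈ NN := hle (Ideal.subset_span ⟨y, hy, y', hy', rfl⟩)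
      rcases hprime.mem_or_mem hmem with h | h
      · exact Or.inl ((hP FB z).2 h)
      · exact Or.inr ((hP GB z).2 (hprime.mem_of_pow_mem ℓ h))
    have hone : ∀ φ : Bb →+* Bb, (∀ y ∈ L, ∀ y' ∈ L', y * y' ∈ P φ) → False := by
      intro φ hall
      have : (1 : Ω) ∈ P φ := by
        rw [← h1]
        exact (P φ).sum_mem fun k _ => hall _ (hx k) _ (hx' k)
      have h2 := (hP φ 1).1 this
      rw [map_one] at h2
      exact hprime.ne_top ((Ideal.eq_top_iff_one _).2 h2)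
    rcases all_mem_or_all_mem L L' (P FB) (P GB) hor with h | h
    · exact hone FB h
    · exact hone GB h
  have h1mem : (1 : Bb) ∈ Ideal.span gen := by rw [htop]; exact Submodule.mem_top
  obtain ⟨c, hc⟩ := (Submodule.mem_span_set (R := Bb) (M := Bb)).1 h1mem |>.imp fun c h => h
  obtain ⟨hsupp, hsum⟩ := hc
  -- enumerate the support
  have hch : ∀ z : c.support, ∃ y ∈ L, ∃ y' ∈ L',
      ((z : Bb) : Ω) = F (y * y') * G (y * y') ^ ℓ := fun z => hsupp z.2
  choose y hy y' hy' hz using hch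
  let e := (Finset.equivFin c.support).symm
  refine ⟨c.support.card, fun j => ((c (e j) : Bb) : Ω), fun j => y (e j), fun j => y' (e j),
    fun j => (c (e j)).2, fun j => hy _, fun j => hy' _, ?_⟩
  have h3 : ∑ j, ((c (e j) : Bb) : Ω) * (F (y (e j) * y' (e j)) * G (y (e j) * y' (e j)) ^ ℓ)
      = ∑ z : c.support, ((c z : Bb) : Ω) * ((z : Bb) : Ω) := by
    rw [← Equiv.sum_comp e]
    exact Finset.sum_congr rfl fun j _ => by rw [hz]
  rw [h3]
  have h4 := congrArg (Subtype.val : Bb → Ω) hsum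
  rw [Finsupp.sum] at h4
  simp only [smul_eq_mul] at h4
  rw [← Finset.sum_coe_sort c.support] at h4
  simpa using h4

end Fermat.Agent.S37
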