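import Fermat.Agent.S37.RedAux
import Fermat.Agent.S37.ZAbs
import Fermat.Agent.S37.TPos

/-!
# S37, package Z3 : the Eichler-Shimura divisor is trivial on a stable chart

`φ` a Frobenius at `ℓ ∤ M`, `c` a chart stable under the decomposition group and under `T_ℓ`
(in the form: `T_ℓ` preserves the divisors which are `≥ 0` on `c`), `D₁` a divisor with
`Pair c D₁`.  Then `E = φ D₁ - T_ℓ D₁ + ℓ φ⁻¹ D₁` and `-E` are trivial on `c` modulo `A`.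
-/

set_option autoImplicit false
set_option linter.style.haveILetI false

noncomputable section

namespace Fermat.Agent.S37

open ModularCurve AlgebraicCurve Fermat.Agent.S24 Fermat.Agent.ES

variable {A : ValuationSubring Kb} {M : ℕ}

namespace Z3

/-- the reductions of a lattice, as an additive subgroup -/
def redLat (A : ValuationSubring Kb) (M : ℕ) (c : Place Kb (FF M) → Prop)
    (D : Divisor Kb (FF M)) : AddSubgroup (LaurentSeries (Gauss.kA A)) where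
  carrier := {y | ∃ f ∈ Lat A M c D, Gauss.redFun A M f = y}
  zero_mem' := ⟨0, RA.zero_mem, Gauss.redFun_zero⟩
  add_mem' := by
    rintro _ _ ⟨f, hf, rfl⟩ ⟨g, hg, rfl⟩
    exact ⟨f + g, RA.add_mem hf hg, Gauss.redFun_add hf.1 hg.1⟩
  neg_mem' := by
    rintro _ ⟨f, hf, rfl⟩
    exact ⟨-f, RA.neg_mem hf, RA.redFun_neg hf.1⟩

theorem mem_redLat {c : Place Kb (FF M) → Prop} {D : Divisor Kb (FF M)}
    {y : LaurentSeries (Gauss.kA A)} :
    y ∈ redLat A M c D ↔ ∃ f ∈ Lat A M c D, Gauss.redFun A M f = y := Iff.rfl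

/-- the reductions of `Lat c 0`, as a subring -/
def redRing (A : ValuationSubring Kb) (M : ℕ) (c : Place Kb (FF M) → Prop) :
    Subring (LaurentSeries (Gauss.kA A)) where
  carrier := {y | ∃ f ∈ Lat A M c 0, Gauss.redFun A M f = y}
  zero_mem' := ⟨0, RA.zero_mem, Gauss.redFun_zero⟩
  one_mem' := ⟨1, RA.one_mem, Gauss.redFun_one⟩
  add_mem' := by
    rintro _ _ ⟨f, hf, rfl⟩ ⟨g, hg, rfl⟩
    exact ⟨f + g, RA.add_mem hf hg, Gauss.redFun_add hf.1 hg.1⟩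
  neg_mem' := by
    rintro _ ⟨f, hf, rfl⟩
    exact ⟨-f, RA.neg_mem hf, RA.redFun_neg hf.1⟩
  mul_mem' := by
    rintro _ _ ⟨f, hf, rfl⟩ ⟨g, hg, rfl⟩
    exact ⟨f * g, RA.of_eq (add_zero 0) (RA.mul_mem hf hg), Gauss.redFun_mul hf.1 hg.1⟩

theorem mem_redRing {c : Place Kb (FF M) → Prop} {y : LaurentSeries (Gauss.kA A)} :
    y ∈ redRing A M c ↔ ∃ f ∈ Lat A M c 0, Gauss.redFun A M f = y := Iff.rfl

end Z3

section

variable (ℓ : ℕ) [NeZero M] [Fact ℓ.Prime]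

/-- `T_ℓ` maps `Lat c D` to `Lat c (T_ℓ D)`. -/
theorem Z3.heckeMul_mem (hℓM : ¬ ℓ ∣ M) (hA : A.LiesOverPrime ℓ) {φ : GQ}
    (hφ : A.IsFrobeniusAt φ ℓ) {c : Place Kb (FF M) → Prop}
    (hT : ∀ D : Divisor Kb (FF M), (∀ v, c v → 0 ≤ D v) → ∀ v, c v → 0 ≤ heckeDiv M ℓ D v)
    {D : Divisor Kb (FF M)} {f : FF M} (hf : f ∈ Lat A M c D) :
    heckeMul M ℓ f ∈ Lat A M c (heckeDiv M ℓ D) := by
  refine ⟨RA.isGInt_heckeMul ℓ hℓM hA hφ hf.1, ?_⟩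
  by_cases hf0 : f = 0
  · left
    rw [hf0, heckeMul_apply, map_zero]
    letI := algebraAlong (heckeAlphaBar Kb M ℓ)
    haveI : FiniteDimensional (FF M) (FF (M * ℓ)) := HI.finiteAlong (heckeAlphaBar Kb M ℓ)
    exact Algebra.norm_zero
  · right
    intro v hv
    obtain ⟨Df, hDf, -⟩ := (hasPrincipalDivisors_FF M).exists_divisor f hf0
    have h1 := hT (Df + D) (fun w hw => by
      rw [Finsupp.add_apply, hDf]; exact RA.ord_ge hf hf0 w hw) v hv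
    rw [map_add, Finsupp.add_apply, heckeDiv_apply_heckeMul M ℓ f hf0 Df hDf] at h1
    exact h1

/-- **[Z3]** -/
theorem Z3.triv_theta_pos (hℓM : ¬ ℓ ∣ M) (hA : A.LiesOverPrime ℓ) {φ : GQ}
    (hφ : A.IsFrobeniusAt φ ℓ) {c : Place Kb (FF M) → Prop} (hc : GalStable A M c)
    (hT : ∀ D : Divisor Kb (FF M), (∀ v, c v → 0 ≤ D v) → ∀ v, c v → 0 ≤ heckeDiv M ℓ D v)
    {D₁ : Divisor Kb (FF M)} (h : Pair A M c D₁) : Triv A M c (thetaDiv M ℓ φ D₁) := by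
  have hdec : φ ∈ A.decompositionSubgroup ℚ := hφ.mem_decompositionSubgroup
  have hdec' : φ⁻¹ ∈ A.decompositionSubgroup ℚ := inv_mem hdec
  obtain ⟨n, f, f', hf, hf', h1⟩ := h
  have hstab : ∀ {σ : GQ} (hσ : σ ∈ A.decompositionSubgroup ℚ),
      ∀ y ∈ Z3.redRing A M c, coeffMap (RA.resHom A ⟨σ, hσ⟩) y ∈ Z3.redRing A M c := by
    rintro σ hσ _ ⟨b, hb, rfl⟩
    refine ⟨gal M σ b, ?_, RA.redFun_gal hσ hb.1⟩
    have := RA.gal_mem hc hσ hb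
    rwa [smul_zero] at this
  obtain ⟨m, b, y, y', hb, hy, hy', hsum⟩ := zabs (Z3.redRing A M c) (Z3.redLat A M c D₁)
    (Z3.redLat A M c (-D₁)) (by
      rintro _ ⟨g, hg, rfl⟩ _ ⟨g', hg', rfl⟩
      exact ⟨g * g', RA.of_eq (add_neg_cancel D₁) (RA.mul_mem hg hg'),
        Gauss.redFun_mul hg.1 hg'.1⟩)
    (coeffMap (RA.resHom A ⟨φ, hdec⟩)) (coeffMap (RA.resHom A ⟨φ⁻¹, hdec'⟩)) (hstab hdec) (hstab hdec')
    ℓ (fun k => Gauss.redFun A M (f k)) (fun k => Gauss.redFun A M (f' k))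
    (fun k => ⟨f k, hf k, rfl⟩) (fun k => ⟨f' k, hf' k, rfl⟩) (by
      rw [← h1, RA.redFun_sum _ _ fun k _ => (hf k).1.mul (hf' k).1]
      exact Finset.sum_congr rfl fun k _ => (Gauss.redFun_mul (hf k).1 (hf' k).1).symm)
  choose B hB hBb using hb
  choose g hg hgy using hy
  choose g' hg' hgy' using hy'
  -- the elements `e (g, g')`
  have he : ∀ j, gal M φ (g j) * heckeMul M ℓ (g' j) * gal M φ⁻¹ (g j) ^ ℓ
      ∈ Lat A M c (thetaDiv M ℓ φ D₁) := by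
    intro j
    have h2 := RA.mul_mem (RA.mul_mem (RA.gal_mem hc hdec (hg j))
      (Z3.heckeMul_mem ℓ hℓM hA hφ hT (hg' j))) (RA.pow_mem (RA.gal_mem hc hdec' (hg j)) ℓ)
    rw [map_neg, ← sub_eq_add_neg] at h2
    exact h2
  have hred : ∀ j, Gauss.redFun A M
      (gal M φ (g j) * heckeMul M ℓ (g' j) * gal M φ⁻¹ (g j) ^ ℓ) =
      coeffMap (RA.resHom A ⟨φ, hdec⟩) (y j * y' j) *
        coeffMap (RA.resHom A ⟨φ⁻¹, hdec'⟩) (y j * y' j) ^ ℓ := by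
    intro j
    have i1 := RA.isGInt_gal hdec (hg j).1
    have i2 := RA.isGInt_heckeMul ℓ hℓM hA hφ (hg' j).1
    have i3 := RA.isGInt_gal hdec' (hg j).1
    rw [Gauss.redFun_mul (i1.mul i2) (RA.isGInt_pow i3 ℓ), Gauss.redFun_mul i1 i2,
      RA.redFun_pow i3, RA.redFun_heckeMul ℓ hℓM hA hφ (hg' j).1, RA.redFun_gal hdec (hg j).1,
      RA.redFun_gal hdec' (hg j).1, RA.redFun_gal hdec (hg' j).1, RA.redFun_gal hdec' (hg' j).1,
      hgy, hgy', map_mul, map_mul]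
    ring
  refine ⟨∑ j, B j * (gal M φ (g j) * heckeMul M ℓ (g' j) * gal M φ⁻¹ (g j) ^ ℓ),
    RA.sum_mem _ _ fun j _ => RA.of_eq (zero_add _) (RA.mul_mem (hB j) (he j)), ?_⟩
  rw [RA.redFun_sum _ _ fun j _ => (hB j).1.mul (he j).1, ← hsum]
  refine Finset.sum_congr rfl fun j _ => ?_
  rw [Gauss.redFun_mul (hB j).1 (he j).1, hred, hBb]

/-- **[Z3]**, the opposite divisor -/
theorem Z3.triv_theta_neg (hℓM : ¬ ℓ ∣ M) (hA : A.LiesOverPrime ℓ) {φ : GQ}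
    (hφ : A.IsFrobeniusAt φ ℓ) {c : Place Kb (FF M) → Prop} (hc : GalStable A M c)
    (hT : ∀ D : Divisor Kb (FF M), (∀ v, c v → 0 ≤ D v) → ∀ v, c v → 0 ≤ heckeDiv M ℓ D v)
    {D₁ : Divisor Kb (FF M)} (h : Pair A M c D₁) : Triv A M c (-(thetaDiv M ℓ φ D₁)) := by
  have := Z3.triv_theta_pos ℓ hℓM hA hφ hc hT (RA.pair_neg h)
  have e : thetaDiv M ℓ φ (-D₁) = -(thetaDiv M ℓ φ D₁) := by
    rw [thetaDiv, thetaDiv, smul_neg, smul_neg, map_neg, smul_neg]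
    abel
  rwa [e] at this

end

/-- **[Z3]** (statement of `S37/Plan.lean`) -/
theorem triv_theta (M ℓ : ℕ) [NeZero M] [Fact ℓ.Prime] (hℓM : ¬ ℓ ∣ M)
    (A : ValuationSubring Kb) (hA : A.LiesOverPrime ℓ) (φ : GQ) (hφ : A.IsFrobeniusAt φ ℓ)
    {c : Place Kb (FF M) → Prop} (hc : GalStable A M c) (hT : HeckeStable M ℓ c)
    {D₁ : Divisor Kb (FF M)} (hP : Pair A M c D₁) :
    Triv A M c (thetaDiv M ℓ φ D₁) ∧ Triv A M c (-thetaDiv M ℓ φ D₁) :=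
  ⟨Z3.triv_theta_pos ℓ hℓM hA hφ hc (heckeDiv_nonneg M ℓ hT) hP,
    Z3.triv_theta_neg ℓ hℓM hA hφ hc (heckeDiv_nonneg M ℓ hT) hP⟩

end Fermat.Agent.S37
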