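import Fermat.Agent.S37.Lat
import Fermat.Agent.S37.F1
import Fermat.Agent.S37.Incl
import Fermat.Agent.S37.StabG
import Fermat.Agent.S37.StabH
import Fermat.Agent.S37.Z1
import Fermat.Agent.S37.Z2
import Fermat.Agent.S37.Z3
import Fermat.Agent.S37.LvlH
import Fermat.Agent.S37.LvlP
import Fermat.Agent.ES.InjAll

/-!
# S37 : the core statement

A divisor `E = ∑ (τ_i - 1) D_i + (φ² - T_ℓ φ + ℓ) D'` (`τ_i` in the inertia group, `φ` a Frobenius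
at `ℓ ∤ N m`) such that `m E` is principal is principal.
-/

set_option autoImplicit false
set_option linter.style.haveILetI false

noncomputable section

namespace Fermat.Agent.S37

open ModularCurve AlgebraicCurve Fermat.Agent.S24 Fermat.Agent.ES Fermat.Agent.ES.Inst

/-- the divisor representing an element of `M0`. -/
def m0Div (M ℓ : ℕ) [NeZero M] [NeZero ℓ] (φ : GQ) {n : ℕ} (τ : Fin n → GQ)
    (Ds : Fin n → Divisor Kb (FF M)) (D' : Divisor Kb (FF M)) : Divisor Kb (FF M) :=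
  ∑ i, (ag M (τ i) • Ds i - Ds i) +
    (ag M φ • ag M φ • D' - heckeDiv M ℓ (ag M φ • D') + ℓ • D')

theorem core (M ℓ : ℕ) [NeZero M] [Fact ℓ.Prime] (hℓM : ¬ ℓ ∣ M)
    (A : ValuationSubring Kb) (hA : A.LiesOverPrime ℓ) (Z : ZCoord M ℓ) (hU : Z.Unram)
    (φ : GQ) (hφ : A.IsFrobeniusAt φ ℓ) (m : ℕ) (hℓm : ¬ ℓ ∣ m) {n : ℕ} (τ : Fin n → GQ)
    (hτ : ∀ i, τ i ∈ A.inertiaSubgroupIn ℚ) (Ds : Fin n → Divisor Kb (FF M))
    (D' : Divisor Kb (FF M)) (hE : (m • m0Div M ℓ φ τ Ds D').IsPrincipal) :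
    (m0Div M ℓ φ τ Ds D').IsPrincipal := by
  have hℓ : ℓ.Prime := Fact.out
  have hnc : ∀ D, Pair A M (nc M) D := fun D =>
    Pair.mono (nc_le_Cx Z) (F1.pair_fin M ℓ hℓ hℓM A hA Z hU D)
  have hcu : ∀ D, Pair A M (cu A M) D := fun D =>
    Pair.mono cu_le_Cx (F1.pair_jinv M ℓ hℓ hℓM A hA D)
  have hth : ag M φ • ag M φ • D' - heckeDiv M ℓ (ag M φ • D') + ℓ • D' =
      thetaDiv M ℓ φ (ag M φ • D') := by
    have e : ag M φ⁻¹ = (ag M φ)⁻¹ := map_inv _ _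
    rw [thetaDiv, e, inv_smul_smul]
  have key : ∀ c : Place Kb (FF M) → Prop, GalStable A M c → HeckeStable M ℓ c →
      (∀ D, Pair A M c D) →
      Triv A M c (m0Div M ℓ φ τ Ds D') ∧ Triv A M c (-m0Div M ℓ φ τ Ds D') := by
    intro c hc hT hP
    constructor
    · rw [m0Div, hth]
      exact Triv.add (Triv.sum _ _ fun i _ => (triv_inertia hc (hτ i) (hP _)).1)
        (triv_theta M ℓ hℓM A hA φ hφ hc hT (hP _)).1
    · rw [m0Div, hth, neg_add, ← Finset.sum_neg_distrib]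
      exact Triv.add (Triv.sum _ _ fun i _ => (triv_inertia hc (hτ i) (hP _)).2)
        (triv_theta M ℓ hℓM A hA φ hφ hc hT (hP _)).2
  obtain ⟨h1, h2⟩ := key _ (galStable_nc A M) (heckeStable_nc M ℓ hℓM) hnc
  obtain ⟨h3, h4⟩ := key _ (galStable_cu A M) (heckeStable_cu A M ℓ hℓM) hcu
  exact principal_of_triv M ℓ hℓ hℓM A hA m hℓm _ hE h1 h2 h3 h4

theorem pb_m0Div (N r ℓ : ℕ) [NeZero N] [NeZero r] [Fact ℓ.Prime] (hℓ : ¬ ℓ ∣ N * r) (φ : GQ)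
    {n : ℕ} (τ : Fin n → GQ) (Ds : Fin n → Divisor Kb (FF N)) (D' : Divisor Kb (FF N)) :
    LvlH.pb N r (m0Div N ℓ φ τ Ds D') =
      m0Div (N * r) ℓ φ τ (fun i => LvlH.pb N r (Ds i)) (LvlH.pb N r D') := by
  simp only [m0Div, map_add, map_sub, map_sum, map_nsmul, LvlP.pb_smul, LvlH.pb_heckeDiv N r ℓ hℓ]

/-- [CORE] at level `N r` implies [CORE] at level `N`. -/
theorem core_of_mul (N r ℓ : ℕ) [NeZero N] [NeZero r] [Fact ℓ.Prime] (hℓ : ¬ ℓ ∣ N * r)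
    (A : ValuationSubring Kb) (hA : A.LiesOverPrime ℓ) (Z : ZCoord (N * r) ℓ) (hU : Z.Unram)
    (φ : GQ) (hφ : A.IsFrobeniusAt φ ℓ) (m : ℕ) (hℓm : ¬ ℓ ∣ m)
    (hd : Nat.Coprime (finrankAlong Kb (heckeAlphaBar Kb N r)) m) {n : ℕ} (τ : Fin n → GQ)
    (hτ : ∀ i, τ i ∈ A.inertiaSubgroupIn ℚ) (Ds : Fin n → Divisor Kb (FF N))
    (D' : Divisor Kb (FF N)) (hE : (m • m0Div N ℓ φ τ Ds D').IsPrincipal) :
    (m0Div N ℓ φ τ Ds D').IsPrincipal := by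
  refine LvlP.isPrincipal_of_pb N r m hd _ hE ?_
  rw [pb_m0Div N r ℓ hℓ]
  refine core (N * r) ℓ hℓ A hA Z hU φ hφ m hℓm τ hτ _ _ ?_
  rw [← pb_m0Div N r ℓ hℓ, ← map_nsmul]
  exact LvlP.isPrincipal_pb N r hE

/-- [CORE] for all `ℓ ∤ N m`. -/
theorem core_all (N ℓ : ℕ) [NeZero N] [Fact ℓ.Prime] (hℓN : ¬ ℓ ∣ N)
    (A : ValuationSubring Kb) (hA : A.LiesOverPrime ℓ)
    (φ : GQ) (hφ : A.IsFrobeniusAt φ ℓ) (m : ℕ) (hℓm : ¬ ℓ ∣ m) {n : ℕ} (τ : Fin n → GQ)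
    (hτ : ∀ i, τ i ∈ A.inertiaSubgroupIn ℚ) (Ds : Fin n → Divisor Kb (FF N))
    (D' : Divisor Kb (FF N)) (hE : (m • m0Div N ℓ φ τ Ds D').IsPrincipal) :
    (m0Div N ℓ φ τ Ds D').IsPrincipal := by
  have hℓ : ℓ.Prime := Fact.out
  by_cases h5 : 5 ≤ ℓ
  · obtain ⟨Z, hZ⟩ := Inst.exists_jCoord N ℓ hℓ h5
    exact core N ℓ hℓN A hA Z hZ φ hφ m hℓm τ hτ Ds D' hE
  have h23 : ℓ = 2 ∨ ℓ = 3 := by
    have h := hℓ.two_le
    have h4 : ℓ ≠ 4 := by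
      rintro rfl
      exact absurd hℓ (by norm_num)
    omega
  rcases h23 with rfl | rfl
  · by_cases h3 : 3 ∣ N
    · obtain ⟨Z, hZ⟩ := Inst.exists_t3Coord N h3
      exact core N 2 hℓN A hA Z hZ φ hφ m hℓm τ hτ Ds D' hE
    · haveI : Fact (Nat.Prime 3) := ⟨by norm_num⟩
      obtain ⟨Z, hZ⟩ := Inst.exists_t3Coord (N * 3) (dvd_mul_left 3 N)
      have h1' : ¬ 2 ∣ N * 3 := by omega
      refine core_of_mul N 3 2 h1' A hA Z hZ φ hφ m hℓm ?_ τ hτ Ds D' hE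
      rw [finrank_heckeAlpha N 3 h3]
      have : Nat.Coprime 2 m := (Nat.Prime.coprime_iff_not_dvd (by norm_num)).2 hℓm
      exact Nat.Coprime.pow_left 2 this
  · by_cases h3 : 2 ∣ N
    · obtain ⟨Z, hZ⟩ := Inst.exists_t2Coord N h3
      exact core N 3 hℓN A hA Z hZ φ hφ m hℓm τ hτ Ds D' hE
    · haveI : Fact (Nat.Prime 2) := ⟨by norm_num⟩
      obtain ⟨Z, hZ⟩ := Inst.exists_t2Coord (N * 2) (dvd_mul_left 2 N)
      have h1' : ¬ 3 ∣ N * 2 := by omega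
      refine core_of_mul N 2 3 h1' A hA Z hZ φ hφ m hℓm ?_ τ hτ Ds D' hE
      rw [finrank_heckeAlpha N 2 h3]
      exact (Nat.Prime.coprime_iff_not_dvd (by norm_num)).2 hℓm

end Fermat.Agent.S37
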