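import Fermat.Agent.ES.MBetaGen

/-!
# S37, package F1, abstract part

Corollary of `BetaGen.exists_pair` and `BetaGen.exists_oneUnit`: `1 ∈ M M'` modulo `ϖ`.
-/

set_option autoImplicit false

namespace Fermat.Agent.S37.F1Abs

open Fermat.Agent.ES.Model Fermat.Agent.ES.Model.BetaGen

variable {F : Type*} [Field F]

/-- finite sums of products `x x'`, `x ∈ M`, `x' ∈ M'`. -/
def prodGroup (M M' : AddSubgroup F) : AddSubgroup F where
  carrier := {z | ∃ (n : ℕ) (f f' : Fin n → F), (∀ k, f k ∈ M) ∧ (∀ k, f' k ∈ M') ∧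
    z = ∑ k, f k * f' k}
  zero_mem' := ⟨0, fun _ => 0, fun _ => 0, fun k => k.elim0, fun k => k.elim0, by simp⟩
  add_mem' := by
    rintro _ _ ⟨n, f, f', hf, hf', rfl⟩ ⟨m, g, g', hg, hg', rfl⟩
    refine ⟨n + m, Fin.append f g, Fin.append f' g', ?_, ?_, ?_⟩
    · intro k
      refine Fin.addCases (fun i => ?_) (fun i => ?_) k
      · rw [Fin.append_left]; exact hf i
      · rw [Fin.append_right]; exact hg i
    · intro k
      refine Fin.addCases (fun i => ?_) (fun i => ?_) k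
      · rw [Fin.append_left]; exact hf' i
      · rw [Fin.append_right]; exact hg' i
    · rw [Fin.sum_univ_add]
      simp only [Fin.append_left, Fin.append_right]
  neg_mem' := by
    rintro _ ⟨n, f, f', hf, hf', rfl⟩
    exact ⟨n, fun k => - f k, f', fun k => M.neg_mem (hf k), hf', by simp⟩

variable {O : ValuationSubring F} {ϖ : F} {B : Subring F}

/-- **F1, abstract form.** -/
theorem exists_sum (hO : IsUnif O ϖ) (hB : IsPre O ϖ B)
    (hded : IsDedekindDomain (B ⧸ Ideal.span {(⟨ϖ, hB.unif_mem⟩ : B)}))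
    (M M' : AddSubgroup F) (hM : IsLat O ϖ B M) (hM' : IsLat O ϖ B M')
    (hmul : ∀ x ∈ M, ∀ x' ∈ M', x * x' ∈ B)
    (hdiv : ∃ (c : ℕ) (ι : Type) (_ : Fintype ι) (g g' : ι → F), (∀ i, g i ∈ M) ∧
      (∀ i, g' i ∈ M') ∧ ϖ ^ c = ∑ i, g i * g' i) :
    ∃ (n : ℕ) (f f' : Fin n → F), (∀ k, f k ∈ M) ∧ (∀ k, f' k ∈ M') ∧
      DivO O ϖ 1 (∑ k, f k * f' k - 1) := by
  classical
  have h1 : ∀ b ∈ B, ∀ x ∈ prodGroup M M', b * x ∈ prodGroup M M' := by
    rintro b hb _ ⟨n, f, f', hf, hf', rfl⟩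
    exact ⟨n, fun k => b * f k, f', fun k => hM.smul b hb _ (hf k), hf', by
      rw [Finset.mul_sum]
      exact Finset.sum_congr rfl fun k _ => (mul_assoc _ _ _).symm⟩
  have h2 : ∀ n : Ideal (B ⧸ Ideal.span {(⟨ϖ, hB.unif_mem⟩ : B)}), n.IsMaximal →
      ∃ x ∈ prodGroup M M', ∃ b : B, DivO O ϖ 1 (x - b) ∧
        Ideal.Quotient.mk (Ideal.span {(⟨ϖ, hB.unif_mem⟩ : B)}) b ∉ n := by
    intro n hn
    obtain ⟨x, x', hx, hx', h⟩ := exists_pair hO hB hded M M' hM hM' hmul hdiv {n}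
      (by simpa using hn)
    refine ⟨x * x', ⟨1, fun _ => x, fun _ => x', fun _ => hx, fun _ => hx', by simp⟩,
      ⟨x * x', hmul x hx x' hx'⟩, ?_, h n (by simp)⟩
    exact ⟨0, O.zero_mem, by simp⟩
  obtain ⟨z, ⟨n, f, f', hf, hf', rfl⟩, hz⟩ := exists_oneUnit hB (prodGroup M M') h1 h2
  exact ⟨n, f, f', hf, hf', hz⟩

end Fermat.Agent.S37.F1Abs
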