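import Fermat.Agent.S37.PDefs
import Fermat.Agent.S37.F1Abs
import Fermat.Agent.ES.InstFinalCore
import Fermat.Agent.ES.InstPl

/-!
# S37, package F1 : the `K0`-level core

`Pair A N (Cx x) E` from the normality of the special fibre of the chart `R[x]` and witnesses of
`1 ∈ L(E) L(-E)` defined over `K0`.
-/

set_option autoImplicit false

noncomputable section

namespace Fermat.Agent.S37.F1

open ModularCurve AlgebraicCurve Polynomial IntermediateField
open Fermat.Agent.S24 Fermat.Agent.S28 Fermat.Agent.ES Fermat.Agent.ES.QE Fermat.Agent.ES.Model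
  Fermat.Agent.ES.IDvr Fermat.Agent.ES.Inst Fermat.Agent.ES.Model.BetaGen

/-! ### the condition `div f + E ≥ 0` on a chart -/

section Lx

variable {N : ℕ}

/-- `f = 0` or `div f + E ≥ 0` on `c`. -/
def Lx (c : Place Kb (FF N) → Prop) (E : Divisor Kb (FF N)) (f : FF N) : Prop :=
  f = 0 ∨ ∀ v, c v → 0 ≤ v.ord f + E v

variable {c : Place Kb (FF N) → Prop} {E E' : Divisor Kb (FF N)} {f g : FF N}

theorem Lx.add (hf : Lx c E f) (hg : Lx c E g) : Lx c E (f + g) := by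
  by_cases h0 : f + g = 0
  · exact Or.inl h0
  rcases hf with rfl | hf
  · rwa [zero_add]
  rcases hg with rfl | hg
  · rw [add_zero]; exact Or.inr hf
  refine Or.inr fun v hv => ?_
  have h1 := Place.ord_add_ge v h0
  have h2 := hf v hv
  have h3 := hg v hv
  rcases min_le_iff.1 h1 with h | h <;> omega

theorem Lx.neg (hf : Lx c E f) : Lx c E (-f) := by
  rcases hf with rfl | hf
  · exact Or.inl neg_zero
  · exact Or.inr fun v hv => by rw [Place.ord_neg]; exact hf v hv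

theorem Lx.mul (hf : Lx c E f) (hg : Lx c E' g) : Lx c (E + E') (f * g) := by
  rcases hf with rfl | hf
  · exact Or.inl (zero_mul _)
  rcases hg with rfl | hg
  · exact Or.inl (mul_zero _)
  by_cases hf0 : f = 0
  · exact Or.inl (by rw [hf0, zero_mul])
  by_cases hg0 : g = 0
  · exact Or.inl (by rw [hg0, mul_zero])
  refine Or.inr fun v hv => ?_
  rw [v.ord_mul hf0 hg0, Finsupp.add_apply]
  have h2 := hf v hv
  have h3 := hg v hv
  omega

theorem Lx.const_mul (a : Kb) (hf : Lx c E f) : Lx c E (algebraMap Kb (FF N) a * f) := by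
  have h : Lx c (0 : Divisor Kb (FF N)) (algebraMap Kb (FF N) a) :=
    Or.inr fun v _ => by rw [Place.ord_algebraMap]; simp
  simpa using h.mul hf

theorem Lx.of_const_mul {a : Kb} (ha : a ≠ 0) (hf : Lx c E (algebraMap Kb (FF N) a * f)) :
    Lx c E f := by
  have := hf.const_mul a⁻¹
  rwa [← mul_assoc, ← map_mul, inv_mul_cancel₀ ha, map_one, one_mul] at this

end Lx

/-! ### the bridge between the Gauss valuation rings over `K0` and over `Kb` -/

section Bridge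

variable {A : ValuationSubring Kb} {K0 : IntermediateField ℚ Kb}

theorem isIntA_bc_inc (W : LaurentSeries (R0 K0 A)) :
    IsIntA A (bc K0 (coeffMap (algebraMap (R0 K0 A) K0) W)) := fun n => (W.coeff n).2

theorem isPrimA_bc_inc (W : LaurentSeries (R0 K0 A)) (h : coeffMap (res0 K0 A) W ≠ 0) :
    IsPrimA A (bc K0 (coeffMap (algebraMap (R0 K0 A) K0) W)) := by
  refine ⟨isIntA_bc_inc W, ?_⟩
  by_contra hcon
  push Not at hcon
  apply h
  ext n
  have h1 : (coeffMap (res0 K0 A) W).coeff n = res0 K0 A (W.coeff n) := rfl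
  rw [h1, HahnSeries.coeff_zero, InstGauss.res0_eq_zero_iff]
  exact hcon n

variable [IsDiscreteValuationRing (R0 K0 A)] {N : ℕ} (D : QData (R0 K0 A) K0 (kA A))
  (hres : D.res = res0 K0 A) (ι : D.F0 →+* FF N)
  (hι : ∀ f : D.F0, ((ι f : FF N) : LaurentSeries Kb) = bc K0 (f : LaurentSeries K0))

include hres hι in
theorem isGInt_of_mem_gaussO {f : D.F0} (hf : f ∈ D.gaussO) : Gauss.IsGInt A N (ι f) := by
  obtain ⟨s, r, hs, h⟩ := D.exists_frac f.2 hf
  have hQ : (D.coordJ.phiF s : LaurentSeries K0) = D.inc (evS (jqModC (R0 K0 A)) s) := rfl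
  refine ⟨ι (f * D.coordJ.phiF s), ι (D.coordJ.phiF s), ?_, ?_, by rw [map_mul]⟩
  · rw [hι]
    have : ((f * D.coordJ.phiF s : D.F0) : LaurentSeries K0) = D.inc (D.mW r) := by
      rw [← h, ← hQ, mul_comm]; rfl
    rw [this]
    exact isIntA_bc_inc _
  · rw [hι, hQ]
    refine isPrimA_bc_inc _ ?_
    have := D.red_evS_j_ne_zero hs
    rwa [QData.red, hres] at this

omit [IsDiscreteValuationRing (R0 K0 A)] in
include hι in
theorem ι_algebraMap (c : K0) : ι (algebraMap K0 D.F0 c) = algebraMap Kb (FF N) ((c : K0) : Kb) :=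
  Subtype.ext (by rw [hι]; exact InstUp.bc_algebraMap K0 c)

include hres hι in
theorem redFun_eq_zero_of_divO {z : D.F0} (hz : DivO D.gaussO D.ϖF 1 z) :
    Gauss.redFun A N (ι z) = 0 := by
  obtain ⟨y, hy, rfl⟩ := hz
  have hϖ : (((D.ϖ : R0 K0 A) : K0) : Kb) ∈ A.nonunits := by
    rw [← InstGauss.res0_eq_zero_iff, ← hres]; exact D.res_ϖ
  have hϖA : (((D.ϖ : R0 K0 A) : K0) : Kb) ∈ A := (D.ϖ).2
  have e : ι D.ϖF = algebraMap Kb (FF N) (((D.ϖ : R0 K0 A) : K0) : Kb) :=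
    ι_algebraMap D ι hι _
  have h1 : Gauss.IsGInt A N (ι D.ϖF) := isGInt_of_mem_gaussO D hres ι hι D.isUnif.mem
  rw [pow_one, map_mul, Gauss.redFun_mul h1 (isGInt_of_mem_gaussO D hres ι hι hy), e,
    Gauss.redFun_algebraMap hϖA]
  have : IsLocalRing.residue A ⟨_, hϖA⟩ = 0 := by
    rw [IsLocalRing.residue_eq_zero_iff, ← ValuationSubring.coe_mem_nonunits_iff]
    exact hϖ
  rw [this, map_zero, zero_mul]

theorem exists_pow_mul_mem_gaussO (f : D.F0) : ∃ a : ℕ, D.ϖF ^ a * f ∈ D.gaussO := by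
  by_cases hf0 : f = 0
  · exact ⟨0, by rw [hf0, mul_zero]; exact D.gaussO.zero_mem⟩
  have hf0' : (f : LaurentSeries K0) ≠ 0 := fun h => hf0 (Subtype.ext h)
  obtain ⟨a, c, s, r, hs, -, h⟩ := D.exists_normal_form f.2 hf0'
  refine ⟨a, D.mem_gaussO.2 ⟨evS (jqModC (R0 K0 A)) s, D.ϖW ^ c * D.mW r,
    D.red_evS_j_ne_zero hs, ?_⟩⟩
  rw [map_mul, map_pow, D.inc_ϖW, ← h]
  push_cast
  rw [D.coe_ϖF]
  ring

end Bridge

/-! ### the core -/

section Core

variable {A : ValuationSubring Kb} {K0 : IntermediateField ℚ Kb}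
  [IsDiscreteValuationRing (R0 K0 A)] {N : ℕ} [NeZero N] (D : QData (R0 K0 A) K0 (kA A))
  (ι : D.F0 →+* FF N)

/-- the lattice `L(E) ∩ O` over `K0`. -/
def latK (c : Place Kb (FF N) → Prop) (E : Divisor Kb (FF N)) : AddSubgroup D.F0 where
  carrier := {f | f ∈ D.gaussO ∧ Lx c E (ι f)}
  zero_mem' := ⟨D.gaussO.zero_mem, Or.inl (map_zero ι)⟩
  add_mem' := fun hf hg => ⟨D.gaussO.add_mem _ _ hf.1 hg.1, by rw [map_add]; exact hf.2.add hg.2⟩
  neg_mem' := fun hf => ⟨D.gaussO.neg_mem _ hf.1, by rw [map_neg]; exact hf.2.neg⟩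

variable (hres : D.res = res0 K0 A)
  (hι : ∀ f : D.F0, ((ι f : FF N) : LaurentSeries Kb) = bc K0 (f : LaurentSeries K0))
  (X : D.Coord)

include hι in
theorem isIntK_iff' (b : D.F0) :
    IsIntK X b ↔ IsIntegral (Algebra.adjoin Kb {ι X.x}) (ι b) := by
  have h2 := isIntK_iff N D X b (hι X.x ▸ (ι X.x).2) (hι b ▸ (ι b).2)
  have e1 : (⟨_, hι X.x ▸ (ι X.x).2⟩ : FF N) = ι X.x := Subtype.ext (hι X.x).symm
  have e2 : (⟨_, hι b ▸ (ι b).2⟩ : FF N) = ι b := Subtype.ext (hι b).symm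
  rwa [e1, e2] at h2

include hι in
theorem Lx_of_mem_chart {b : D.F0} (hb : b ∈ X.chart) : Lx (Cx (ι X.x)) 0 (ι b) := by
  refine Or.inr fun v hv => ?_
  have h1 : IsIntK X b := ⟨0, by rwa [pow_zero, one_mul]⟩
  have h2 := (isIntK_iff' D ι hι X b).1 h1
  have := ord_nonneg_of_isIntegral N _ _ h2 v hv
  simpa using this

include hι in
theorem isLat_latK (E : Divisor Kb (FF N)) :
    IsLat D.gaussO D.ϖF X.chart (latK D ι (Cx (ι X.x)) E) where
  le := fun _ hx => hx.1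
  smul := fun b hb x hx => ⟨D.gaussO.mul_mem _ _ (X.chart_le_gaussO hb) hx.1, by
    rw [map_mul]
    simpa using (Lx_of_mem_chart D ι hι X hb).mul hx.2⟩
  sat := fun x hx h => ⟨hx, by
    have h1 := h.2
    rw [map_mul, QData.ϖF, ι_algebraMap D ι hι] at h1
    refine Lx.of_const_mul ?_ h1
    intro h0
    apply D.ϖF_ne_zero
    apply ι.injective
    rw [QData.ϖF, ι_algebraMap D ι hι, h0, map_zero, map_zero]⟩

theorem mem_chart_of_pow_mul (c : ℕ) : ∀ z : D.F0, z ∈ D.gaussO → D.ϖF ^ c * z ∈ X.chart →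
    z ∈ X.chart := by
  induction c with
  | zero => intro z _ h; simpa using h
  | succ c ih =>
    intro z hz h
    apply ih z hz
    have h1 : D.ϖF ^ (c + 1) * z = D.ϖF * (D.ϖF ^ c * z) := by ring
    obtain ⟨y, hy, e⟩ := (X.isChart (m := 1) (by simp)).sat _ h
      ⟨D.ϖF ^ c * z, D.gaussO.mul_mem _ _ (D.gaussO.pow_mem D.isUnif.mem c) hz, by
        rw [pow_one, h1]⟩
    rw [h1] at e
    rw [mul_left_cancel₀ D.ϖF_ne_zero e]
    exact hy

include hres hι in
/-- **F1, the `K0`-level core.** -/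
theorem pair_core (hxt : Transcendental Kb (ι X.x)) [FiniteDimensional Kb⟮ι X.x⟯ (FF N)]
    (hded : IsDedekindDomain (X.chart ⧸ Ideal.span {ϖB X})) (E : Divisor Kb (FF N))
    (n : ℕ) (G G' : Fin n → D.F0)
    (hG : ∀ i, ι (G i) ≠ 0 → ∀ v : Place Kb (FF N), 0 ≤ v.ord (ι X.x) →
      0 ≤ v.ord (ι (G i)) + E v)
    (hG' : ∀ i, ι (G' i) ≠ 0 → ∀ v : Place Kb (FF N), 0 ≤ v.ord (ι X.x) →
      0 ≤ v.ord (ι (G' i)) - E v)
    (hsum : ∑ i, G i * G' i = 1) : Pair A N (Cx (ι X.x)) E := by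
  classical
  have hB : IsPre D.gaussO D.ϖF X.chart := (X.isChart (m := 1) (by simp)).isPre
  have hmul : ∀ x ∈ latK D ι (Cx (ι X.x)) E, ∀ x' ∈ latK D ι (Cx (ι X.x)) (-E),
      x * x' ∈ X.chart := by
    intro x hx x' hx'
    have h1 : Lx (Cx (ι X.x)) 0 (ι (x * x')) := by
      rw [map_mul]
      simpa using hx.2.mul hx'.2
    have h2 : IsIntegral (Algebra.adjoin Kb {ι X.x}) (ι (x * x')) := by
      refine isIntegral_of_ord N _ hxt _ fun v hv => ?_
      rcases h1 with h0 | h1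
      · rw [h0]; simp
      · simpa using h1 v hv
    obtain ⟨c, hc⟩ := (isIntK_iff' D ι hι X (x * x')).2 h2
    exact mem_chart_of_pow_mul D X c _ (D.gaussO.mul_mem _ _ hx.1 hx'.1) hc
  have hdiv : ∃ (c : ℕ) (J : Type) (_ : Fintype J) (g g' : J → D.F0),
      (∀ i, g i ∈ latK D ι (Cx (ι X.x)) E) ∧ (∀ i, g' i ∈ latK D ι (Cx (ι X.x)) (-E)) ∧
      D.ϖF ^ c = ∑ i, g i * g' i := by
    choose a ha using fun i => exists_pow_mul_mem_gaussO D (G i)
    choose a' ha' using fun i => exists_pow_mul_mem_gaussO D (G' i)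
    set c := Finset.univ.sup a with hc
    set c' := Finset.univ.sup a' with hc'
    have hup : ∀ (e e' : ℕ) (z : D.F0), e ≤ e' → D.ϖF ^ e * z ∈ D.gaussO →
        D.ϖF ^ e' * z ∈ D.gaussO := by
      intro e e' z hee h
      obtain ⟨d, rfl⟩ := Nat.exists_eq_add_of_le hee
      rw [pow_add, mul_comm (D.ϖF ^ e), mul_assoc]
      exact D.gaussO.mul_mem _ _ (D.gaussO.pow_mem D.isUnif.mem d) h
    have hconst : ∀ (e : ℕ) (z : D.F0) (E' : Divisor Kb (FF N)), Lx (Cx (ι X.x)) E' (ι z) →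
        Lx (Cx (ι X.x)) E' (ι (D.ϖF ^ e * z)) := by
      intro e z E' h
      rw [map_mul, QData.ϖF, ← map_pow, ι_algebraMap D ι hι]
      exact h.const_mul _
    refine ⟨c + c', Fin n, inferInstance, fun i => D.ϖF ^ c * G i, fun i => D.ϖF ^ c' * G' i,
      fun i => ⟨hup _ _ _ (Finset.le_sup (Finset.mem_univ i)) (ha i), hconst _ _ _ ?_⟩,
      fun i => ⟨hup _ _ _ (Finset.le_sup (Finset.mem_univ i)) (ha' i), hconst _ _ _ ?_⟩, ?_⟩
    · by_cases h0 : ι (G i) = 0
      · exact Or.inl h0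
      · exact Or.inr (hG i h0)
    · by_cases h0 : ι (G' i) = 0
      · exact Or.inl h0
      · refine Or.inr fun v hv => ?_
        have := hG' i h0 v hv
        rw [Finsupp.neg_apply]
        omega
    · have : ∀ i, D.ϖF ^ c * G i * (D.ϖF ^ c' * G' i) = D.ϖF ^ (c + c') * (G i * G' i) :=
        fun i => by rw [pow_add]; ring
      simp only [this]
      rw [← Finset.mul_sum, hsum, mul_one]
  obtain ⟨m, f, f', hf, hf', h1⟩ := F1Abs.exists_sum D.isUnif hB hded _ _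
    (isLat_latK D ι hι X E) (isLat_latK D ι hι X (-E)) hmul hdiv
  refine ⟨m, fun k => ι (f k), fun k => ι (f' k),
    fun k => ⟨isGInt_of_mem_gaussO D hres ι hι (hf k).1, (hf k).2⟩,
    fun k => ⟨isGInt_of_mem_gaussO D hres ι hι (hf' k).1, (hf' k).2⟩, ?_⟩
  have h2 := redFun_eq_zero_of_divO D hres ι hι h1
  have h3 : ∑ k, ι (f k) * ι (f' k) = ι (∑ k, f k * f' k - 1) + 1 := by
    rw [map_sub, map_sum, map_one, sub_add_cancel]
    exact Finset.sum_congr rfl fun k _ => (map_mul ι _ _).symm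
  have h4 : Gauss.IsGInt A N (ι (∑ k, f k * f' k - 1)) := by
    obtain ⟨y, hy, e⟩ := h1
    rw [e]
    exact isGInt_of_mem_gaussO D hres ι hι
      (D.gaussO.mul_mem _ _ (D.gaussO.pow_mem D.isUnif.mem 1) hy)
  rw [h3, Gauss.redFun_add h4 (Gauss.IsGInt.of_isIntA IsPrimA.one.1), h2, Gauss.redFun_one,
    zero_add]

end Core

end Fermat.Agent.S37.F1
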