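import Fermat.Agent.S37.PDefs

/-!
# S37, package LAT : formal properties of `Lat`, `Pair`, `Triv`
-/

set_option autoImplicit false

noncomputable section

namespace Fermat.Agent.S37

open ModularCurve AlgebraicCurve Fermat.Agent.S24 Fermat.Agent.ES

variable {A : ValuationSubring Kb} {M : ℕ}

theorem Lat.mono {c c' : Place Kb (FF M) → Prop} (h : ∀ v, c v → c' v) (D : Divisor Kb (FF M))
    {f : FF M} (hf : f ∈ Lat A M c' D) : f ∈ Lat A M c D :=
  ⟨hf.1, hf.2.imp id fun H v hv => H v (h v hv)⟩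

theorem Lat.zero (c : Place Kb (FF M) → Prop) (D : Divisor Kb (FF M)) :
    (0 : FF M) ∈ Lat A M c D :=
  ⟨Gauss.IsGInt.of_isIntA (by simpa using Gauss.isIntA_zero (A := A)), Or.inl rfl⟩

theorem Lat.add {c : Place Kb (FF M) → Prop} {D : Divisor Kb (FF M)} {f g : FF M}
    (hf : f ∈ Lat A M c D) (hg : g ∈ Lat A M c D) : f + g ∈ Lat A M c D := by
  refine ⟨hf.1.add hg.1, ?_⟩
  rcases hf.2 with rfl | hf2
  · rw [zero_add]; exact hg.2
  rcases hg.2 with rfl | hg2
  · rw [add_zero]; exact Or.inr hf2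
  by_cases h0 : f + g = 0
  · exact Or.inl h0
  · refine Or.inr fun v hv => ?_
    have h1 := FF.ord_add_ge v h0
    have h2 := hf2 v hv
    have h3 := hg2 v hv
    rcases min_le_iff.mp h1 with h | h <;> omega

theorem Lat.neg {c : Place Kb (FF M) → Prop} {D : Divisor Kb (FF M)} {f : FF M}
    (hf : f ∈ Lat A M c D) : -f ∈ Lat A M c D := by
  refine ⟨hf.1.neg, ?_⟩
  rcases hf.2 with rfl | hf2
  · exact Or.inl neg_zero
  · refine Or.inr fun v hv => ?_
    rw [FF.ord_neg]
    exact hf2 v hv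

theorem Lat.one (c : Place Kb (FF M) → Prop) : (1 : FF M) ∈ Lat A M c 0 := by
  refine ⟨Gauss.IsGInt.of_isIntA ?_, Or.inr fun v _ => by simp⟩
  have : ((1 : FF M) : LaurentSeries Kb) = HahnSeries.C (1 : Kb) := by simp
  rw [this]
  exact Gauss.isIntA_C A.one_mem

theorem Lat.sum {c : Place Kb (FF M) → Prop} {D : Divisor Kb (FF M)} {ι : Type*} (s : Finset ι)
    (f : ι → FF M) (hf : ∀ i ∈ s, f i ∈ Lat A M c D) : ∑ i ∈ s, f i ∈ Lat A M c D := by
  classical
  induction s using Finset.induction_on with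
  | empty => simpa using Lat.zero c D
  | insert a s ha ih =>
    rw [Finset.sum_insert ha]
    exact Lat.add (hf a (Finset.mem_insert_self a s))
      (ih fun i hi => hf i (Finset.mem_insert_of_mem hi))

theorem Lat.mul {c : Place Kb (FF M) → Prop} {D D' : Divisor Kb (FF M)} {f g : FF M}
    (hf : f ∈ Lat A M c D) (hg : g ∈ Lat A M c D') : f * g ∈ Lat A M c (D + D') := by
  refine ⟨hf.1.mul hg.1, ?_⟩
  rcases hf.2 with rfl | hf2
  · exact Or.inl (zero_mul _)
  rcases hg.2 with rfl | hg2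
  · exact Or.inl (mul_zero _)
  by_cases hf0 : f = 0
  · exact Or.inl (by rw [hf0, zero_mul])
  by_cases hg0 : g = 0
  · exact Or.inl (by rw [hg0, mul_zero])
  refine Or.inr fun v hv => ?_
  rw [v.ord_mul hf0 hg0, Finsupp.add_apply]
  have h2 := hf2 v hv
  have h3 := hg2 v hv
  omega

theorem Lat.pow {c : Place Kb (FF M) → Prop} {D : Divisor Kb (FF M)} {f : FF M}
    (hf : f ∈ Lat A M c D) (n : ℕ) : f ^ n ∈ Lat A M c (n • D) := by
  induction n with
  | zero => simpa using Lat.one c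
  | succ n ih =>
    rw [pow_succ, succ_nsmul]
    exact Lat.mul ih hf

theorem Pair.mono {c c' : Place Kb (FF M) → Prop} (h : ∀ v, c v → c' v) {D : Divisor Kb (FF M)}
    (hP : Pair A M c' D) : Pair A M c D := by
  obtain ⟨n, f, f', hf, hf', h1⟩ := hP
  exact ⟨n, f, f', fun k => Lat.mono h _ (hf k), fun k => Lat.mono h _ (hf' k), h1⟩

theorem Pair.neg {c : Place Kb (FF M) → Prop} {D : Divisor Kb (FF M)}
    (hP : Pair A M c D) : Pair A M c (-D) := by
  obtain ⟨n, f, f', hf, hf', h1⟩ := hP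
  refine ⟨n, f', f, hf', fun k => by rw [neg_neg]; exact hf k, ?_⟩
  rw [← h1]
  congr 1
  exact Finset.sum_congr rfl fun k _ => mul_comm _ _

theorem Triv.zero (c : Place Kb (FF M) → Prop) : Triv A M c 0 :=
  ⟨1, Lat.one c, Gauss.redFun_one⟩

theorem Triv.add {c : Place Kb (FF M) → Prop} {E E' : Divisor Kb (FF M)}
    (h : Triv A M c E) (h' : Triv A M c E') : Triv A M c (E + E') := by
  obtain ⟨f, hf, h1⟩ := h
  obtain ⟨g, hg, h2⟩ := h'
  exact ⟨f * g, Lat.mul hf hg, by rw [Gauss.redFun_mul hf.1 hg.1, h1, h2, one_mul]⟩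

theorem Triv.sum {c : Place Kb (FF M) → Prop} {ι : Type*} (s : Finset ι)
    (E : ι → Divisor Kb (FF M)) (h : ∀ i ∈ s, Triv A M c (E i)) :
    Triv A M c (∑ i ∈ s, E i) := by
  classical
  induction s using Finset.induction_on with
  | empty => simpa using Triv.zero c
  | insert a s ha ih =>
    rw [Finset.sum_insert ha]
    exact Triv.add (h a (Finset.mem_insert_self a s))
      (ih fun i hi => h i (Finset.mem_insert_of_mem hi))

end Fermat.Agent.S37
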