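import Fermat.Agent.S37.RedAux
import Fermat.Agent.Lib.Frobenius

/-!
# S37, package RED : Gauss valuation versus Galois and Hecke (statements of `S37/Plan.lean`)

The proofs are in `S37/RedAux.lean`.
-/

set_option autoImplicit false

noncomputable section

namespace Fermat.Agent.S37

open ModularCurve AlgebraicCurve Fermat.Agent.S24 Fermat.Agent.ES

variable {A : ValuationSubring Kb} {M : ℕ}

theorem isGInt_gal {σ : GQ} (hσ : σ ∈ A.decompositionSubgroup ℚ) {f : FF M}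
    (hf : Gauss.IsGInt A M f) : Gauss.IsGInt A M (gal M σ f) := RA.isGInt_gal hσ hf

theorem redFun_gal_eq_zero {σ : GQ} (hσ : σ ∈ A.decompositionSubgroup ℚ) {f : FF M}
    (hf : Gauss.IsGInt A M f) (h0 : Gauss.redFun A M f = 0) :
    Gauss.redFun A M (gal M σ f) = 0 := by
  rw [RA.redFun_gal hσ hf, h0, map_zero]

theorem redFun_gal_of_inertia {τ : GQ} (hτ : τ ∈ A.inertiaSubgroupIn ℚ) {f : FF M}
    (hf : Gauss.IsGInt A M f) : Gauss.redFun A M (gal M τ f) = Gauss.redFun A M f :=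
  RA.redFun_gal_of_mem_inertia hτ hf

theorem isGInt_heckeMul (M ℓ : ℕ) [NeZero M] [Fact ℓ.Prime] (hℓM : ¬ ℓ ∣ M)
    (A : ValuationSubring Kb) (hA : A.LiesOverPrime ℓ) {f : FF M} (hf : Gauss.IsGInt A M f) :
    Gauss.IsGInt A M (heckeMul M ℓ f) := by
  obtain ⟨φ, hφ⟩ := Fermat.Agent.Lib.Frobenius.exists_isFrobeniusAt A Fact.out hA
  exact RA.isGInt_heckeMul ℓ hℓM hA hφ hf

theorem redFun_heckeMul (M ℓ : ℕ) [NeZero M] [Fact ℓ.Prime] (hℓM : ¬ ℓ ∣ M)
    (A : ValuationSubring Kb) (hA : A.LiesOverPrime ℓ) (φ : GQ) (hφ : A.IsFrobeniusAt φ ℓ)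
    {f : FF M} (hf : Gauss.IsGInt A M f) :
    Gauss.redFun A M (heckeMul M ℓ f) =
      Gauss.redFun A M (gal M φ f) * Gauss.redFun A M (gal M φ⁻¹ f) ^ ℓ :=
  RA.redFun_heckeMul ℓ hℓM hA hφ hf

end Fermat.Agent.S37
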