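import Fermat.Agent.S37.Lat
import Fermat.Agent.S37.Red
import Fermat.Agent.S37.TPos

/-!
# S37, package LATOP : Galois and Hecke on `Lat`
-/

set_option autoImplicit false
set_option linter.style.haveILetI false

noncomputable section

namespace Fermat.Agent.S37

open ModularCurve AlgebraicCurve Fermat.Agent.S24 Fermat.Agent.ES

variable {A : ValuationSubring Kb} {M : ℕ}

namespace LatOp

theorem norm_along_zero {K F E : Type*} [Field K] [Field F] [Field E] [Algebra K F] [Algebra K E]
    (φ : F →ₐ[K] E) (h : FiniteAlong K φ) :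
    (letI := algebraAlong φ; Algebra.norm F (0 : E)) = 0 := by
  letI := algebraAlong φ
  haveI : FiniteDimensional F E := h
  exact Algebra.norm_zero

end LatOp

theorem Lat.gal_mem {c : Place Kb (FF M) → Prop} (hc : GalStable A M c) {σ : GQ}
    (hσ : σ ∈ A.decompositionSubgroup ℚ) {D : Divisor Kb (FF M)} {f : FF M}
    (hf : f ∈ Lat A M c D) : gal M σ f ∈ Lat A M c (ag M σ • D) := by
  refine ⟨isGInt_gal hσ hf.1, ?_⟩
  rcases hf.2 with rfl | hf2
  · exact Or.inl (map_zero _)
  · refine Or.inr fun v hv => ?_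
    have h1 : c ((ag M σ)⁻¹ • v) := by
      have := hc σ⁻¹ (inv_mem hσ) v hv
      rwa [ag, map_inv] at this
    have h2 := hf2 _ h1
    have h3 : v.ord (gal M σ f) = ((ag M σ)⁻¹ • v).ord f := by
      have := SemilinearAut.ord_smul (ag M σ) ((ag M σ)⁻¹ • v) f
      rw [smul_inv_smul] at this
      exact this
    rw [h3, SemilinearAut.divisor_smul_apply]
    exact h2

theorem Lat.heckeMul_mem (M ℓ : ℕ) [NeZero M] [Fact ℓ.Prime] (hℓM : ¬ ℓ ∣ M)
    (A : ValuationSubring Kb) (hA : A.LiesOverPrime ℓ) {c : Place Kb (FF M) → Prop}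
    (hc : HeckeStable M ℓ c) {D : Divisor Kb (FF M)} {f : FF M}
    (hf : f ∈ Lat A M c D) : heckeMul M ℓ f ∈ Lat A M c (heckeDiv M ℓ D) := by
  refine ⟨isGInt_heckeMul M ℓ hℓM A hA hf.1, ?_⟩
  by_cases hf0 : f = 0
  · left
    subst hf0
    rw [heckeMul_apply, map_zero]
    exact LatOp.norm_along_zero (heckeAlphaBar Kb M ℓ) (HI.finiteAlong _)
  · have hf2 := hf.2.resolve_left hf0
    refine Or.inr fun v hv => ?_
    obtain ⟨D0, hD0, -⟩ := (hasPrincipalDivisors_FF M).exists_divisor f hf0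
    have h1 := heckeDiv_nonneg M ℓ hc (D0 + D) (fun w hw => by
      rw [Finsupp.add_apply, hD0]
      exact hf2 w hw) v hv
    rw [map_add, Finsupp.add_apply, heckeDiv_apply_heckeMul M ℓ f hf0 D0 hD0] at h1
    exact h1

end Fermat.Agent.S37
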