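import Fermat.Agent.ES.MBetaGen

/-!
# S37, package LOC, abstract part

Corollary of `BetaGen.exists_pair`: for `β ∈ B` with `β ≢ 0` modulo `ϖ` there are `x ∈ M`
(a Gauss unit), `x' ∈ M'` with `x x' ≡ 1` modulo `(β, ϖ)`.
-/

set_option autoImplicit false

namespace Fermat.Agent.S37.LocAbs

open Fermat.Agent.ES.Model Fermat.Agent.ES.Model.BetaGen

/-- the maximal ideals of a Dedekind domain containing a nonzero element are finite in number -/
lemma finite_maximal_of_mem {D : Type*} [CommRing D] [IsDedekindDomain D] (β : D) (hβ : β ≠ 0) :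
    {n : Ideal D | n.IsMaximal ∧ β ∈ n}.Finite := by
  classical
  have hI : Ideal.span {β} ≠ 0 := by
    rw [Ne, Ideal.zero_eq_bot, Ideal.span_singleton_eq_bot]
    exact hβ
  have hfin := Ideal.finite_factors hI
  refine (hfin.image (fun v => v.asIdeal)).subset ?_
  rintro n ⟨hn, hβn⟩
  have hn0 : n ≠ ⊥ := by
    rintro rfl
    exact hβ (by simpa using hβn)
  refine ⟨⟨n, hn.isPrime, hn0⟩, ?_, rfl⟩
  show n ∣ Ideal.span {β}
  rw [Ideal.dvd_iff_le, Ideal.span_singleton_le_iff_mem]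
  exact hβn

variable {F : Type*} [Field F] {O : ValuationSubring F} {ϖ : F} {B : Subring F}

theorem exists_pair_mod (hO : IsUnif O ϖ) (hB : IsPre O ϖ B)
    (hded : IsDedekindDomain (B ⧸ Ideal.span {(⟨ϖ, hB.unif_mem⟩ : B)}))
    (M M' : AddSubgroup F) (hM : IsLat O ϖ B M) (hM' : IsLat O ϖ B M')
    (hmul : ∀ x ∈ M, ∀ x' ∈ M', x * x' ∈ B)
    (hdiv : ∃ (c : ℕ) (ι : Type) (_ : Fintype ι) (g g' : ι → F), (∀ i, g i ∈ M) ∧
      (∀ i, g' i ∈ M') ∧ ϖ ^ c = ∑ i, g i * g' i)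
    (β : F) (hβ : β ∈ B) (hβ0 : ¬ DivO O ϖ 1 β) :
    ∃ x ∈ M, ∃ x' ∈ M', ∃ b ∈ B, ¬ DivO O ϖ 1 x ∧ x' ≠ 0 ∧
      DivO O ϖ 1 (x * x' - 1 - β * b) := by
  classical
  set q := Ideal.Quotient.mk (Ideal.span {(⟨ϖ, hB.unif_mem⟩ : B)}) with hq
  have hqβ : q ⟨β, hβ⟩ ≠ 0 := fun h => hβ0 ((mk_eq_zero_iff hB _).1 h)
  have hfin := finite_maximal_of_mem (q ⟨β, hβ⟩) hqβ
  -- one more maximal ideal, to make sure that `x` is a Gauss unit
  obtain ⟨n1, hn1⟩ := Ideal.exists_maximal (B ⧸ Ideal.span {(⟨ϖ, hB.unif_mem⟩ : B)})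
  obtain ⟨x, x', hx, hx', hS⟩ := exists_pair hO hB hded M M' hM hM' hmul hdiv
    (insert n1 hfin.toFinset) (by
      intro n hn
      rcases Finset.mem_insert.1 hn with rfl | hn
      · exact hn1
      · exact ((Set.Finite.mem_toFinset hfin).1 hn).1)
  set a : B := ⟨x * x', hmul x hx x' hx'⟩ with ha
  have htop : Ideal.span {q a, q ⟨β, hβ⟩} = ⊤ := by
    by_contra hne
    obtain ⟨n, hn, hle⟩ := Ideal.exists_le_maximal _ hne
    have h1 : q a ∈ n := hle (Ideal.subset_span (by simp))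
    have h2 : q ⟨β, hβ⟩ ∈ n := hle (Ideal.subset_span (by simp))
    exact hS n (Finset.mem_insert_of_mem ((Set.Finite.mem_toFinset hfin).2 ⟨hn, h2⟩)) h1
  have h1 : (1 : B ⧸ Ideal.span {(⟨ϖ, hB.unif_mem⟩ : B)}) ∈ Ideal.span {q a, q ⟨β, hβ⟩} := by
    rw [htop]; exact Submodule.mem_top
  obtain ⟨c, d, hcd⟩ := Ideal.mem_span_pair.1 h1
  obtain ⟨c, rfl⟩ := Ideal.Quotient.mk_surjective c
  obtain ⟨d, rfl⟩ := Ideal.Quotient.mk_surjective d
  have hxne : ¬ DivO O ϖ 1 x := by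
    intro h
    apply hS n1 (Finset.mem_insert_self _ _)
    have : q a = 0 := (mk_eq_zero_iff hB _).2 (h.mul_right (hM'.le _ hx'))
    rw [this]
    exact n1.zero_mem
  have hx'0 : x' ≠ 0 := by
    rintro rfl
    apply hS n1 (Finset.mem_insert_self _ _)
    have : a = 0 := Subtype.ext (by simp [ha])
    rw [this, map_zero]
    exact n1.zero_mem
  have hβne : (⟨β, hβ⟩ : B) ≠ 0 := by
    intro h
    exact hqβ (by rw [h, map_zero])
  -- make `c` nonzero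
  obtain ⟨c', d', hc'0, hcd'⟩ : ∃ c' d' : B, c' ≠ 0 ∧ q c' * q a + q d' * q ⟨β, hβ⟩ = 1 := by
    by_cases hc0 : c = 0
    · refine ⟨⟨β, hβ⟩, d - a, hβne, ?_⟩
      rw [← hcd, hc0, map_sub, map_zero]
      ring
    · exact ⟨c, d, hc0, hcd⟩
  refine ⟨x, hx, c' * x', hM'.smul _ c'.2 _ hx', -d', B.neg_mem d'.2, hxne,
    mul_ne_zero (fun h => hc'0 (Subtype.ext h)) hx'0, ?_⟩
  have h2 : q (c' * a + d' * ⟨β, hβ⟩ - 1) = 0 := by
    rw [map_sub, map_add, map_mul, map_mul, hcd', map_one, sub_self]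
  have h3 := (mk_eq_zero_iff hB _).1 h2
  have h4 : ((c' * a + d' * ⟨β, hβ⟩ - 1 : B) : F) = x * (c' * x') - 1 - β * (-d' : F) := by
    push_cast
    simp only [ha]
    ring
  rw [← h4]
  exact h3

end Fermat.Agent.S37.LocAbs
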