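import Fermat.Agent.ES.InstFinalCore
import Fermat.Agent.S37.LocAbs
import Fermat.Agent.S37.LocInv

/-!
# S37, package LOC : the core statement at a finite level `(K0, R = A ∩ K0)`
-/

set_option autoImplicit false

noncomputable section

namespace Fermat.Agent.S37.Loc

open ModularCurve AlgebraicCurve Polynomial IntermediateField
open Fermat.Agent.S24 Fermat.Agent.S28 Fermat.Agent.ES Fermat.Agent.ES.QE Fermat.Agent.ES.Model
  Fermat.Agent.ES.IDvr Fermat.Agent.ES.Inst Fermat.Agent.ES.Model.BetaGen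

section LatK

variable {K F : Type*} [Field K] [Field F] [Algebra K F]

/-- `L_x(E)`: the functions with `div f + E ≥ 0` on the chart `x ≠ ∞`. -/
def LatK (x : F) (E : Divisor K F) : AddSubgroup F where
  carrier := {f | f ≠ 0 → ∀ v : Place K F, 0 ≤ v.ord x → 0 ≤ v.ord f + E v}
  zero_mem' := fun h => absurd rfl h
  add_mem' := by
    intro a b ha hb hab v hv
    by_cases ha0 : a = 0
    · subst ha0
      rw [zero_add] at hab ⊢
      exact hb hab v hv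
    by_cases hb0 : b = 0
    · subst hb0
      rw [add_zero] at hab ⊢
      exact ha hab v hv
    have h1 := FF.ord_add_ge v hab
    have h2 := ha ha0 v hv
    have h3 := hb hb0 v hv
    omega
  neg_mem' := by
    intro a ha hna v hv
    rw [FF.ord_neg]
    exact ha (neg_ne_zero.1 hna) v hv

theorem mem_LatK {x : F} {E : Divisor K F} {f : F} :
    f ∈ LatK x E ↔ (f ≠ 0 → ∀ v : Place K F, 0 ≤ v.ord x → 0 ≤ v.ord f + E v) := Iff.rfl

end LatK

variable {A : ValuationSubring Kb} {K0 : IntermediateField ℚ Kb}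

/-- `A ∩ K0 → ℚ̄`. -/
def kap (K0 : IntermediateField ℚ Kb) (A : ValuationSubring Kb) : R0 K0 A →+* Kb :=
  (algebraMap K0 Kb).comp (algebraMap (R0 K0 A) K0)

section Core

variable [IsDiscreteValuationRing (R0 K0 A)] {N : ℕ} {D : QData (R0 K0 A) K0 (kA A)}
  (X : D.Coord) (ι : D.F0 →+* FF N)
  (hι : ∀ f : D.F0, ((ι f : FF N) : LaurentSeries Kb) = bc K0 (f : LaurentSeries K0))

include hι

omit [IsDiscreteValuationRing (R0 K0 A)] in
theorem iota_algebraMap (c : K0) : ι (algebraMap K0 D.F0 c) = algebraMap Kb (FF N) (c : Kb) :=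
  Subtype.ext ((hι _).trans (InstUp.bc_algebraMap K0 c))

omit [IsDiscreteValuationRing (R0 K0 A)] in
theorem iota_unif : ι D.ϖF = algebraMap Kb (FF N) (kap K0 A D.ϖ) := iota_algebraMap ι hι _

omit [IsDiscreteValuationRing (R0 K0 A)] in
theorem ord_iota_unif (v : Place Kb (FF N)) : v.ord (ι D.ϖF) = 0 := by
  rw [iota_unif ι hι]
  exact FF.ord_algebraMap v _

theorem iota_phiF (σ : (R0 K0 A)[X]) :
    ι (X.phiF σ) = aeval (ι X.x) (σ.map (kap K0 A)) := by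
  have e : ι.comp X.phiF
      = ((aeval (ι X.x) : Kb[X] →ₐ[Kb] FF N) : Kb[X] →+* FF N).comp (mapRingHom (kap K0 A)) := by
    apply Polynomial.ringHom_ext
    · intro a
      rw [RingHom.comp_apply, X.phiF_C, iota_algebraMap ι hι, RingHom.comp_apply, coe_mapRingHom,
        map_C]
      exact (aeval_C _ _).symm
    · rw [RingHom.comp_apply, X.phiF_X, RingHom.comp_apply, coe_mapRingHom, map_X]
      exact (aeval_X _).symm
  exact congrArg (fun f => f σ) e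

theorem isIntK_iff' (f : D.F0) :
    IsIntK X f ↔ IsIntegral (Algebra.adjoin Kb {ι X.x}) (ι f) := by
  have hx : bc K0 (X.x : LaurentSeries K0) ∈ modularFunctionFieldBar N := hι X.x ▸ (ι X.x).2
  have hf : bc K0 (f : LaurentSeries K0) ∈ modularFunctionFieldBar N := hι f ▸ (ι f).2
  have e1 : (⟨_, hx⟩ : FF N) = ι X.x := Subtype.ext (hι _).symm
  have e2 : (⟨_, hf⟩ : FF N) = ι f := Subtype.ext (hι _).symm
  rw [isIntK_iff N D X f hx hf, e1, e2]

theorem ord_nonneg_of_mem_chart {b : D.F0} (hb : b ∈ X.chart) (v : Place Kb (FF N))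
    (hv : 0 ≤ v.ord (ι X.x)) : 0 ≤ v.ord (ι b) :=
  Inst.ord_nonneg_of_isIntegral N _ _ ((isIntK_iff' X ι hι b).1 ⟨0, by simpa using hb⟩) v hv

omit hι in
theorem mem_chart_of_pow_mul {f : D.F0} (hf : f ∈ D.gaussO) :
    ∀ c : ℕ, D.ϖF ^ c * f ∈ X.chart → f ∈ X.chart := by
  intro c
  induction c with
  | zero => intro h; simpa using h
  | succ c ih =>
    intro h
    apply ih
    refine X.chart_sat h (D.gaussO.mul_mem _ _ (D.gaussO.pow_mem D.isUnif.mem c) hf) ?_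
    rw [pow_succ]
    ring

theorem mem_chart_of_ord [NeZero N] (hy : Transcendental Kb (ι X.x))
    [FiniteDimensional Kb⟮ι X.x⟯ (FF N)] {f : D.F0} (hf : f ∈ D.gaussO)
    (h : ∀ v : Place Kb (FF N), 0 ≤ v.ord (ι X.x) → 0 ≤ v.ord (ι f)) : f ∈ X.chart := by
  obtain ⟨c, hc⟩ := (isIntK_iff' X ι hι f).2 (Inst.isIntegral_of_ord N _ hy _ h)
  exact mem_chart_of_pow_mul X hf c hc

/-- the lattice `L_x(E) ∩ O ∩ F0`. -/
def Lat0 (E : Divisor Kb (FF N)) : AddSubgroup D.F0 :=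
  (LatK (ι X.x) E).comap ι.toAddMonoidHom ⊓ D.gaussO.toSubring.toAddSubgroup

omit hι in
theorem mem_Lat0 {E : Divisor Kb (FF N)} {f : D.F0} :
    f ∈ Lat0 X ι E ↔ ι f ∈ LatK (ι X.x) E ∧ f ∈ D.gaussO := Iff.rfl

theorem isLat_Lat0 (E : Divisor Kb (FF N)) : IsLat D.gaussO D.ϖF X.chart (Lat0 X ι E) where
  le := fun _ hx => hx.2
  smul := by
    intro b hb x hx
    refine ⟨?_, D.gaussO.mul_mem _ _ (X.chart_le_gaussO hb) hx.2⟩
    show ι (b * x) ∈ LatK (ι X.x) E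
    rw [map_mul]
    intro h0 v hv
    have hb0 : ι b ≠ 0 := left_ne_zero_of_mul h0
    have hx0 : ι x ≠ 0 := right_ne_zero_of_mul h0
    rw [Place.ord_mul v hb0 hx0]
    have h1 := ord_nonneg_of_mem_chart X ι hι hb v hv
    have hx1 : ι x ∈ LatK (ι X.x) E := hx.1
    have h2 := hx1 hx0 v hv
    omega
  sat := by
    intro x hx h
    refine ⟨?_, hx⟩
    show ι x ∈ LatK (ι X.x) E
    intro h0 v hv
    have hϖ0 : ι D.ϖF ≠ 0 := (map_ne_zero ι).2 D.ϖF_ne_zero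
    have h1 : ι (D.ϖF * x) ∈ LatK (ι X.x) E := h.1
    rw [map_mul] at h1
    have h2 := h1 (mul_ne_zero hϖ0 h0) v hv
    rw [Place.ord_mul v hϖ0 h0, ord_iota_unif ι hι] at h2
    omega

omit hι in
/-- every element of the function field becomes Gauss integral after multiplication by a power of
the uniformiser -/
theorem exists_pow_mul_mem_gaussO (f : D.F0) : ∃ c : ℕ, ∀ c' ≥ c, D.ϖF ^ c' * f ∈ D.gaussO := by
  by_cases hf0 : f = 0
  · exact ⟨0, fun c' _ => by rw [hf0, mul_zero]; exact D.gaussO.zero_mem⟩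
  have hf0' : (f : LaurentSeries K0) ≠ 0 := fun h => hf0 (Subtype.ext h)
  have hmono : ∀ c : ℕ, D.ϖF ^ c * f ∈ D.gaussO → ∀ c' ≥ c, D.ϖF ^ c' * f ∈ D.gaussO := by
    intro c hc c' hc'
    obtain ⟨e, rfl⟩ := Nat.exists_eq_add_of_le hc'
    rw [add_comm, pow_add, mul_assoc]
    exact D.gaussO.mul_mem _ _ (D.gaussO.pow_mem D.isUnif.mem e) hc
  rcases D.isFrac_or f.2 hf0' with ⟨e, t, w, ht, hw, h⟩ | ⟨e, t, w, ht, hw, h⟩
  · refine ⟨0, hmono 0 ?_⟩
    rw [pow_zero, one_mul]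
    exact ⟨t, D.ϖW ^ (e + 1) * w, ht, by rw [map_mul, map_pow, D.inc_ϖW]; exact h⟩
  · refine ⟨e, hmono e ?_⟩
    refine ⟨t, w, ht, ?_⟩
    show D.inc t * ((D.ϖF ^ e * f : D.F0) : LaurentSeries K0) = _
    rw [IntermediateField.coe_mul, IntermediateField.coe_pow, D.coe_ϖF, ← h]
    ring

/-- **LOC, core statement.** -/
theorem core [NeZero N] (hy : Transcendental Kb (ι X.x)) [FiniteDimensional Kb⟮ι X.x⟯ (FF N)]
    (hded : IsDedekindDomain (X.chart ⧸ Ideal.span {ϖB X}))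
    (E : Divisor Kb (FF N)) (n : ℕ) (G G' : Fin n → D.F0)
    (hG : ∀ i, ι (G i) ∈ LatK (ι X.x) E) (hG' : ∀ i, ι (G' i) ∈ LatK (ι X.x) (-E))
    (hsum : ∑ i, G i * G' i = 1) (β : (R0 K0 A)[X]) (hβ : ¬ C D.ϖ ∣ β) :
    ∃ g0 g0' b z : D.F0, g0 ≠ 0 ∧ g0' ≠ 0 ∧ g0 ∈ Lat0 X ι E ∧ g0⁻¹ ∈ D.gaussO ∧
      g0' ∈ Lat0 X ι (-E) ∧ b ∈ X.chart ∧ z ∈ D.gaussO ∧
      g0 * g0' - 1 - X.phiF β * b = D.ϖF * z := by
  classical
  have hO := D.isUnif
  have hB : IsPre D.gaussO D.ϖF X.chart := (X.isChart (m := 1) (by simp)).isPre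
  have hmul : ∀ x ∈ Lat0 X ι E, ∀ x' ∈ Lat0 X ι (-E), x * x' ∈ X.chart := by
    intro x hx x' hx'
    refine mem_chart_of_ord X ι hι hy (D.gaussO.mul_mem _ _ hx.2 hx'.2) ?_
    intro v hv
    by_cases h0 : ι (x * x') = 0
    · rw [h0, Place.ord_zero]
    rw [map_mul] at h0 ⊢
    have hx0 : ι x ≠ 0 := left_ne_zero_of_mul h0
    have hx0' : ι x' ≠ 0 := right_ne_zero_of_mul h0
    rw [Place.ord_mul v hx0 hx0']
    have hx1 : ι x ∈ LatK (ι X.x) E := hx.1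
    have hx1' : ι x' ∈ LatK (ι X.x) (-E) := hx'.1
    have h1 := hx1 hx0 v hv
    have h2 := hx1' hx0' v hv
    rw [Finsupp.neg_apply] at h2
    omega
  have hscale : ∀ (E' : Divisor Kb (FF N)) (f : D.F0) (c : ℕ), ι f ∈ LatK (ι X.x) E' →
      ι (D.ϖF ^ c * f) ∈ LatK (ι X.x) E' := by
    intro E' f c hf h0 v hv
    rw [map_mul, map_pow] at h0 ⊢
    have hϖ0 : ι D.ϖF ^ c ≠ 0 := left_ne_zero_of_mul h0
    have hf0 : ι f ≠ 0 := right_ne_zero_of_mul h0
    rw [Place.ord_mul v hϖ0 hf0, FF.ord_pow, ord_iota_unif ι hι]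
    have := hf hf0 v hv
    omega
  have hdiv : ∃ (c : ℕ) (ι' : Type) (_ : Fintype ι') (g g' : ι' → D.F0),
      (∀ i, g i ∈ Lat0 X ι E) ∧ (∀ i, g' i ∈ Lat0 X ι (-E)) ∧ D.ϖF ^ c = ∑ i, g i * g' i := by
    choose c1 hc1 using fun i => exists_pow_mul_mem_gaussO (G i)
    choose c2 hc2 using fun i => exists_pow_mul_mem_gaussO (G' i)
    set a1 := Finset.univ.sup c1 with ha1
    set a2 := Finset.univ.sup c2 with ha2
    refine ⟨a1 + a2, Fin n, inferInstance, fun i => D.ϖF ^ a1 * G i, fun i => D.ϖF ^ a2 * G' i,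
      fun i => ⟨hscale _ _ _ (hG i), hc1 i a1 (Finset.le_sup (Finset.mem_univ i))⟩,
      fun i => ⟨hscale _ _ _ (hG' i), hc2 i a2 (Finset.le_sup (Finset.mem_univ i))⟩, ?_⟩
    have : ∀ i, D.ϖF ^ a1 * G i * (D.ϖF ^ a2 * G' i) = D.ϖF ^ (a1 + a2) * (G i * G' i) := by
      intro i
      rw [pow_add]
      ring
    simp only [this]
    rw [← Finset.mul_sum, hsum, mul_one]
  have hβ0 : ¬ DivO D.gaussO D.ϖF 1 (X.phiF β) := by
    rintro ⟨y, hy', h⟩
    apply hO.inv_notMem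
    have h1 := X.phiF_inv_mem_gaussO hβ
    have hne : X.phiF β ≠ 0 := by
      intro h0
      have : β = 0 := X.phiF_injective (by rw [h0, map_zero])
      exact hβ (this ▸ dvd_zero _)
    have h2 : D.ϖF⁻¹ = y * (X.phiF β)⁻¹ := by
      rw [pow_one] at h
      have hy0 : y ≠ 0 := by
        rintro rfl
        rw [mul_zero] at h
        exact hne h
      rw [h, mul_inv, mul_comm D.ϖF⁻¹, ← mul_assoc, mul_inv_cancel₀ hy0, one_mul]
    rw [h2]
    exact D.gaussO.mul_mem _ _ hy' h1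
  obtain ⟨x, hx, x', hx', b, hb, hxu, hx'0, y, hy', hrel⟩ := LocAbs.exists_pair_mod hO hB hded
    (Lat0 X ι E) (Lat0 X ι (-E)) (isLat_Lat0 X ι hι E) (isLat_Lat0 X ι hι (-E)) hmul hdiv
    (X.phiF β) (X.phiF_mem_chart β) hβ0
  have hx0 : x ≠ 0 := by
    rintro rfl
    exact hxu ⟨0, D.gaussO.zero_mem, by simp⟩
  exact ⟨x, x', b, y, hx0, hx'0, hx, hO.inv_mem hx.2 hxu, hx', hb, hy', by rw [hrel, pow_one]⟩

end Core

end Fermat.Agent.S37.Loc
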