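import Fermat.Agent.ES.InstFinal
import Fermat.Agent.ES.Gauss
import Fermat.Agent.ES.RamJU
import Fermat.Agent.S37.LocCore

/-!
# S37, package LOC : the statement over `ℚ̄`

`LOC A N x` : for every divisor `E` and every monic `β ∈ A[X]` there are Gauss integral functions
`g0 ∈ L_x(E)` (a Gauss unit), `g0' ∈ L_x(-E)` with `g0 g0' ≡ 1` modulo `(β(x), 𝔪)`.
-/

set_option autoImplicit false

noncomputable section

namespace Fermat.Agent.S37

open ModularCurve AlgebraicCurve Polynomial IntermediateField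
open Fermat.Agent.S24 Fermat.Agent.S28 Fermat.Agent.ES Fermat.Agent.ES.QE Fermat.Agent.ES.Model
  Fermat.Agent.ES.IDvr Fermat.Agent.ES.Inst

/-- **LOC** for the chart `x ≠ ∞`. -/
def LOC (A : ValuationSubring Kb) (N : ℕ) (x : FF N) : Prop :=
  ∀ (E : Divisor Kb (FF N)) (β : Kb[X]), β.Monic → (∀ i, β.coeff i ∈ A) →
    ∃ g0 g0' b z : FF N, ∃ c ∈ A.nonunits, g0 ≠ 0 ∧ g0' ≠ 0 ∧ Gauss.IsGInt A N g0 ∧ Gauss.IsGInt A N g0⁻¹ ∧
      Gauss.IsGInt A N g0' ∧ Gauss.IsGInt A N b ∧ Gauss.IsGInt A N z ∧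
      (∀ v : Place Kb (FF N), 0 ≤ v.ord x → 0 ≤ v.ord g0 + E v) ∧
      (∀ v : Place Kb (FF N), 0 ≤ v.ord x → 0 ≤ v.ord g0' - E v) ∧
      (∀ v : Place Kb (FF N), 0 ≤ v.ord x → 0 ≤ v.ord b) ∧
      g0 * g0' - 1 - aeval x β * b = algebraMap Kb (FF N) c * z

namespace Loc

variable {A : ValuationSubring Kb} {K0 : IntermediateField ℚ Kb}

section Transfer

variable [IsDiscreteValuationRing (R0 K0 A)] {N : ℕ} {D : QData (R0 K0 A) K0 (kA A)}
  (hres : D.res = res0 K0 A) (ι : D.F0 →+* FF N)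
  (hι : ∀ f : D.F0, ((ι f : FF N) : LaurentSeries Kb) = bc K0 (f : LaurentSeries K0))

omit [IsDiscreteValuationRing (R0 K0 A)] in
theorem isIntA_bc_inc (W : LaurentSeries (R0 K0 A)) : IsIntA A (bc K0 (D.inc W)) :=
  fun n => (W.coeff n).2

omit [IsDiscreteValuationRing (R0 K0 A)] in
include hres in
theorem isPrimA_bc_inc {W : LaurentSeries (R0 K0 A)} (hW : D.red W ≠ 0) :
    IsPrimA A (bc K0 (D.inc W)) := by
  refine ⟨isIntA_bc_inc W, ?_⟩
  by_contra hcon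
  push Not at hcon
  apply hW
  ext n
  have h4 : (D.red W).coeff n = D.res (W.coeff n) := rfl
  rw [h4, hres, HahnSeries.coeff_zero, InstGauss.res0_eq_zero_iff]
  exact hcon n

include hres hι in
theorem isGInt_of_mem_gaussO {f : D.F0} (hf : f ∈ D.gaussO) : Gauss.IsGInt A N (ι f) := by
  obtain ⟨s, r, hs, h⟩ := D.exists_frac f.2 hf
  set Q0 : D.F0 := D.coordJ.phiF s with hQ0
  have hQ0c : (Q0 : LaurentSeries K0) = D.inc (evS (jqModC (R0 K0 A)) s) := rfl
  refine ⟨ι (f * Q0), ι Q0, ?_, ?_, (map_mul ι f Q0).symm⟩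
  · rw [hι, IntermediateField.coe_mul, hQ0c, mul_comm, h]
    exact isIntA_bc_inc _
  · rw [hι, hQ0c]
    exact isPrimA_bc_inc hres (D.red_evS_j_ne_zero hs)

omit [IsDiscreteValuationRing (R0 K0 A)] in
include hres in
theorem kap_unif_mem : kap K0 A D.ϖ ∈ A.nonunits := by
  have h := D.res_ϖ
  rw [hres, InstGauss.res0_eq_zero_iff] at h
  exact h

end Transfer

/-- the general wrapper: choice of the number field. -/
theorem loc_of (N ℓ : ℕ) [NeZero N] (hℓ : ℓ.Prime) (hℓN : ¬ ℓ ∣ N)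
    (A : ValuationSubring Kb) (hA : A.LiesOverPrime ℓ) (x : FF N) (hxt : Transcendental Kb x)
    [hfd : FiniteDimensional Kb⟮x⟯ (FF N)]
    (hX : ∃ (K2 : IntermediateField ℚ Kb) (_ : FiniteDimensional ℚ K2) (S0 : Finset (FF N)),
      ∀ K0 : IntermediateField ℚ Kb, FiniteDimensional ℚ K0 → K2 ≤ K0 →
      ∀ [IsDiscreteValuationRing (R0 K0 A)] (D : QData (R0 K0 A) K0 (kA A)),
        D.F0 = F0 K0 N → D.res = res0 K0 A → ∀ ι : D.F0 →+* FF N,
        (∀ f : D.F0, ((ι f : FF N) : LaurentSeries Kb) = bc K0 (f : LaurentSeries K0)) →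
        (∀ f ∈ S0, ∃ f0 : D.F0, ι f0 = f) →
        ∃ X : D.Coord, ι X.x = x ∧ IsDedekindDomain (X.chart ⧸ Ideal.span {ϖB X})) :
    LOC A N x := by
  classical
  intro E β hβm hβA
  obtain ⟨n, G, G', hG, hG', hsum⟩ := LocInv.exists_witness hxt E
  obtain ⟨K1, hK1, hQD⟩ := exists_QData N ℓ hℓ hℓN A hA
  obtain ⟨K2, hK2, S0, hX⟩ := hX
  set K3 : IntermediateField ℚ Kb := IntermediateField.adjoin ℚ (β.coeffs : Set Kb) with hK3def
  have hK3 : FiniteDimensional ℚ K3 :=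
    IntermediateField.finiteDimensional_adjoin
      (fun y _ => (AlgebraicClosure.isAlgebraic ℚ).isIntegral.isIntegral y)
  obtain ⟨K0, hK0, hle, hS⟩ := exists_K0 N (K1 ⊔ K2 ⊔ K3)
    (S0 ∪ Finset.univ.image G ∪ Finset.univ.image G')
  have hdvr := isDVR K0 A hℓ hA
  obtain ⟨D, hF, hres⟩ := hQD K0 hK0 ((le_sup_left.trans le_sup_left).trans hle)
  let ι : D.F0 →+* FF N :=
    ((bc K0).comp (algebraMap D.F0 (LaurentSeries K0))).codRestrict (modularFunctionFieldBar N)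
      (fun f => bc_mem K0 N (hF ▸ f.2))
  have hι : ∀ f : D.F0, ((ι f : FF N) : LaurentSeries Kb) = bc K0 (f : LaurentSeries K0) :=
    fun _ => rfl
  have hιinj : Function.Injective ι := ι.injective
  have lift : ∀ f ∈ S0 ∪ Finset.univ.image G ∪ Finset.univ.image G', ∃ f0 : D.F0, ι f0 = f := by
    intro f hf
    obtain ⟨f0, hf0, h⟩ := hS f hf
    exact ⟨⟨f0, hF ▸ hf0⟩, Subtype.ext h⟩
  obtain ⟨X, hιx, hded⟩ := hX K0 hK0 ((le_sup_right.trans le_sup_left).trans hle) D hF hres ι hι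
    (fun f hf => lift f (by simp [hf]))
  subst hιx
  have l1 : ∀ i, ∃ f0 : D.F0, ι f0 = G i := fun i => lift _ (by simp)
  have l1' : ∀ i, ∃ f0 : D.F0, ι f0 = G' i := fun i => lift _ (by simp)
  choose G1 hG1 using l1
  choose G1' hG1' using l1'
  -- the polynomial
  have hlift : β ∈ Polynomial.lifts (kap K0 A) := by
    rw [Polynomial.lifts_iff_coeff_lifts]
    intro i
    have h3 : β.coeff i ∈ K3 := by
      by_cases h0 : β.coeff i = 0
      · rw [h0]; exact zero_mem _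
      · exact IntermediateField.subset_adjoin ℚ _
          (Finset.mem_coe.2 (Polynomial.coeff_mem_coeffs h0))
    have h0 : β.coeff i ∈ K0 := hle (le_sup_right (a := K1 ⊔ K2) h3)
    exact ⟨⟨⟨β.coeff i, h0⟩, hβA i⟩, rfl⟩
  obtain ⟨β0, hβ0, -, hβ0m⟩ := Polynomial.lifts_and_natDegree_eq_and_monic hlift hβm
  have hβ0p : ¬ C D.ϖ ∣ β0 := by
    intro h
    rw [Polynomial.C_dvd_iff_dvd_coeff] at h
    have h1 := h β0.natDegree
    rw [Polynomial.coeff_natDegree, hβ0m.leadingCoeff] at h1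
    exact D.prime_ϖ.not_isUnit (isUnit_of_dvd_one h1)
  obtain ⟨g0, g0', b, z, h0, h0', hg0, hg0i, hg0', hb, hz, hrel⟩ := core X ι hι hxt hded E n G1 G1'
    (fun i => by rw [hG1]; exact hG i)
    (fun i => by
      rw [hG1']
      intro hne v hv
      have := hG' i hne v hv
      rw [Finsupp.neg_apply]
      omega)
    (hιinj (by
      rw [map_sum, map_one, ← hsum]
      exact Finset.sum_congr rfl fun i _ => by rw [map_mul, hG1, hG1'])) β0 hβ0p
  have hι0 : ι g0 ≠ 0 := (map_ne_zero ι).2 h0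
  have hι0' : ι g0' ≠ 0 := (map_ne_zero ι).2 h0'
  refine ⟨ι g0, ι g0', ι b, ι z, kap K0 A D.ϖ, kap_unif_mem hres, hι0, hι0',
    isGInt_of_mem_gaussO hres ι hι hg0.2, ?_, isGInt_of_mem_gaussO hres ι hι hg0'.2,
    isGInt_of_mem_gaussO hres ι hι (X.chart_le_gaussO hb), isGInt_of_mem_gaussO hres ι hι hz,
    ?_, ?_, fun v hv => ord_nonneg_of_mem_chart X ι hι hb v hv, ?_⟩
  · rw [← map_inv₀]
    exact isGInt_of_mem_gaussO hres ι hι hg0i
  · have h1 : ι g0 ∈ LatK (ι X.x) E := hg0.1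
    exact h1 hι0
  · have h1 : ι g0' ∈ LatK (ι X.x) (-E) := hg0'.1
    intro v hv
    have := h1 hι0' v hv
    rw [Finsupp.neg_apply] at this
    omega
  · rw [← hβ0, ← iota_phiF X ι hι, ← iota_unif ι hι, ← map_mul, ← map_mul, ← map_mul, ← map_one ι,
      ← map_sub, ← map_sub, hrel]

end Loc

end Fermat.Agent.S37
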