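import Fermat.Agent.S37.Loc

/-!
# S37, package LOC : the three kinds of charts (`x`, `1/x` for an integral coordinate, `1/j`)
-/

set_option autoImplicit false

noncomputable section

namespace Fermat.Agent.S37

open ModularCurve AlgebraicCurve Polynomial IntermediateField
open Fermat.Agent.S24 Fermat.Agent.S28 Fermat.Agent.ES Fermat.Agent.ES.QE Fermat.Agent.ES.Model
  Fermat.Agent.ES.IDvr Fermat.Agent.ES.Inst Fermat.Agent.ES.Inst.InstFinal
  Fermat.Agent.ES.Inst.InstCoord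

/-- **LOC** for the chart `x ≠ ∞` of an integral coordinate. -/
theorem loc_fin (N ℓ : ℕ) [NeZero N] (hℓ : ℓ.Prime) (hℓN : ¬ ℓ ∣ N)
    (A : ValuationSubring Kb) (hA : A.LiesOverPrime ℓ) (Z : ZCoord N ℓ) (g : ℤ[X])
    (hg : (g.map (Int.castRingHom (kA A))).Separable)
    (hU : ∀ a : Kb, (g.map (Int.castRingHom Kb)).eval a ≠ 0 → ∀ v : Place Kb (FF N),
      0 < v.ord (Z.xF - algebraMap Kb (FF N) a) → v.ord (Z.xF - algebraMap Kb (FF N) a) = 1) :
    LOC A N Z.xF := by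
  have hxt := transcendental_xF Z
  have hfd := finiteDimensional_xF Z
  obtain ⟨K2, hK2, hDed⟩ := hDed N ℓ hℓ hℓN A hA
  refine Loc.loc_of N ℓ hℓ hℓN A hA Z.xF hxt ⟨K2, hK2, {Z.xF}, ?_⟩
  intro K0 hK0 hle hdvr D hF hres ι hι hlift
  have hchar : CharP (kA A) ℓ := ResField.charP hℓ hA
  obtain ⟨x0, hx0⟩ := hlift Z.xF (by simp)
  have hx : zS K0 Z.xZ ∈ D.F0 := by
    have h1 : bc K0 (x0 : LaurentSeries K0) = bc K0 (zS K0 Z.xZ) := by
      rw [← hι, hx0]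
      exact (coeffMap_zS (algebraMap K0 Kb) Z.xZ).symm
    have h2 : (x0 : LaurentSeries K0) = zS K0 Z.xZ :=
      QE.coeffMap_injective (algebraMap K0 Kb).injective h1
    rw [← h2]
    exact x0.2
  have hιx : ι (toCoord Z D hx).x = Z.xF := by
    apply Subtype.ext
    rw [hι, coe_toCoord_x]
    exact coeffMap_zS (algebraMap K0 Kb) Z.xZ
  refine ⟨toCoord Z D hx, hιx, hDed K0 hK0 hle D hF hres _ ι hι (by rw [hιx]; exact hxt)
    (by rw [hιx]; exact hfd) (g.map (Int.castRingHom _)) ?_ ?_⟩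
  · rw [Polynomial.map_map, Subsingleton.elim (D.res.comp (Int.castRingHom _))
      (Int.castRingHom (kA A))]
    exact hg
  · intro a ha v hv
    rw [Polynomial.map_map, Subsingleton.elim (RingHom.comp _ (Int.castRingHom _))
      (Int.castRingHom Kb)] at ha
    rw [hιx] at hv ⊢
    exact hU a ha v hv

/-- **LOC** for the chart `x ≠ 0` of an integral coordinate. -/
theorem loc_inf (N ℓ : ℕ) [NeZero N] (hℓ : ℓ.Prime) (hℓN : ¬ ℓ ∣ N)
    (A : ValuationSubring Kb) (hA : A.LiesOverPrime ℓ) (Z : ZCoord N ℓ) (g : ℤ[X])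
    (hg : (g.map (Int.castRingHom (kA A))).Separable)
    (hU : ∀ a : Kb, (g.map (Int.castRingHom Kb)).eval a ≠ 0 → ∀ v : Place Kb (FF N),
      0 < v.ord (Z.xF⁻¹ - algebraMap Kb (FF N) a) → v.ord (Z.xF⁻¹ - algebraMap Kb (FF N) a) = 1) :
    LOC A N Z.xF⁻¹ := by
  have hxt : Transcendental Kb Z.xF⁻¹ := FF.transcendental_inv (transcendental_xF Z)
  have hfd := finiteDimensional_xF_inv Z
  obtain ⟨K2, hK2, hDed⟩ := hDed N ℓ hℓ hℓN A hA
  refine Loc.loc_of N ℓ hℓ hℓN A hA Z.xF⁻¹ hxt ⟨K2, hK2, {Z.xF}, ?_⟩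
  intro K0 hK0 hle hdvr D hF hres ι hι hlift
  have hchar : CharP (kA A) ℓ := ResField.charP hℓ hA
  obtain ⟨x0, hx0⟩ := hlift Z.xF (by simp)
  have hx : zS K0 Z.xZ ∈ D.F0 := by
    have h1 : bc K0 (x0 : LaurentSeries K0) = bc K0 (zS K0 Z.xZ) := by
      rw [← hι, hx0]
      exact (coeffMap_zS (algebraMap K0 Kb) Z.xZ).symm
    have h2 : (x0 : LaurentSeries K0) = zS K0 Z.xZ :=
      QE.coeffMap_injective (algebraMap K0 Kb).injective h1
    rw [← h2]
    exact x0.2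
  have hιx : ι (toCoord Z D hx).x = Z.xF := by
    apply Subtype.ext
    rw [hι, coe_toCoord_x]
    exact coeffMap_zS (algebraMap K0 Kb) Z.xZ
  have hxy : (toCoord Z D hx).xW * zS (R0 K0 A) Z.yZ = 1 := toCoord_mul Z D hx
  have hιx' : ι ((toCoord Z D hx).inv _ hxy).x = Z.xF⁻¹ := by
    rw [(toCoord Z D hx).inv_x _ hxy, map_inv₀, hιx]
  refine ⟨(toCoord Z D hx).inv _ hxy, hιx', hDed K0 hK0 hle D hF hres _ ι hι
    (by rw [hιx']; exact hxt) (by rw [hιx']; exact hfd) (g.map (Int.castRingHom _)) ?_ ?_⟩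
  · rw [Polynomial.map_map, Subsingleton.elim (D.res.comp (Int.castRingHom _))
      (Int.castRingHom (kA A))]
    exact hg
  · intro a ha v hv
    rw [Polynomial.map_map, Subsingleton.elim (RingHom.comp _ (Int.castRingHom _))
      (Int.castRingHom Kb)] at ha
    rw [hιx'] at hv ⊢
    exact hU a ha v hv

/-- **LOC** for the chart `j ≠ 0`, for EVERY prime `ℓ ∤ N` (including `2` and `3`). -/
theorem loc_jinv (N ℓ : ℕ) [NeZero N] (hℓ : ℓ.Prime) (hℓN : ¬ ℓ ∣ N)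
    (A : ValuationSubring Kb) (hA : A.LiesOverPrime ℓ) : LOC A N (jF N)⁻¹ := by
  have hxt : Transcendental Kb (jF N)⁻¹ := RamJU.transcendental_jF_inv N
  have hfd : FiniteDimensional Kb⟮(jF N)⁻¹⟯ (FF N) := RamJU.finiteDimensional_jF_inv N
  obtain ⟨K2, hK2, hDed⟩ := hDed N ℓ hℓ hℓN A hA
  refine Loc.loc_of N ℓ hℓ hℓN A hA (jF N)⁻¹ hxt ⟨K2, hK2, ∅, ?_⟩
  intro K0 hK0 hle hdvr D hF hres ι hι _
  have hιj : ι D.jF = jF N := by
    apply Subtype.ext
    rw [hι, coe_jF' N]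
    exact coeffMap_jqModC _
  have hιx : ι D.coordJinv.x = (jF N)⁻¹ := by
    rw [QData.coordJinv, D.coordJ.inv_x, map_inv₀, D.coordJ_x, hιj]
  refine ⟨D.coordJinv, hιx, hDed K0 hK0 hle D hF hres _ ι hι (by rw [hιx]; exact hxt)
    (by rw [hιx]; exact hfd) (gInf _ 1728) (by rw [gInf_map]; exact separable_gInf _ _) ?_⟩
  intro a ha v hv
  rw [gInf_map] at ha
  rw [hιx] at hv ⊢
  exact RamJU.hU_jinv N (RingHom.id Kb) a (by simpa [gInf] using ha) v hv

end Fermat.Agent.S37
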