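import Fermat.Agent.S37.PDefs
import Fermat.Agent.S37.HI2
import Fermat.Agent.ES.KDeg

/-!
# S37, package LVL-G : change of level, the Galois action and the norm argument
-/

set_option autoImplicit false
set_option linter.style.haveILetI false
set_option linter.unusedSectionVars false

noncomputable section

namespace Fermat.Agent.S37

open ModularCurve AlgebraicCurve Fermat.Agent.S24 Fermat.Agent.ES

namespace LvlG

section A

variable {K F F₁ : Type*} [Field K] [Field F] [Field F₁] [Algebra K F] [Algebra K F₁]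

theorem mem_restrictAlong (φ : F →ₐ[K] F₁) (hφ : φ.toRingHom.IsIntegral) (w : Place K F₁) (f : F) :
    f ∈ (w.restrictAlong φ hφ).toValuationSubring ↔ φ f ∈ w.toValuationSubring := Iff.rfl

theorem restrictAlong_smul (φ : F →ₐ[K] F₁) (hφ : φ.toRingHom.IsIntegral)
    (g : SemilinearAut K F) (g' : SemilinearAut K F₁)
    (h : SemilinearAut.IntertwinesAlong (φ : F →+* F₁) g g') (W : Place K F₁) :
    (g' • W).restrictAlong φ hφ = g • W.restrictAlong φ hφ := by
  apply Place.ext
  ext f
  rw [mem_restrictAlong, SemilinearAut.smul_toValuationSubring,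
    SemilinearAut.smul_toValuationSubring, ValuationSubring.mem_pointwise_smul_iff_inv_smul_mem,
    ValuationSubring.mem_pointwise_smul_iff_inv_smul_mem, mem_restrictAlong]
  have := h.inv f
  rw [show (φ f) = (φ : F →+* F₁) f from rfl, this]
  rfl

theorem ramificationIndexAlong_smul (φ : F →ₐ[K] F₁) (hφ : φ.toRingHom.IsIntegral)
    (g : SemilinearAut K F) (g' : SemilinearAut K F₁)
    (h : SemilinearAut.IntertwinesAlong (φ : F →+* F₁) g g') (W : Place K F₁) :
    (g' • W).ramificationIndexAlong φ = W.ramificationIndexAlong φ := by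
  obtain ⟨π, hπ⟩ := S24.Place.exists_ord_eq_one (W.restrictAlong φ hφ)
  have h1 := Place.ord_restrictAlong φ hφ W π
  have h2 := Place.ord_restrictAlong φ hφ (g' • W) (g • π)
  rw [restrictAlong_smul φ hφ g g' h, SemilinearAut.ord_smul, hπ, mul_one] at h2
  rw [hπ, mul_one] at h1
  have h3 : φ (g • π) = g' • φ π := (h π).symm
  rw [h3, SemilinearAut.ord_smul, h1] at h2
  exact_mod_cast h2.symm

/-- the pull back of divisors commutes with semilinear automorphisms. -/
theorem pullbackAlong_smul [HasPrincipalDivisors K F₁] (φ : F →ₐ[K] F₁)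
    (hφ : φ.toRingHom.IsIntegral)
    (g : SemilinearAut K F) (g' : SemilinearAut K F₁)
    (h : SemilinearAut.IntertwinesAlong (φ : F →+* F₁) g g') (D : Divisor K F) :
    Divisor.pullbackAlong φ hφ (g • D) = g' • Divisor.pullbackAlong φ hφ D := by
  ext W
  rw [Divisor.pullbackAlong_apply, SemilinearAut.divisor_smul_apply,
    SemilinearAut.divisor_smul_apply, Divisor.pullbackAlong_apply,
    restrictAlong_smul φ hφ g⁻¹ g'⁻¹ h.inv, ramificationIndexAlong_smul φ hφ g⁻¹ g'⁻¹ h.inv]

end A

/-- the order of a norm, "along" version. -/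
theorem ord_norm_along {K F E : Type*} [Field K] [IsAlgClosed K] [CharZero K] [Field F] [Field E]
    [Algebra K F] [Algebra K E] [FF.IsFF K F] [FF.IsFF K E] [HasPrincipalDivisors K E]
    (φ : F →ₐ[K] E) (hφ : φ.toRingHom.IsIntegral) (v : Place K F) (y : E) (hy : y ≠ 0) :
    v.ord (letI := algebraAlong φ; Algebra.norm F y) = ∑ W ∈ Place.fiberAlong φ hφ v, W.ord y := by
  classical
  letI := algebraAlong φ
  haveI := isScalarTower_along φ
  haveI : FiniteDimensional F E := HI.finiteAlong φ
  haveI := isIntegral_along φ hφ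
  have h := HI.ord_norm v y hy (Place.fiberAlong φ hφ v)
    (fun w hw _ => Place.mem_fiberAlong.2 hw)
  rw [h, Finset.filter_true_of_mem]
  intro w hw
  exact Place.mem_fiberAlong.1 hw

theorem norm_along_ne_zero {K F E : Type*} [Field K] [IsAlgClosed K] [CharZero K] [Field F]
    [Field E] [Algebra K F] [Algebra K E] [FF.IsFF K F] [FF.IsFF K E]
    (φ : F →ₐ[K] E) (y : E) (hy : y ≠ 0) :
    (letI := algebraAlong φ; Algebra.norm F y) ≠ 0 := by
  letI := algebraAlong φ
  haveI : FiniteDimensional F E := HI.finiteAlong φ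
  rw [Ne, Algebra.norm_eq_zero_iff]
  exact hy

theorem intertwines_heckeAlpha (N r : ℕ) [NeZero N] [NeZero r] (σ : GQ) :
    SemilinearAut.IntertwinesAlong ((heckeAlphaBar Kb N r : FF N →ₐ[Kb] FF (N * r)) : FF N →+* _)
      (ag N σ) (ag (N * r) σ) := by
  intro x
  apply Subtype.ext
  rw [coe_arithmeticGalois_smul]
  show _ = ((heckeAlphaBar Kb N r (ag N σ • x) : FF (N * r)) : LaurentSeries Kb)
  rw [coe_heckeAlphaBar, coe_arithmeticGalois_smul]
  show coeffMap _ ((heckeAlphaBar Kb N r x : FF (N * r)) : LaurentSeries Kb) = _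
  rw [coe_heckeAlphaBar]

end LvlG

/-- pull back of divisors along `FF N ⊆ FF (N r)`. -/
def pull (N r : ℕ) [NeZero N] [NeZero r] : Divisor Kb (FF N) →+ Divisor Kb (FF (N * r)) :=
  haveI := hasPrincipalDivisors_FF (N * r)
  Divisor.pullbackAlong (heckeAlphaBar Kb N r) (HI.integralAlong _)

theorem pull_apply (N r : ℕ) [NeZero N] [NeZero r] (D : Divisor Kb (FF N))
    (W : Place Kb (FF (N * r))) :
    pull N r D W = W.ramificationIndexAlong (heckeAlphaBar Kb N r) *
      D (W.restrictAlong (heckeAlphaBar Kb N r) (HI.integralAlong _)) :=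
  haveI := hasPrincipalDivisors_FF (N * r)
  Divisor.pullbackAlong_apply _ _ D W

theorem pull_smul (N r : ℕ) [NeZero N] [NeZero r] (σ : GQ) (D : Divisor Kb (FF N)) :
    pull N r (ag N σ • D) = ag (N * r) σ • pull N r D :=
  haveI := hasPrincipalDivisors_FF (N * r)
  LvlG.pullbackAlong_smul _ _ _ _ (LvlG.intertwines_heckeAlpha N r σ) D

theorem isPrincipal_of_pull (N r m : ℕ) [NeZero N] [NeZero r]
    (hd : Nat.Coprime (finrankAlong Kb (heckeAlphaBar Kb N r)) m) (D : Divisor Kb (FF N))
    (h1 : (m • D).IsPrincipal) (h2 : (pull N r D).IsPrincipal) : D.IsPrincipal := by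
  haveI := hasPrincipalDivisors_FF (N * r)
  obtain ⟨w, hw, hdiv⟩ := h1
  obtain ⟨z, hz, hE⟩ := h2
  set d := finrankAlong Kb (heckeAlphaBar Kb N r) with hd'
  set y : FF N := (letI := algebraAlong (heckeAlphaBar Kb N r); Algebra.norm (FF N) z) with hy
  have hy0 : y ≠ 0 := LvlG.norm_along_ne_zero (heckeAlphaBar Kb N r) z hz
  have h1 : ∀ v : Place Kb (FF N), v.ord y = d * D v := by
    intro v
    rw [hy, LvlG.ord_norm_along (heckeAlphaBar Kb N r) (HI.integralAlong _) v z hz, hd',
      ← sum_ramificationIndexAlong (heckeAlphaBar Kb N r) (HI.integralAlong _) v, Finset.sum_mul]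
    refine Finset.sum_congr rfl fun W hW => ?_
    rw [← hE W, pull_apply, Place.mem_fiberAlong.1 hW]
  have h2 : (d : ℤ) * Nat.gcdA d m + (m : ℤ) * Nat.gcdB d m = 1 := by
    have := Nat.gcd_eq_gcd_ab d m
    rw [hd] at this
    exact_mod_cast this.symm
  have h3 : ∀ v : Place Kb (FF N), v.ord w = m * D v := by
    intro v
    rw [← hdiv v]
    simp
  refine ⟨y ^ Nat.gcdA d m * w ^ Nat.gcdB d m,
    mul_ne_zero (zpow_ne_zero _ hy0) (zpow_ne_zero _ hw), fun v => ?_⟩
  rw [Place.ord_mul _ (zpow_ne_zero _ hy0) (zpow_ne_zero _ hw), Place.ord_zpow, Place.ord_zpow,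
    h1, h3]
  calc D v = ((d : ℤ) * Nat.gcdA d m + (m : ℤ) * Nat.gcdB d m) * D v := by rw [h2, one_mul]
    _ = _ := by ring

theorem isPrincipal_pull (N r : ℕ) [NeZero N] [NeZero r] {D : Divisor Kb (FF N)}
    (h : D.IsPrincipal) : (pull N r D).IsPrincipal :=
  haveI := hasPrincipalDivisors_FF (N * r)
  Divisor.isPrincipal_pullbackAlong _ _ h

/-- `[FF (N r) : FF N] = r + 1` for a prime `r ∤ N`. -/
theorem finrank_alpha (N r : ℕ) [NeZero N] [Fact r.Prime] (hr : ¬ r ∣ N) :
    finrankAlong Kb (heckeAlphaBar Kb N r) = r + 1 :=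
  finrank_heckeAlpha N r hr

end Fermat.Agent.S37
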