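import Fermat.Agent.S24.FFNorm

set_option autoImplicit false
set_option linter.unusedSectionVars false
set_option linter.style.haveILetI false

/-!
# S37, package LVL-H, part 1: weak avoidance in a function field and the `δ`-argument
-/

namespace Fermat.Agent.S37.LvlH

open AlgebraicCurve IsDedekindDomain Polynomial IntermediateField Fermat.Agent.S24

variable {K F : Type*} [Field K] [Field F] [Algebra K F]

section Poly

variable [Algebra K[X] F] [Algebra (RatFunc K) F] [IsScalarTower K[X] (RatFunc K) F]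
  [IsScalarTower K K[X] F] [FiniteDimensional (RatFunc K) F] [IsAlgClosed K] [CharZero K]

local notation "𝓑" => FunctionField.ringOfIntegers K F

lemma exists_HOS (w : Place K F) (hw : 0 ≤ w.ord (algebraMap K[X] F X)) :
    ∃ W : HeightOneSpectrum 𝓑, Place.ofHeightOneSpectrum (K := K) (F := F) W = w := by
  have hinj : Function.Injective (algebraMap K[X] F) := FunctionField.algebraMap_injective K F
  have hy0 : algebraMap K[X] F X ≠ 0 := fun h => X_ne_zero (hinj (h.trans (map_zero _).symm))
  have hy : algebraMap K[X] F X ∈ w.toValuationSubring := (FF.mem_iff_ord_nonneg w hy0).mpr hw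
  exact FF.exists_heightOneSpectrum (R := 𝓑) w (FF.ringOfIntegers_le w hy)

theorem exists_avoid_aux (v : Place K F) (hv : 0 ≤ v.ord (algebraMap K[X] F X))
    (s : Finset (Place K F)) (hs : ∀ w ∈ s, 0 ≤ w.ord (algebraMap K[X] F X)) (hvs : v ∉ s) :
    ∃ f : F, f ≠ 0 ∧ 0 < v.ord f ∧ ∀ w ∈ s, w.ord f = 0 := by
  classical
  obtain ⟨V, hV⟩ := exists_HOS v hv
  let P : Place K F → Ideal 𝓑 := fun w =>
    if h : 0 ≤ w.ord (algebraMap K[X] F X) then (exists_HOS w h).choose.asIdeal else ⊤
  have hP : ∀ w ∈ s, ∃ W : HeightOneSpectrum 𝓑,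
      Place.ofHeightOneSpectrum (K := K) (F := F) W = w ∧ P w = W.asIdeal := by
    intro w hw
    refine ⟨(exists_HOS w (hs w hw)).choose, (exists_HOS w (hs w hw)).choose_spec, ?_⟩
    simp only [P, dif_pos (hs w hw)]
  obtain ⟨b, hb0, hbV, hbs⟩ : ∃ b : 𝓑, b ≠ 0 ∧ b ∈ V.asIdeal ∧ ∀ w ∈ s, b ∉ P w := by
    rcases s.eq_empty_or_nonempty with rfl | ⟨w₀, hw₀⟩
    · obtain ⟨b, hb, hb0⟩ := Submodule.exists_mem_ne_zero_of_ne_bot V.ne_bot
      exact ⟨b, hb0, hb, by simp⟩
    · have hnot : ¬ ((V.asIdeal : Set 𝓑) ⊆ ⋃ w ∈ (↑s : Set (Place K F)), P w) := by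
        rw [Ideal.subset_union_prime w₀ w₀ (fun w hw _ _ => by
          obtain ⟨W, -, hW⟩ := hP w hw
          rw [hW]; exact W.isPrime)]
        rintro ⟨w, hw, hle⟩
        obtain ⟨W, hWw, hW⟩ := hP w hw
        rw [hW] at hle
        have heq : V.asIdeal = W.asIdeal := V.isMaximal.eq_of_le W.isPrime.ne_top hle
        have : V = W := HeightOneSpectrum.ext heq
        apply hvs
        rw [← hV, this, hWw]
        exact hw
      rw [Set.not_subset] at hnot
      obtain ⟨b, hbV, hb⟩ := hnot
      simp only [Set.mem_iUnion, not_exists] at hb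
      refine ⟨b, ?_, hbV, fun w hw => hb w hw⟩
      rintro rfl
      exact hb w₀ hw₀ (P w₀).zero_mem
  refine ⟨algebraMap 𝓑 F b, ?_, ?_, ?_⟩
  · intro h
    exact hb0 ((IsFractionRing.injective 𝓑 F) (h.trans (map_zero _).symm))
  · rw [← hV, FF.ord_pos_iff_mem V hb0]
    exact hbV
  · intro w hw
    obtain ⟨W, hWw, hW⟩ := hP w hw
    rw [← hWw]
    apply FF.ord_eq_zero_of_not_mem
    rw [← hW]
    exact hbs w hw

end Poly

variable [IsAlgClosed K] [CharZero K]

/-- avoidance on the chart "`x` regular". -/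
theorem exists_avoid_chart (x : F) (hx : Transcendental K x) [FiniteDimensional K⟮x⟯ F]
    (v : Place K F) (hv : 0 ≤ v.ord x) (s : Finset (Place K F))
    (hs : ∀ w ∈ s, 0 ≤ w.ord x) (hvs : v ∉ s) :
    ∃ f : F, f ≠ 0 ∧ 0 < v.ord f ∧ ∀ w ∈ s, w.ord f = 0 := by
  refine FF.with_ratFunc' hx fun a1 a2 t1 t2 fd hX _ => ?_
  subst hX
  exact exists_avoid_aux v hv s hs hvs

/-- a coordinate which is regular at finitely many given places. -/
theorem exists_regular [FF.IsFF K F] (s : Finset (Place K F)) :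
    ∃ x : F, Transcendental K x ∧ ∀ w ∈ s, 0 ≤ w.ord x := by
  classical
  obtain ⟨x₀, hx₀, -⟩ := FF.IsFF.exists_transcendental (K := K) (F := F)
  have hsub : ∀ w : Place K F, {c : K | 0 < w.ord (x₀ - algebraMap K F c)}.Subsingleton := by
    intro w c hc c' hc'
    by_contra hne
    have h0 : algebraMap K F (c' - c) ≠ 0 := by
      rw [Ne, map_eq_zero_iff _ (algebraMap K F).injective, sub_eq_zero]
      exact fun h => hne h.symm
    have h1 : (x₀ - algebraMap K F c) - (x₀ - algebraMap K F c') = algebraMap K F (c' - c) := by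
      rw [map_sub]; ring
    have h2 := Place.ord_sub_ge w (f := x₀ - algebraMap K F c) (g := x₀ - algebraMap K F c')
      (by rw [h1]; exact h0)
    rw [h1, FF.ord_algebraMap] at h2
    simp only [Set.mem_ofPred_eq] at hc hc'
    omega
  have hfin : (⋃ w ∈ s, {c : K | 0 < w.ord (x₀ - algebraMap K F c)}).Finite :=
    Set.Finite.biUnion s.finite_toSet fun w _ => (hsub w).finite
  obtain ⟨c, hc⟩ := hfin.exists_notMem
  refine ⟨(x₀ - algebraMap K F c)⁻¹, FF.transcendental_inv (FF.transcendental_sub_const hx₀ c),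
    fun w hw => ?_⟩
  rw [Place.ord_inv]
  simp only [Set.mem_iUnion, Set.mem_ofPred_eq, not_exists, not_lt] at hc
  have := hc w hw
  omega

/-- **weak avoidance**. -/
theorem exists_avoid [FF.IsFF K F] (v : Place K F) (s : Finset (Place K F)) (hvs : v ∉ s) :
    ∃ f : F, f ≠ 0 ∧ 0 < v.ord f ∧ ∀ w ∈ s, w.ord f = 0 := by
  classical
  obtain ⟨x, hx, hreg⟩ := exists_regular (K := K) (F := F) (insert v s)
  haveI := FF.finiteDimensional_adjoin hx
  exact exists_avoid_chart x hx v (hreg v (Finset.mem_insert_self _ _)) s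
    (fun w hw => hreg w (Finset.mem_insert_of_mem hw)) hvs

omit [IsAlgClosed K] [CharZero K] in
/-- **the `δ`-argument**: an additive map on divisors which kills the principal divisors and has
finite fibres is zero. -/
theorem delta_zero {Y : Type*} [HasPrincipalDivisors K F]
    (hWA : ∀ (v : Place K F) (s : Finset (Place K F)), v ∉ s →
      ∃ f : F, f ≠ 0 ∧ 0 < v.ord f ∧ ∀ w ∈ s, w.ord f = 0)
    (δ : Divisor K F →+ (Y →₀ ℤ)) (hprin : ∀ D : Divisor K F, D.IsPrincipal → δ D = 0)
    (hfin : ∀ u : Y, {v : Place K F | δ (Finsupp.single v 1) u ≠ 0}.Finite) : δ = 0 := by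
  classical
  have key : ∀ (u : Y) (D : Divisor K F),
      δ D u = D.sum (fun w n => n * δ (Finsupp.single w 1) u) := by
    intro u D
    induction D using Finsupp.induction_linear with
    | zero => simp
    | add f g hf hg =>
      rw [map_add, Finsupp.add_apply, hf, hg,
        Finsupp.sum_add_index' (by simp) (by intros; ring)]
    | single w n =>
      rw [Finsupp.sum_single_index (by simp)]
      have : (Finsupp.single w n : Divisor K F) = n • Finsupp.single w 1 := by simp
      rw [this, map_zsmul, Finsupp.smul_apply, smul_eq_mul]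
  have hs : ∀ v : Place K F, δ (Finsupp.single v 1) = 0 := by
    intro v
    ext u
    by_contra hu
    rw [Finsupp.zero_apply] at hu
    obtain ⟨f, hf0, hfv, hfs⟩ := hWA v ((hfin u).toFinset.erase v) (Finset.notMem_erase _ _)
    obtain ⟨D, hD, -⟩ := HasPrincipalDivisors.exists_divisor (K := K) f hf0
    have h0 : δ D u = 0 := by rw [hprin D ⟨f, hf0, hD⟩, Finsupp.zero_apply]
    rw [key, Finsupp.sum, Finset.sum_eq_single v] at h0
    · rw [hD v] at h0
      rcases mul_eq_zero.mp h0 with h | h
      · omega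
      · exact hu h
    · intro w _ hwv
      by_cases hw : δ (Finsupp.single w 1) u = 0
      · rw [hw, mul_zero]
      · rw [hD w, hfs w (Finset.mem_erase.mpr ⟨hwv, (hfin u).mem_toFinset.mpr hw⟩), zero_mul]
    · intro hv
      rw [Finsupp.notMem_support_iff.mp hv, zero_mul]
  ext v u
  simp only [AddMonoidHom.coe_comp, Function.comp_apply, Finsupp.singleAddHom_apply,
    AddMonoidHom.zero_apply, Finsupp.zero_apply]
  rw [hs v, Finsupp.zero_apply]

end Fermat.Agent.S37.LvlH
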