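import Fermat.Agent.S37.PDefs
import Fermat.Agent.S37.KT
import Fermat.Agent.ES.ResField
import Fermat.Agent.ES.QEMod

/-!
# S37, package STAB-H, part (A) : the modular equation between `α j` and `β j`
-/

set_option autoImplicit false

namespace Fermat.Agent.S37

open ModularCurve AlgebraicCurve Fermat.Agent.S24 Fermat.Agent.ES Fermat.Agent.S28 Polynomial

/-- the modular equation: a polynomial `P ∈ A[X][Y]`, monic in `Y`, with
`P(α j, β j) = 0 = P(β j, α j)`. -/
theorem exists_modPoly (A : ValuationSubring Kb) (M ℓ : ℕ) [NeZero M] [Fact ℓ.Prime]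
    (hℓM : ¬ ℓ ∣ M) :
    ∃ P : Polynomial (Polynomial A), P.Monic ∧
      P.eval₂ (Polynomial.eval₂RingHom ((algebraMap Kb (FF (M * ℓ))).comp A.subtype)
        (heckeAlphaBar Kb M ℓ (jF M))) (heckeBetaBar Kb M ℓ (jF M)) = 0 ∧
      P.eval₂ (Polynomial.eval₂RingHom ((algebraMap Kb (FF (M * ℓ))).comp A.subtype)
        (heckeBetaBar Kb M ℓ (jF M))) (heckeAlphaBar Kb M ℓ (jF M)) = 0 := by
  have hℓ : ℓ.Prime := Fact.out
  have : NeZero ℓ := ⟨hℓ.ne_zero⟩
  obtain ⟨ζ, hprim, h1, -⟩ := ResField.exists_zetaA A (M * ℓ)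
  have hmem : ℓ ∈ (M * ℓ).divisors :=
    Nat.mem_divisors.mpr ⟨dvd_mul_left ℓ M, NeZero.ne _⟩
  obtain ⟨P, hmon, -, hP⟩ := QE.exists_monic_root (M * ℓ) ζ hprim.pow_eq_one h1
    (MvPolynomial.X ((false, ⟨ℓ, hmem⟩) : Gen (M * ℓ)))
  have h2 : P.eval₂ (Polynomial.eval₂RingHom ((algebraMap Kb (FF (M * ℓ))).comp A.subtype)
        (heckeAlphaBar Kb M ℓ (jF M))) (heckeBetaBar Kb M ℓ (jF M)) = 0 := by
    apply Subtype.val_injective
    have h3 := congrArg (coeffMap A.subtype) hP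
    rw [map_zero, hom_eval₂] at h3
    have h4 : coeffMap A.subtype (ev0 A (M * ℓ) (MvPolynomial.X ((false, ⟨ℓ, hmem⟩) : Gen (M * ℓ))))
        = qExpand Kb ℓ (jqModC Kb) := by
      rw [ev0, MvPolynomial.aeval_X, gen, if_neg (by simp), Ord.coeffMap_gX, gX, qExp_eq]
    rw [h4] at h3
    change (modularFunctionFieldBar (M * ℓ)).val.toRingHom _ = 0
    rw [hom_eval₂]
    have h5 : (modularFunctionFieldBar (M * ℓ)).val.toRingHom (heckeBetaBar Kb M ℓ (jF M))
        = qExpand Kb ℓ (jqModC Kb) := by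
      change ((heckeBetaBar Kb M ℓ (jF M) : FF (M * ℓ)) : LaurentSeries Kb) = _
      rw [coe_heckeBetaBar, coe_jF']
    rw [h5]
    convert h3 using 2
    apply Polynomial.ringHom_ext
    · intro a
      simp only [RingHom.comp_apply, coe_eval₂RingHom, eval₂_C, QE.evS_C, QE.coeffMap_C]
      change algebraMap Kb (LaurentSeries Kb) (a : Kb) = _
      rw [QE.algebraMap_eq_C]
      rfl
    · simp only [RingHom.comp_apply, coe_eval₂RingHom, eval₂_X, QE.evS_X, coeffMap_jqModC]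
      change ((heckeAlphaBar Kb M ℓ (jF M) : FF (M * ℓ)) : LaurentSeries Kb) = _
      rw [coe_heckeAlphaBar, coe_jF']
  refine ⟨P, hmon, h2, ?_⟩
  obtain ⟨W, hWα, hWβ⟩ := KT.exists_W M ℓ hℓM
  have h6 := congrArg (W : FF (M * ℓ) →+* FF (M * ℓ)) h2
  rw [map_zero, hom_eval₂] at h6
  have h7 : (W : FF (M * ℓ) →+* FF (M * ℓ)) (heckeBetaBar Kb M ℓ (jF M))
      = heckeAlphaBar Kb M ℓ (jF M) := hWβ _
  rw [h7] at h6
  have h8 : (W : FF (M * ℓ) →+* FF (M * ℓ)).comp
      (Polynomial.eval₂RingHom ((algebraMap Kb (FF (M * ℓ))).comp A.subtype)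
        (heckeAlphaBar Kb M ℓ (jF M))) =
      Polynomial.eval₂RingHom ((algebraMap Kb (FF (M * ℓ))).comp A.subtype)
        (heckeBetaBar Kb M ℓ (jF M)) := by
    apply Polynomial.ringHom_ext
    · intro a
      simp only [RingHom.comp_apply, coe_eval₂RingHom, eval₂_C]
      exact W.commutes _
    · simp only [RingHom.comp_apply, coe_eval₂RingHom, eval₂_X]
      exact hWα _
  rw [h8] at h6
  exact h6

end Fermat.Agent.S37
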