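import Mathlib

set_option autoImplicit false
set_option linter.deprecated false

/-!
# S37, package NEV, algebraic core

Reduction of a norm modulo a maximal ideal, in terms of the values at the primes above it.
-/

namespace Fermat.Agent.S37

namespace NEVAlg

open Module

/-- determinant of a block diagonal matrix with blocks of varying sizes -/
theorem det_blockDiagonal' {o R : Type*} [Fintype o] [DecidableEq o] [CommRing R]
    {m : o → Type*} [∀ i, Fintype (m i)] [∀ i, DecidableEq (m i)]
    (M : ∀ i, Matrix (m i) (m i) R) :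
    (Matrix.blockDiagonal' M).det = ∏ i, (M i).det := by
  let _ : LinearOrder o := LinearOrder.lift' (Fintype.equivFin o) (Equiv.injective _)
  rw [(Matrix.blockTriangular_blockDiagonal' M).det_fintype]
  refine Finset.prod_congr rfl fun k _ => ?_
  rw [← Matrix.det_submatrix_equiv_self (Equiv.sigmaSubtype k).symm]
  congr 1
  ext i j
  simp [Matrix.toSquareBlock_def, Equiv.sigmaSubtype]

/-- determinant of a product of endomorphisms on a product of (varying) modules -/
theorem det_pi' {ι R : Type*} [Fintype ι] [CommRing R] {M : ι → Type*}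
    [∀ i, AddCommGroup (M i)] [∀ i, Module R (M i)] [∀ i, Module.Free R (M i)]
    [∀ i, Module.Finite R (M i)] (f : ∀ i, M i →ₗ[R] M i) :
    (LinearMap.pi (fun i ↦ (f i).comp (LinearMap.proj i))).det = ∏ i, (f i).det := by
  classical
  let b := fun i => Module.Free.chooseBasis R (M i)
  let B := Pi.basis b
  simp_rw [← LinearMap.det_toMatrix B, ← fun i => LinearMap.det_toMatrix (b i) (f i)]
  have : ((LinearMap.toMatrix B B) (LinearMap.pi fun i ↦ f i ∘ₗ LinearMap.proj i)) =
      Matrix.blockDiagonal' (fun i ↦ LinearMap.toMatrix (b i) (b i) (f i)) := by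
    ext ⟨i₁, i₂⟩ ⟨j₁, j₂⟩
    unfold B
    rw [LinearMap.toMatrix_apply, Matrix.blockDiagonal'_apply, Pi.basis_repr, Pi.basis_apply]
    simp only [LinearMap.pi_apply, LinearMap.coe_comp, Function.comp_apply, LinearMap.coe_proj,
      Function.eval]
    split_ifs with h
    · subst h
      simp [LinearMap.toMatrix_apply]
    · simp [h]
  rw [this, det_blockDiagonal']

/-- an endomorphism which differs from the scalar `c` by a nilpotent has determinant `c ^ dim` -/
theorem det_of_isNilpotent_sub {k V : Type*} [Field k] [AddCommGroup V] [Module k V]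
    [FiniteDimensional k V] (T : V →ₗ[k] V) (c : k)
    (h : IsNilpotent (T - algebraMap k (Module.End k V) c)) : T.det = c ^ finrank k V := by
  have h1 := IsNilpotent.charpoly_eq_X_pow_finrank h
  have h2 := LinearMap.eval_charpoly (T - algebraMap k (Module.End k V) c) (-c)
  rw [h1, Polynomial.eval_pow, Polynomial.eval_X] at h2
  have h3 : algebraMap k (Module.End k V) (-c) - (T - algebraMap k (Module.End k V) c)
      = (-1 : k) • T := by
    rw [map_neg, neg_one_smul]
    abel
  rw [h3, LinearMap.det_smul, neg_pow] at h2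
  have h4 : ((-1 : k) ^ finrank k V) ≠ 0 := pow_ne_zero _ (by simp)
  exact (mul_left_cancel₀ h4 h2).symm

section Local

variable {R S : Type*} [CommRing R] [CommRing S] [Algebra R S] [IsLocalRing R]

open IsLocalRing

local notation "p" => maximalIdeal R
local notation "pS" => Ideal.map (algebraMap R S) p

attribute [local instance] Ideal.Quotient.field

/-- the norm commutes with reduction modulo the maximal ideal -/
lemma norm_quotient_mk [Module.Free R S] [Module.Finite R S] (x : S) :
    Algebra.norm (R ⧸ p) (Ideal.Quotient.mk pS x) = Ideal.Quotient.mk p (Algebra.norm R x) := by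
  classical
  let ι := Module.Free.ChooseBasisIndex R S
  let b : Module.Basis ι R S := Module.Free.chooseBasis R S
  rw [Algebra.norm_eq_matrix_det b, Algebra.norm_eq_matrix_det (basisQuotient b),
    RingHom.map_det]
  congr 1
  ext i j
  simp only [Algebra.leftMulMatrix_apply, Algebra.coe_lmul_eq_mul, LinearMap.toMatrix_apply,
    basisQuotient_apply, LinearMap.mul_apply', RingHom.mapMatrix_apply, Matrix.map_apply,
    ← map_mul, basisQuotient_repr]

open UniqueFactorizationMonoid in
/-- **Norm evaluation**, algebraic form. -/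
theorem mk_norm_eq [IsDedekindDomain S] [Module.Free R S] [Module.Finite R S] (hp : pS ≠ ⊥)
    (y : S) (c : Ideal S → R)
    (hc : ∀ P ∈ (factors pS).toFinset, y - algebraMap R S (c P) ∈ P) :
    Ideal.Quotient.mk p (Algebra.norm R y) = Ideal.Quotient.mk p
      (∏ P ∈ (factors pS).toFinset,
        c P ^ (Ideal.ramificationIdx' p P * Ideal.inertiaDeg' p P)) := by
  classical
  rw [← norm_quotient_mk, Algebra.norm_apply]
  let e := Ideal.Factors.piQuotientLinearEquiv S p hp
  rw [← LinearMap.det_conj _ e]
  have h1 : (e : (S ⧸ pS) →ₗ[R ⧸ p] _) ∘ₗ (Algebra.lmul (R ⧸ p) (S ⧸ pS) (Ideal.Quotient.mk pS y))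
      ∘ₗ (e.symm : _ →ₗ[R ⧸ p] (S ⧸ pS)) =
      LinearMap.pi (fun P : (factors pS).toFinset ↦
        (Algebra.lmul (R ⧸ p) (S ⧸ (P : Ideal S) ^ Ideal.ramificationIdx' p P.1)
          (Ideal.Quotient.mk _ y)).comp (LinearMap.proj P)) := by
    refine LinearMap.ext fun v => ?_
    funext P
    have h2 : ∀ a, e a = Ideal.Factors.piQuotientEquiv p hp a := fun _ => rfl
    simp only [LinearMap.coe_comp, LinearEquiv.coe_coe, Function.comp_apply,
      Algebra.coe_lmul_eq_mul, LinearMap.mul_apply', LinearMap.pi_apply, LinearMap.coe_proj,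
      Function.eval]
    rw [h2, map_mul, ← h2, ← h2, LinearEquiv.apply_symm_apply, h2,
      Ideal.Factors.piQuotientEquiv_mk, Pi.mul_apply]
  rw [h1, det_pi', map_prod, ← Finset.prod_attach (factors pS).toFinset, Finset.univ_eq_attach]
  refine Finset.prod_congr rfl fun P _ => ?_
  rw [map_pow, ← Ideal.Factors.finrank_pow_ramificationIdx]
  apply det_of_isNilpotent_sub
  refine ⟨Ideal.ramificationIdx' p P.1, ?_⟩
  have h3 : Algebra.lmul (R ⧸ p) (S ⧸ (P : Ideal S) ^ Ideal.ramificationIdx' p P.1)
      (Ideal.Quotient.mk _ y) - algebraMap (R ⧸ p) (Module.End (R ⧸ p) _)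
        (Ideal.Quotient.mk p (c P.1)) =
      Algebra.lmul (R ⧸ p) (S ⧸ (P : Ideal S) ^ Ideal.ramificationIdx' p P.1)
        (Ideal.Quotient.mk _ (y - algebraMap R S (c P.1))) := by
    refine LinearMap.ext fun v => ?_
    rw [LinearMap.sub_apply, Module.algebraMap_end_apply, Algebra.smul_def,
      Ideal.Quotient.algebraMap_quotient_pow_ramificationIdx, map_sub, map_sub,
      LinearMap.sub_apply]
    rfl
  rw [h3, ← map_pow, ← map_pow, Ideal.Quotient.eq_zero_iff_mem.mpr
    (Ideal.pow_mem_pow (hc P.1 P.2) _), map_zero]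

end Local

end NEVAlg

end Fermat.Agent.S37
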