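import Fermat.Agent.S37.HI
import Fermat.Agent.ES.Gauss

/-!
# S37 : shared definitions for the proof of (*)

Everything lives at the `ℚ̄`-level: `FF M` = function field of `X₀(M)` over `Kb = ℚ̄`,
`A` a valuation subring of `Kb` over `ℓ`, `Gauss.IsGInt A M f` = "`f` is integral for the Gauss
valuation", `Gauss.redFun A M f` its reduction (a Laurent series over the residue field).

* `ag M σ`      : the semilinear automorphism of `FF M` attached to `σ : GQ`
                  (acts on functions, places, divisors),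
* `Cx x`, `nc M`, `cu A M` : predicates on places ("charts"):
                  `x` regular; `j` regular; the cuspidal discs `|j(P)| > 1`,
* `Lat A M c D` : Gauss-integral functions `f` with `div f + D ≥ 0` on `c`,
* `Pair A M c D`: `1 ∈ red (Lat c D) · red (Lat c (-D))`,
* `Triv A M c E`: `1 ∈ red (Lat c E)`.
-/

set_option autoImplicit false

noncomputable section

namespace Fermat.Agent.S37

open ModularCurve AlgebraicCurve Fermat.Agent.S24 Fermat.Agent.ES

/-- the semilinear automorphism of `FF M` attached to `σ`. -/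
abbrev ag (M : ℕ) (σ : GQ) : SemilinearAut Kb (FF M) :=
  arithmeticGalois (modularFunctionFieldFull M) σ

/-- the chart "`x` is regular". -/
def Cx {M : ℕ} (x : FF M) (v : Place Kb (FF M)) : Prop := 0 ≤ v.ord x

/-- the non-cuspidal places. -/
def nc (M : ℕ) (v : Place Kb (FF M)) : Prop := 0 ≤ v.ord (jF M)

/-- the cuspidal discs: `j(v) ∉ A` (the cusps included). -/
def cu (A : ValuationSubring Kb) (M : ℕ) (v : Place Kb (FF M)) : Prop :=
  ¬ ∃ a ∈ A, 0 < v.ord (jF M - algebraMap Kb (FF M) a)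

/-- Gauss-integral functions `f` with `div f + D ≥ 0` on `c`. -/
def Lat (A : ValuationSubring Kb) (M : ℕ) (c : Place Kb (FF M) → Prop)
    (D : Divisor Kb (FF M)) : Set (FF M) :=
  {f | Gauss.IsGInt A M f ∧ (f = 0 ∨ ∀ v, c v → 0 ≤ v.ord f + D v)}

theorem mem_Lat {A : ValuationSubring Kb} {M : ℕ} {c : Place Kb (FF M) → Prop}
    {D : Divisor Kb (FF M)} {f : FF M} :
    f ∈ Lat A M c D ↔ Gauss.IsGInt A M f ∧ (f = 0 ∨ ∀ v, c v → 0 ≤ v.ord f + D v) := Iff.rfl

/-- `1 ∈ red (Lat c D) · red (Lat c (-D))`. -/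
def Pair (A : ValuationSubring Kb) (M : ℕ) (c : Place Kb (FF M) → Prop)
    (D : Divisor Kb (FF M)) : Prop :=
  ∃ (n : ℕ) (f f' : Fin n → FF M), (∀ k, f k ∈ Lat A M c D) ∧ (∀ k, f' k ∈ Lat A M c (-D)) ∧
    Gauss.redFun A M (∑ k, f k * f' k) = 1

/-- `1 ∈ red (Lat c E)`. -/
def Triv (A : ValuationSubring Kb) (M : ℕ) (c : Place Kb (FF M) → Prop)
    (E : Divisor Kb (FF M)) : Prop :=
  ∃ f ∈ Lat A M c E, Gauss.redFun A M f = 1

/-- `c` is stable under the decomposition group of `A`. -/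
def GalStable (A : ValuationSubring Kb) (M : ℕ) (c : Place Kb (FF M) → Prop) : Prop :=
  ∀ σ ∈ A.decompositionSubgroup ℚ, ∀ v, c v → c (ag M σ • v)

/-- `c` is stable under the Hecke correspondence: if `α(W) ∈ c` then `β(W) ∈ c`. -/
def HeckeStable (M ℓ : ℕ) [NeZero M] [NeZero ℓ] (c : Place Kb (FF M) → Prop) : Prop :=
  ∀ W : Place Kb (FF (M * ℓ)),
    c (W.restrictAlong (heckeAlphaBar Kb M ℓ) (HI.integralAlong _)) →
      c (W.restrictAlong (heckeBetaBar Kb M ℓ) (HI.integralAlong _))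

/-- the divisor `φ D₁ - T_ℓ D₁ + ℓ φ⁻¹ D₁`. -/
def thetaDiv (M ℓ : ℕ) [NeZero M] [NeZero ℓ] (φ : GQ) (D₁ : Divisor Kb (FF M)) :
    Divisor Kb (FF M) :=
  ag M φ • D₁ - heckeDiv M ℓ D₁ + ℓ • (ag M φ⁻¹ • D₁)

end Fermat.Agent.S37
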