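import Fermat.Agent.ES.MBetaGen

/-!
# S37, package F1, abstract part

Corollary of `BetaGen.exists_pair` and `BetaGen.exists_oneUnit`: `1 ∈ M M'` modulo `ϖ`.
-/

set_option autoImplicit false

namespace Fermat.Agent.S37.PairAbs

open Fermat.Agent.ES.Model Fermat.Agent.ES.Model.BetaGen

variable {F : Type*} [Field F]

/-- finite sums of products. -/
def IsSumProd (M M' : AddSubgroup F) (f : F) : Prop :=
  ∃ (n : ℕ) (x x' : Fin n → F), (∀ k, x k ∈ M) ∧ (∀ k, x' k ∈ M') ∧ f = ∑ k, x k * x' k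

theorem IsSumProd.zero (M M' : AddSubgroup F) : IsSumProd M M' 0 :=
  ⟨0, fun _ => 0, fun _ => 0, fun k => k.elim0, fun k => k.elim0, by simp⟩

theorem IsSumProd.add {M M' : AddSubgroup F} {f g : F} (hf : IsSumProd M M' f)
    (hg : IsSumProd M M' g) : IsSumProd M M' (f + g) := by
  obtain ⟨n, x, x', hx, hx', rfl⟩ := hf
  obtain ⟨m, y, y', hy, hy', rfl⟩ := hg
  refine ⟨n + m, Fin.append x y, Fin.append x' y', ?_, ?_, ?_⟩
  · intro k
    refine Fin.addCases (fun i => ?_) (fun i => ?_) k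
    · rw [Fin.append_left]; exact hx i
    · rw [Fin.append_right]; exact hy i
  · intro k
    refine Fin.addCases (fun i => ?_) (fun i => ?_) k
    · rw [Fin.append_left]; exact hx' i
    · rw [Fin.append_right]; exact hy' i
  · rw [Fin.sum_univ_add]
    simp only [Fin.append_left, Fin.append_right]

theorem IsSumProd.neg {M M' : AddSubgroup F} {f : F} (hf : IsSumProd M M' f) :
    IsSumProd M M' (-f) := by
  obtain ⟨n, x, x', hx, hx', rfl⟩ := hf
  refine ⟨n, fun k => -x k, x', fun k => M.neg_mem (hx k), hx', ?_⟩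
  rw [← Finset.sum_neg_distrib]
  exact Finset.sum_congr rfl fun k _ => by ring

/-- the subgroup `M M'`. -/
def prodGroup (M M' : AddSubgroup F) : AddSubgroup F where
  carrier := {f | IsSumProd M M' f}
  add_mem' := fun hf hg => hf.add hg
  zero_mem' := IsSumProd.zero M M'
  neg_mem' := fun hf => hf.neg

variable {O : ValuationSubring F} {ϖ : F} {B : Subring F}

theorem exists_sum (hO : IsUnif O ϖ) (hB : IsPre O ϖ B)
    (hded : IsDedekindDomain (B ⧸ Ideal.span {(⟨ϖ, hB.unif_mem⟩ : B)}))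
    (M M' : AddSubgroup F) (hM : IsLat O ϖ B M) (hM' : IsLat O ϖ B M')
    (hmul : ∀ x ∈ M, ∀ x' ∈ M', x * x' ∈ B)
    (hdiv : ∃ (c : ℕ) (ι : Type) (_ : Fintype ι) (g g' : ι → F), (∀ i, g i ∈ M) ∧
      (∀ i, g' i ∈ M') ∧ ϖ ^ c = ∑ i, g i * g' i) :
    ∃ (n : ℕ) (x x' : Fin n → F), (∀ k, x k ∈ M) ∧ (∀ k, x' k ∈ M') ∧
      DivO O ϖ 1 (∑ k, x k * x' k - 1) := by
  classical
  obtain ⟨f, ⟨n, x, x', hx, hx', rfl⟩, hf⟩ := exists_oneUnit hB (prodGroup M M') (by
      rintro b hb _ ⟨n, x, x', hx, hx', rfl⟩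
      refine ⟨n, fun k => b * x k, x', fun k => hM.smul b hb _ (hx k), hx', ?_⟩
      rw [Finset.mul_sum]
      exact Finset.sum_congr rfl fun k _ => by ring) (by
      intro n hn
      obtain ⟨x, x', hx, hx', hS⟩ := exists_pair hO hB hded M M' hM hM' hmul hdiv {n} (by
        intro n' hn'
        rw [Finset.mem_singleton] at hn'
        exact hn' ▸ hn)
      refine ⟨x * x', ⟨1, fun _ => x, fun _ => x', fun _ => hx, fun _ => hx', by simp⟩,
        ⟨x * x', hmul x hx x' hx'⟩, ⟨0, O.zero_mem, by simp⟩, hS n (Finset.mem_singleton_self n)⟩)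
  exact ⟨n, x, x', hx, hx', hf⟩

end Fermat.Agent.S37.PairAbs
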