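import Fermat.Agent.S37.Loc
import Fermat.Agent.S37.PairAbs
import Fermat.Agent.S37.PDefs

/-!
# S37, package F1 : `Pair A N (Cx x) E` for a chart with Dedekind reduction
-/

set_option autoImplicit false

noncomputable section

namespace Fermat.Agent.S37

open ModularCurve AlgebraicCurve Polynomial IntermediateField
open Fermat.Agent.S24 Fermat.Agent.S28 Fermat.Agent.ES Fermat.Agent.ES.QE Fermat.Agent.ES.Model
  Fermat.Agent.ES.IDvr Fermat.Agent.ES.Inst Fermat.Agent.ES.Model.BetaGen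

namespace PairCore

open Loc

variable {A : ValuationSubring Kb} {K0 : IntermediateField ℚ Kb}

section Core

variable [IsDiscreteValuationRing (R0 K0 A)] {N : ℕ} {D : QData (R0 K0 A) K0 (kA A)}
  (X : D.Coord) (ι : D.F0 →+* FF N)
  (hι : ∀ f : D.F0, ((ι f : FF N) : LaurentSeries Kb) = bc K0 (f : LaurentSeries K0))

include hι

/-- **F1, core statement.** -/
theorem pair_core [NeZero N] (hy : Transcendental Kb (ι X.x))
    [FiniteDimensional Kb⟮ι X.x⟯ (FF N)]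
    (hded : IsDedekindDomain (X.chart ⧸ Ideal.span {ϖB X}))
    (E : Divisor Kb (FF N)) (n : ℕ) (G G' : Fin n → D.F0)
    (hG : ∀ i, ι (G i) ∈ LatK (ι X.x) E) (hG' : ∀ i, ι (G' i) ∈ LatK (ι X.x) (-E))
    (hsum : ∑ i, G i * G' i = 1) :
    ∃ (r : ℕ) (f f' : Fin r → D.F0) (z : D.F0), (∀ k, f k ∈ Lat0 X ι E) ∧
      (∀ k, f' k ∈ Lat0 X ι (-E)) ∧ z ∈ D.gaussO ∧ ∑ k, f k * f' k - 1 = D.ϖF * z := by
  classical
  have hO := D.isUnif
  have hB : IsPre D.gaussO D.ϖF X.chart := (X.isChart (m := 1) (by simp)).isPre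
  have hmul : ∀ x ∈ Lat0 X ι E, ∀ x' ∈ Lat0 X ι (-E), x * x' ∈ X.chart := by
    intro x hx x' hx'
    refine mem_chart_of_ord X ι hι hy (D.gaussO.mul_mem _ _ hx.2 hx'.2) ?_
    intro v hv
    by_cases h0 : ι (x * x') = 0
    · rw [h0, Place.ord_zero]
    rw [map_mul] at h0 ⊢
    have hx0 : ι x ≠ 0 := left_ne_zero_of_mul h0
    have hx0' : ι x' ≠ 0 := right_ne_zero_of_mul h0
    rw [Place.ord_mul v hx0 hx0']
    have hx1 : ι x ∈ LatK (ι X.x) E := hx.1
    have hx1' : ι x' ∈ LatK (ι X.x) (-E) := hx'.1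
    have h1 := hx1 hx0 v hv
    have h2 := hx1' hx0' v hv
    rw [Finsupp.neg_apply] at h2
    omega
  have hscale : ∀ (E' : Divisor Kb (FF N)) (f : D.F0) (c : ℕ), ι f ∈ LatK (ι X.x) E' →
      ι (D.ϖF ^ c * f) ∈ LatK (ι X.x) E' := by
    intro E' f c hf h0 v hv
    rw [map_mul, map_pow] at h0 ⊢
    have hϖ0 : ι D.ϖF ^ c ≠ 0 := left_ne_zero_of_mul h0
    have hf0 : ι f ≠ 0 := right_ne_zero_of_mul h0
    rw [Place.ord_mul v hϖ0 hf0, FF.ord_pow, ord_iota_unif ι hι]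
    have := hf hf0 v hv
    omega
  have hdiv : ∃ (c : ℕ) (ι' : Type) (_ : Fintype ι') (g g' : ι' → D.F0),
      (∀ i, g i ∈ Lat0 X ι E) ∧ (∀ i, g' i ∈ Lat0 X ι (-E)) ∧ D.ϖF ^ c = ∑ i, g i * g' i := by
    choose c1 hc1 using fun i => exists_pow_mul_mem_gaussO (G i)
    choose c2 hc2 using fun i => exists_pow_mul_mem_gaussO (G' i)
    set a1 := Finset.univ.sup c1 with ha1
    set a2 := Finset.univ.sup c2 with ha2
    refine ⟨a1 + a2, Fin n, inferInstance, fun i => D.ϖF ^ a1 * G i, fun i => D.ϖF ^ a2 * G' i,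
      fun i => ⟨hscale _ _ _ (hG i), hc1 i a1 (Finset.le_sup (Finset.mem_univ i))⟩,
      fun i => ⟨hscale _ _ _ (hG' i), hc2 i a2 (Finset.le_sup (Finset.mem_univ i))⟩, ?_⟩
    have : ∀ i, D.ϖF ^ a1 * G i * (D.ϖF ^ a2 * G' i) = D.ϖF ^ (a1 + a2) * (G i * G' i) := by
      intro i
      rw [pow_add]
      ring
    simp only [this]
    rw [← Finset.mul_sum, hsum, mul_one]
  obtain ⟨r, x, x', hx, hx', y, hy', hrel⟩ := PairAbs.exists_sum hO hB hded
    (Lat0 X ι E) (Lat0 X ι (-E)) (isLat_Lat0 X ι hι E) (isLat_Lat0 X ι hι (-E)) hmul hdiv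
  exact ⟨r, x, x', y, hx, hx', hy', by rw [hrel, pow_one]⟩

end Core

/-- reduction of `1 + c z`. -/
theorem redFun_eq_one {N : ℕ} {s z : FF N} {c : Kb} (hc : c ∈ A.nonunits)
    (hz : Gauss.IsGInt A N z) (h : s - 1 = algebraMap Kb (FF N) c * z) :
    Gauss.redFun A N s = 1 := by
  have hcA : c ∈ A := A.nonunits_subset hc
  have hs : s = 1 + algebraMap Kb (FF N) c * z := by rw [← h]; ring
  have hcG : Gauss.IsGInt A N (algebraMap Kb (FF N) c) :=
    Gauss.IsGInt.of_isIntA (by rw [Gauss.coe_algebraMap]; exact Gauss.isIntA_C hcA)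
  have h1G : Gauss.IsGInt A N (1 : FF N) := Gauss.IsGInt.of_isIntA IsPrimA.one.1
  have hres : IsLocalRing.residue A ⟨c, hcA⟩ = 0 := by
    rw [IsLocalRing.residue_eq_zero_iff]
    exact (A.mem_nonunits_iff_exists_mem_maximalIdeal.1 hc).2
  rw [hs, Gauss.redFun_add h1G (hcG.mul hz), Gauss.redFun_one, Gauss.redFun_mul hcG hz,
    Gauss.redFun_algebraMap hcA, hres, map_zero, zero_mul, add_zero]

/-- the general wrapper: choice of the number field. -/
theorem pair_of (N ℓ : ℕ) [NeZero N] (hℓ : ℓ.Prime) (hℓN : ¬ ℓ ∣ N)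
    (A : ValuationSubring Kb) (hA : A.LiesOverPrime ℓ) (x : FF N) (hxt : Transcendental Kb x)
    [hfd : FiniteDimensional Kb⟮x⟯ (FF N)]
    (hX : ∃ (K2 : IntermediateField ℚ Kb) (_ : FiniteDimensional ℚ K2) (S0 : Finset (FF N)),
      ∀ K0 : IntermediateField ℚ Kb, FiniteDimensional ℚ K0 → K2 ≤ K0 →
      ∀ [IsDiscreteValuationRing (R0 K0 A)] (D : QData (R0 K0 A) K0 (kA A)),
        D.F0 = F0 K0 N → D.res = res0 K0 A → ∀ ι : D.F0 →+* FF N,
        (∀ f : D.F0, ((ι f : FF N) : LaurentSeries Kb) = bc K0 (f : LaurentSeries K0)) →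
        (∀ f ∈ S0, ∃ f0 : D.F0, ι f0 = f) →
        ∃ X : D.Coord, ι X.x = x ∧ IsDedekindDomain (X.chart ⧸ Ideal.span {ϖB X}))
    (E : Divisor Kb (FF N)) : Pair A N (Cx x) E := by
  classical
  have hc0 : CharZero Kb⟮x⟯ := charZero_of_injective_algebraMap (algebraMap Kb Kb⟮x⟯).injective
  have halg : Algebra.IsAlgebraic Kb⟮x⟯ (FF N) := Algebra.IsAlgebraic.of_finite _ _
  have hsep : Algebra.IsSeparable Kb⟮x⟯ (FF N) := Algebra.IsAlgebraic.isSeparable_of_perfectField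
  obtain ⟨n, G, G', hG, hG', hsum⟩ := LocInv.exists_witness hxt E
  obtain ⟨K1, hK1, hQD⟩ := exists_QData N ℓ hℓ hℓN A hA
  obtain ⟨K2, hK2, S0, hX⟩ := hX
  obtain ⟨K0, hK0, hle, hS⟩ := exists_K0 N (K1 ⊔ K2)
    (S0 ∪ Finset.univ.image G ∪ Finset.univ.image G')
  have hdvr := isDVR K0 A hℓ hA
  obtain ⟨D, hF, hres⟩ := hQD K0 hK0 (le_sup_left.trans hle)
  let ι : D.F0 →+* FF N :=
    ((bc K0).comp (algebraMap D.F0 (LaurentSeries K0))).codRestrict (modularFunctionFieldBar N)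
      (fun f => bc_mem K0 N (hF ▸ f.2))
  have hι : ∀ f : D.F0, ((ι f : FF N) : LaurentSeries Kb) = bc K0 (f : LaurentSeries K0) :=
    fun _ => rfl
  have hιinj : Function.Injective ι := ι.injective
  have lift : ∀ f ∈ S0 ∪ Finset.univ.image G ∪ Finset.univ.image G', ∃ f0 : D.F0, ι f0 = f := by
    intro f hf
    obtain ⟨f0, hf0, h⟩ := hS f hf
    exact ⟨⟨f0, hF ▸ hf0⟩, Subtype.ext h⟩
  obtain ⟨X, hιx, hded⟩ := hX K0 hK0 (le_sup_right.trans hle) D hF hres ι hι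
    (fun f hf => lift f (by simp [hf]))
  subst hιx
  have l1 : ∀ i, ∃ f0 : D.F0, ι f0 = G i := fun i => lift _ (by simp)
  have l1' : ∀ i, ∃ f0 : D.F0, ι f0 = G' i := fun i => lift _ (by simp)
  choose G1 hG1 using l1
  choose G1' hG1' using l1'
  obtain ⟨r, f, f', z, hf, hf', hz, hrel⟩ := pair_core X ι hι hxt hded E n G1 G1'
    (fun i => by rw [hG1]; exact hG i)
    (fun i => by
      rw [hG1']
      intro hne v hv
      have := hG' i hne v hv
      rw [Finsupp.neg_apply]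
      omega)
    (hιinj (by
      rw [map_sum, map_one, ← hsum]
      exact Finset.sum_congr rfl fun i _ => by rw [map_mul, hG1, hG1']))
  have hmem : ∀ (E' : Divisor Kb (FF N)) (g : D.F0), g ∈ Lat0 X ι E' →
      ι g ∈ Lat A N (Cx (ι X.x)) E' := by
    intro E' g hg
    refine ⟨isGInt_of_mem_gaussO hres ι hι hg.2, ?_⟩
    by_cases h0 : ι g = 0
    · exact Or.inl h0
    · have h1 : ι g ∈ LatK (ι X.x) E' := hg.1
      exact Or.inr (h1 h0)
  refine ⟨r, fun k => ι (f k), fun k => ι (f' k), fun k => hmem _ _ (hf k),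
    fun k => hmem _ _ (hf' k), ?_⟩
  refine redFun_eq_one (kap_unif_mem hres) (isGInt_of_mem_gaussO hres ι hι hz) ?_
  rw [← iota_unif ι hι, ← map_mul, ← hrel, map_sub, map_sum, map_one]
  simp only [map_mul]

end PairCore

end Fermat.Agent.S37
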