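import Fermat.Agent.S37.PairCore

/-!
# S37, package F1 : `pair_xF`, `pair_jinv`
-/

set_option autoImplicit false

noncomputable section

namespace Fermat.Agent.S37

open ModularCurve AlgebraicCurve Polynomial IntermediateField
open Fermat.Agent.S24 Fermat.Agent.S28 Fermat.Agent.ES Fermat.Agent.ES.QE Fermat.Agent.ES.Model
  Fermat.Agent.ES.IDvr Fermat.Agent.ES.Inst Fermat.Agent.ES.Inst.InstFinal
  Fermat.Agent.ES.Inst.InstCoord

theorem pair_xF (M ℓ : ℕ) [NeZero M] (hℓ : ℓ.Prime) (hℓM : ¬ ℓ ∣ M) (A : ValuationSubring Kb)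
    (hA : A.LiesOverPrime ℓ) (Z : ZCoord M ℓ) (hU : Z.Unram) (D : Divisor Kb (FF M)) :
    Pair A M (Cx Z.xF) D := by
  have hxt := transcendental_xF Z
  have hfd := finiteDimensional_xF Z
  obtain ⟨K2, hK2, hDed⟩ := hDed M ℓ hℓ hℓM A hA
  refine PairCore.pair_of M ℓ hℓ hℓM A hA Z.xF hxt ⟨K2, hK2, {Z.xF}, ?_⟩ D
  intro K0 hK0 hle hdvr D hF hres ι hι hlift
  have hchar : CharP (kA A) ℓ := ResField.charP hℓ hA
  obtain ⟨x0, hx0⟩ := hlift Z.xF (by simp)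
  have hx : zS K0 Z.xZ ∈ D.F0 := by
    have h1 : bc K0 (x0 : LaurentSeries K0) = bc K0 (zS K0 Z.xZ) := by
      rw [← hι, hx0]
      exact (coeffMap_zS (algebraMap K0 Kb) Z.xZ).symm
    have h2 : (x0 : LaurentSeries K0) = zS K0 Z.xZ :=
      QE.coeffMap_injective (algebraMap K0 Kb).injective h1
    rw [← h2]
    exact x0.2
  have hιx : ι (toCoord Z D hx).x = Z.xF := by
    apply Subtype.ext
    rw [hι, coe_toCoord_x]
    exact coeffMap_zS (algebraMap K0 Kb) Z.xZ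
  refine ⟨toCoord Z D hx, hιx, hDed K0 hK0 hle D hF hres _ ι hι (by rw [hιx]; exact hxt)
    (by rw [hιx]; exact hfd) (gFin _ Z.a) ?_ ?_⟩
  · rw [gFin_map]
    refine separable_gFin _ _ ?_
    rw [Ne, CharP.intCast_eq_zero_iff (kA A) ℓ]
    exact Z.a_prim
  · intro a ha v hv
    rw [gFin_map] at ha
    rw [hιx] at hv ⊢
    exact unram_fin Z hU a ha v hv

theorem pair_jinv (M ℓ : ℕ) [NeZero M] (hℓ : ℓ.Prime) (hℓM : ¬ ℓ ∣ M) (A : ValuationSubring Kb)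
    (hA : A.LiesOverPrime ℓ) (D : Divisor Kb (FF M)) :
    Pair A M (Cx (jF M)⁻¹) D := by
  have hxt : Transcendental Kb (jF M)⁻¹ := RamJU.transcendental_jF_inv M
  have hfd : FiniteDimensional Kb⟮(jF M)⁻¹⟯ (FF M) := RamJU.finiteDimensional_jF_inv M
  obtain ⟨K2, hK2, hDed⟩ := hDed M ℓ hℓ hℓM A hA
  refine PairCore.pair_of M ℓ hℓ hℓM A hA (jF M)⁻¹ hxt ⟨K2, hK2, ∅, ?_⟩ D
  intro K0 hK0 hle hdvr D hF hres ι hι _
  have hιj : ι D.jF = jF M := by
    apply Subtype.ext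
    rw [hι, coe_jF' M]
    exact coeffMap_jqModC _
  have hιx : ι D.coordJinv.x = (jF M)⁻¹ := by
    have h1 : D.coordJinv.x = (D.coordJ.x)⁻¹ := D.coordJ.inv_x _ _
    rw [h1, map_inv₀, D.coordJ_x, hιj]
  refine ⟨D.coordJinv, hιx, hDed K0 hK0 hle D hF hres _ ι hι (by rw [hιx]; exact hxt)
    (by rw [hιx]; exact hfd) (gInf _ 1728) (by rw [gInf_map]; exact separable_gInf _ _) ?_⟩
  intro a ha v hv
  rw [gInf_map] at ha
  rw [hιx] at hv ⊢
  exact RamJU.hU_jinv M (RingHom.id Kb) a (by simpa [gInf] using ha) v hv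

end Fermat.Agent.S37
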