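import Fermat.Agent.S37.PDefs
import Fermat.Agent.S37.HI2
import Fermat.Agent.S37.KT
import Fermat.Agent.S37.Quot
import Fermat.Agent.ES.InjAll

/-!
# S37 : THE PLAN (statements as stubs in `Fermat.Agent.S37.Plan`, assembly compiled)
-/

set_option autoImplicit false
set_option linter.style.haveILetI false

noncomputable section

namespace Fermat.Agent.S37.Plan

open ModularCurve AlgebraicCurve Fermat.Agent.S24 Fermat.Agent.ES Fermat.Agent.ES.Inst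

variable {A : ValuationSubring Kb} {M : ℕ}

/-! ### [LAT] S37/Lat.lean : formal properties of `Lat`, `Pair`, `Triv` (imports PDefs) -/

theorem Lat.mono {c c' : Place Kb (FF M) → Prop} (h : ∀ v, c v → c' v) (D : Divisor Kb (FF M))
    {f : FF M} (hf : f ∈ Lat A M c' D) : f ∈ Lat A M c D := sorry

theorem Lat.add {c : Place Kb (FF M) → Prop} {D : Divisor Kb (FF M)} {f g : FF M}
    (hf : f ∈ Lat A M c D) (hg : g ∈ Lat A M c D) : f + g ∈ Lat A M c D := sorry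

theorem Lat.neg {c : Place Kb (FF M) → Prop} {D : Divisor Kb (FF M)} {f : FF M}
    (hf : f ∈ Lat A M c D) : -f ∈ Lat A M c D := sorry

theorem Lat.zero (c : Place Kb (FF M) → Prop) (D : Divisor Kb (FF M)) :
    (0 : FF M) ∈ Lat A M c D := sorry

theorem Lat.one (c : Place Kb (FF M) → Prop) : (1 : FF M) ∈ Lat A M c 0 := sorry

theorem Lat.sum {c : Place Kb (FF M) → Prop} {D : Divisor Kb (FF M)} {ι : Type*} (s : Finset ι)
    (f : ι → FF M) (hf : ∀ i ∈ s, f i ∈ Lat A M c D) : ∑ i ∈ s, f i ∈ Lat A M c D := sorry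

theorem Lat.mul {c : Place Kb (FF M) → Prop} {D D' : Divisor Kb (FF M)} {f g : FF M}
    (hf : f ∈ Lat A M c D) (hg : g ∈ Lat A M c D') : f * g ∈ Lat A M c (D + D') := sorry

theorem Lat.pow {c : Place Kb (FF M) → Prop} {D : Divisor Kb (FF M)} {f : FF M}
    (hf : f ∈ Lat A M c D) (n : ℕ) : f ^ n ∈ Lat A M c (n • D) := sorry

theorem Pair.mono {c c' : Place Kb (FF M) → Prop} (h : ∀ v, c v → c' v) {D : Divisor Kb (FF M)}
    (hP : Pair A M c' D) : Pair A M c D := sorry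

theorem Pair.neg {c : Place Kb (FF M) → Prop} {D : Divisor Kb (FF M)}
    (hP : Pair A M c D) : Pair A M c (-D) := sorry

theorem Triv.zero (c : Place Kb (FF M) → Prop) : Triv A M c 0 := sorry

theorem Triv.add {c : Place Kb (FF M) → Prop} {E E' : Divisor Kb (FF M)}
    (h : Triv A M c E) (h' : Triv A M c E') : Triv A M c (E + E') := sorry

theorem Triv.sum {c : Place Kb (FF M) → Prop} {ι : Type*} (s : Finset ι)
    (E : ι → Divisor Kb (FF M)) (h : ∀ i ∈ s, Triv A M c (E i)) : Triv A M c (∑ i ∈ s, E i) := sorry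

/-! ### [F1] S37/Loc.lean : the only place where number fields, QE charts, Dedekind enter -/

theorem pair_xF (M ℓ : ℕ) [NeZero M] (hℓ : ℓ.Prime) (hℓM : ¬ ℓ ∣ M) (A : ValuationSubring Kb)
    (hA : A.LiesOverPrime ℓ) (Z : ZCoord M ℓ) (hU : Z.Unram) (D : Divisor Kb (FF M)) :
    Pair A M (Cx Z.xF) D := sorry

theorem pair_jinv (M ℓ : ℕ) [NeZero M] (hℓ : ℓ.Prime) (hℓM : ¬ ℓ ∣ M) (A : ValuationSubring Kb)
    (hA : A.LiesOverPrime ℓ) (D : Divisor Kb (FF M)) :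
    Pair A M (Cx (jF M)⁻¹) D := sorry

/-! ### [INCL] S37/Incl.lean -/

theorem nc_le_Cx {ℓ : ℕ} (Z : ZCoord M ℓ) (v : Place Kb (FF M)) (h : nc M v) : Cx Z.xF v := sorry

theorem cu_le_Cx (v : Place Kb (FF M)) (h : cu A M v) : Cx (jF M)⁻¹ v := sorry

/-! ### [STAB] S37/Stab.lean -/

theorem galStable_nc (A : ValuationSubring Kb) (M : ℕ) : GalStable A M (nc M) := sorry

theorem galStable_cu (A : ValuationSubring Kb) (M : ℕ) : GalStable A M (cu A M) := sorry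

theorem heckeStable_nc (M ℓ : ℕ) [NeZero M] [Fact ℓ.Prime] (hℓM : ¬ ℓ ∣ M) :
    HeckeStable M ℓ (nc M) := sorry

theorem heckeStable_cu (A : ValuationSubring Kb) (M ℓ : ℕ) [NeZero M] [Fact ℓ.Prime]
    (hℓM : ¬ ℓ ∣ M) : HeckeStable M ℓ (cu A M) := sorry

/-- [TPOS] -/
theorem heckeDiv_nonneg (M ℓ : ℕ) [NeZero M] [NeZero ℓ] {c : Place Kb (FF M) → Prop}
    (hc : HeckeStable M ℓ c) (E : Divisor Kb (FF M)) (hE : ∀ v, c v → 0 ≤ E v)
    (v : Place Kb (FF M)) (hv : c v) : 0 ≤ heckeDiv M ℓ E v := sorry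

/-! ### [RED] S37/Red.lean : Gauss valuation versus Galois and Hecke -/

theorem isGInt_gal {σ : GQ} (hσ : σ ∈ A.decompositionSubgroup ℚ) {f : FF M}
    (hf : Gauss.IsGInt A M f) : Gauss.IsGInt A M (gal M σ f) := sorry

theorem redFun_gal_eq_zero {σ : GQ} (hσ : σ ∈ A.decompositionSubgroup ℚ) {f : FF M}
    (hf : Gauss.IsGInt A M f) (h0 : Gauss.redFun A M f = 0) :
    Gauss.redFun A M (gal M σ f) = 0 := sorry

theorem redFun_gal_of_inertia {τ : GQ} (hτ : τ ∈ A.inertiaSubgroupIn ℚ) {f : FF M}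
    (hf : Gauss.IsGInt A M f) : Gauss.redFun A M (gal M τ f) = Gauss.redFun A M f := sorry

theorem isGInt_heckeMul (M ℓ : ℕ) [NeZero M] [Fact ℓ.Prime] (hℓM : ¬ ℓ ∣ M)
    (A : ValuationSubring Kb) (hA : A.LiesOverPrime ℓ) {f : FF M} (hf : Gauss.IsGInt A M f) :
    Gauss.IsGInt A M (heckeMul M ℓ f) := sorry

theorem redFun_heckeMul (M ℓ : ℕ) [NeZero M] [Fact ℓ.Prime] (hℓM : ¬ ℓ ∣ M)
    (A : ValuationSubring Kb) (hA : A.LiesOverPrime ℓ) (φ : GQ) (hφ : A.IsFrobeniusAt φ ℓ)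
    {f : FF M} (hf : Gauss.IsGInt A M f) :
    Gauss.redFun A M (heckeMul M ℓ f) =
      Gauss.redFun A M (gal M φ f) * Gauss.redFun A M (gal M φ⁻¹ f) ^ ℓ := sorry

/-! ### [LATOP] S37/LatOp.lean : Galois and Hecke on `Lat` (imports Lat, Stab, Red) -/

theorem Lat.gal_mem {c : Place Kb (FF M) → Prop} (hc : GalStable A M c) {σ : GQ}
    (hσ : σ ∈ A.decompositionSubgroup ℚ) {D : Divisor Kb (FF M)} {f : FF M}
    (hf : f ∈ Lat A M c D) : gal M σ f ∈ Lat A M c (ag M σ • D) := sorry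

theorem Lat.heckeMul_mem (M ℓ : ℕ) [NeZero M] [Fact ℓ.Prime] (hℓM : ¬ ℓ ∣ M)
    (A : ValuationSubring Kb) (hA : A.LiesOverPrime ℓ) {c : Place Kb (FF M) → Prop}
    (hc : HeckeStable M ℓ c) {D : Divisor Kb (FF M)} {f : FF M}
    (hf : f ∈ Lat A M c D) : heckeMul M ℓ f ∈ Lat A M c (heckeDiv M ℓ D) := sorry

/-! ### [ZABS] S37/ZAbs.lean (Mathlib only) -/

theorem exists_comb {F : Type*} [Field F] (B : Subring F) (sm : AddSubgroup F)
    (hsm : ∀ b ∈ B, ∀ x ∈ sm, b * x ∈ sm) (φ : F ≃+* F) (hφB : ∀ x, φ x ∈ B ↔ x ∈ B)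
    (hφsm : ∀ x, φ x ∈ sm ↔ x ∈ sm) (L L' : AddSubgroup F)
    (hLL' : ∀ f ∈ L, ∀ f' ∈ L', f * f' ∈ B)
    (hpair : ∃ (n : ℕ) (f f' : Fin n → F), (∀ k, f k ∈ L) ∧ (∀ k, f' k ∈ L') ∧
      ∑ k, f k * f' k - 1 ∈ sm) (ℓ : ℕ) :
    ∃ (r : ℕ) (b g g' : Fin r → F), (∀ j, b j ∈ B) ∧ (∀ j, g j ∈ L) ∧ (∀ j, g' j ∈ L') ∧
      ∑ j, b j * (φ (g j * g' j) * (φ.symm (g j * g' j)) ^ ℓ) - 1 ∈ sm := sorry

/-! ### [Z2] S37/Z2.lean -/

theorem triv_inertia {c : Place Kb (FF M) → Prop} (hc : GalStable A M c) {τ : GQ}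
    (hτ : τ ∈ A.inertiaSubgroupIn ℚ) {D : Divisor Kb (FF M)} (hP : Pair A M c D) :
    Triv A M c (ag M τ • D - D) ∧ Triv A M c (-(ag M τ • D - D)) := sorry

/-! ### [Z3] S37/Z3.lean -/

theorem triv_theta (M ℓ : ℕ) [NeZero M] [Fact ℓ.Prime] (hℓM : ¬ ℓ ∣ M)
    (A : ValuationSubring Kb) (hA : A.LiesOverPrime ℓ) (φ : GQ) (hφ : A.IsFrobeniusAt φ ℓ)
    {c : Place Kb (FF M) → Prop} (hc : GalStable A M c) (hT : HeckeStable M ℓ c)
    {D₁ : Divisor Kb (FF M)} (hP : Pair A M c D₁) :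
    Triv A M c (thetaDiv M ℓ φ D₁) ∧ Triv A M c (-thetaDiv M ℓ φ D₁) := sorry

/-! ### [CONST] S37/Const.lean -/

theorem const_of_lat (M ℓ : ℕ) [NeZero M] (hℓ : ℓ.Prime) (hℓM : ¬ ℓ ∣ M)
    (A : ValuationSubring Kb) (hA : A.LiesOverPrime ℓ) (b₁ b₂ : FF M)
    (h₁ : b₁ ∈ Lat A M (nc M) 0) (h₂ : b₂ ∈ Lat A M (cu A M) 0)
    (h : Gauss.redFun A M b₁ = Gauss.redFun A M b₂) :
    ∃ κ : Gauss.kA A, Gauss.redFun A M b₁ = HahnSeries.C κ := sorry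

/-! ### [Z1] S37/Z1.lean -/

theorem principal_of_triv (M ℓ : ℕ) [NeZero M] (hℓ : ℓ.Prime) (hℓM : ¬ ℓ ∣ M)
    (A : ValuationSubring Kb) (hA : A.LiesOverPrime ℓ) (m : ℕ) (hℓm : ¬ ℓ ∣ m)
    (E : Divisor Kb (FF M)) (hE : (m • E).IsPrincipal)
    (h1 : Triv A M (nc M) E) (h2 : Triv A M (nc M) (-E))
    (h3 : Triv A M (cu A M) E) (h4 : Triv A M (cu A M) (-E)) : E.IsPrincipal := sorry

/-! ### [CORE] (assembly, compiled) -/

/-- the divisor representing an element of `M0`. -/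
def m0Div (M ℓ : ℕ) [NeZero M] [NeZero ℓ] (φ : GQ) {n : ℕ} (τ : Fin n → GQ)
    (Ds : Fin n → Divisor Kb (FF M)) (D' : Divisor Kb (FF M)) : Divisor Kb (FF M) :=
  ∑ i, (ag M (τ i) • Ds i - Ds i) +
    (ag M φ • ag M φ • D' - heckeDiv M ℓ (ag M φ • D') + ℓ • D')

theorem core (M ℓ : ℕ) [NeZero M] [Fact ℓ.Prime] (hℓM : ¬ ℓ ∣ M)
    (A : ValuationSubring Kb) (hA : A.LiesOverPrime ℓ) (Z : ZCoord M ℓ) (hU : Z.Unram)
    (φ : GQ) (hφ : A.IsFrobeniusAt φ ℓ) (m : ℕ) (hℓm : ¬ ℓ ∣ m) {n : ℕ} (τ : Fin n → GQ)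
    (hτ : ∀ i, τ i ∈ A.inertiaSubgroupIn ℚ) (Ds : Fin n → Divisor Kb (FF M))
    (D' : Divisor Kb (FF M)) (hE : (m • m0Div M ℓ φ τ Ds D').IsPrincipal) :
    (m0Div M ℓ φ τ Ds D').IsPrincipal := by
  have hℓ : ℓ.Prime := Fact.out
  have hnc : ∀ D, Pair A M (nc M) D := fun D =>
    Pair.mono (nc_le_Cx Z) (pair_xF M ℓ hℓ hℓM A hA Z hU D)
  have hcu : ∀ D, Pair A M (cu A M) D := fun D =>
    Pair.mono cu_le_Cx (pair_jinv M ℓ hℓ hℓM A hA D)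
  have hth : ag M φ • ag M φ • D' - heckeDiv M ℓ (ag M φ • D') + ℓ • D' =
      thetaDiv M ℓ φ (ag M φ • D') := by
    have e : ag M φ⁻¹ = (ag M φ)⁻¹ := map_inv _ _
    rw [thetaDiv, e, inv_smul_smul]
  have key : ∀ c : Place Kb (FF M) → Prop, GalStable A M c → HeckeStable M ℓ c →
      (∀ D, Pair A M c D) →
      Triv A M c (m0Div M ℓ φ τ Ds D') ∧ Triv A M c (-m0Div M ℓ φ τ Ds D') := by
    intro c hc hT hP
    constructor
    · rw [m0Div, hth]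
      exact Triv.add (Triv.sum _ _ fun i _ => (triv_inertia hc (hτ i) (hP _)).1)
        (triv_theta M ℓ hℓM A hA φ hφ hc hT (hP _)).1
    · rw [m0Div, hth, neg_add, ← Finset.sum_neg_distrib]
      exact Triv.add (Triv.sum _ _ fun i _ => (triv_inertia hc (hτ i) (hP _)).2)
        (triv_theta M ℓ hℓM A hA φ hφ hc hT (hP _)).2
  obtain ⟨h1, h2⟩ := key _ (galStable_nc A M) (heckeStable_nc M ℓ hℓM) hnc
  obtain ⟨h3, h4⟩ := key _ (galStable_cu A M) (heckeStable_cu A M ℓ hℓM) hcu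
  exact principal_of_triv M ℓ hℓ hℓM A hA m hℓm _ hE h1 h2 h3 h4

/-! ### [LVL] S37/Lvl.lean : change of level `N → N r` -/

/-- pull back of divisors along `FF N ⊆ FF (N r)`. -/
def pull (N r : ℕ) [NeZero N] [NeZero r] : Divisor Kb (FF N) →+ Divisor Kb (FF (N * r)) :=
  haveI := hasPrincipalDivisors_FF (N * r)
  Divisor.pullbackAlong (heckeAlphaBar Kb N r) (HI.integralAlong _)

theorem pull_smul (N r : ℕ) [NeZero N] [NeZero r] (σ : GQ) (D : Divisor Kb (FF N)) :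
    pull N r (ag N σ • D) = ag (N * r) σ • pull N r D := sorry

theorem pull_heckeDiv (N r ℓ : ℕ) [NeZero N] [NeZero r] [Fact ℓ.Prime] (hℓ : ¬ ℓ ∣ N * r)
    (D : Divisor Kb (FF N)) :
    pull N r (heckeDiv N ℓ D) = heckeDiv (N * r) ℓ (pull N r D) := sorry

theorem isPrincipal_of_pull (N r m : ℕ) [NeZero N] [NeZero r]
    (hd : Nat.Coprime (finrankAlong Kb (heckeAlphaBar Kb N r)) m) (D : Divisor Kb (FF N))
    (h1 : (m • D).IsPrincipal) (h2 : (pull N r D).IsPrincipal) : D.IsPrincipal := sorry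

theorem isPrincipal_pull (N r : ℕ) [NeZero N] [NeZero r] {D : Divisor Kb (FF N)}
    (h : D.IsPrincipal) : (pull N r D).IsPrincipal :=
  haveI := hasPrincipalDivisors_FF (N * r)
  Divisor.isPrincipal_pullbackAlong _ _ h

/-- `[FF (N r) : FF N] = r + 1` for a prime `r ∤ N` (KDeg / helper3's KT / LevelChange). -/
theorem finrank_alpha (N r : ℕ) [NeZero N] [Fact r.Prime] (hr : ¬ r ∣ N) :
    finrankAlong Kb (heckeAlphaBar Kb N r) = r + 1 := sorry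

theorem pull_m0Div (N r ℓ : ℕ) [NeZero N] [NeZero r] [Fact ℓ.Prime] (hℓ : ¬ ℓ ∣ N * r) (φ : GQ)
    {n : ℕ} (τ : Fin n → GQ) (Ds : Fin n → Divisor Kb (FF N)) (D' : Divisor Kb (FF N)) :
    pull N r (m0Div N ℓ φ τ Ds D') =
      m0Div (N * r) ℓ φ τ (fun i => pull N r (Ds i)) (pull N r D') := by
  simp only [m0Div, map_add, map_sub, map_sum, map_nsmul, pull_smul, pull_heckeDiv N r ℓ hℓ]

/-- [CORE] at level `N r` implies [CORE] at level `N`. -/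
theorem core_of_mul (N r ℓ : ℕ) [NeZero N] [NeZero r] [Fact ℓ.Prime] (hℓ : ¬ ℓ ∣ N * r)
    (A : ValuationSubring Kb) (hA : A.LiesOverPrime ℓ) (Z : ZCoord (N * r) ℓ) (hU : Z.Unram)
    (φ : GQ) (hφ : A.IsFrobeniusAt φ ℓ) (m : ℕ) (hℓm : ¬ ℓ ∣ m)
    (hd : Nat.Coprime (finrankAlong Kb (heckeAlphaBar Kb N r)) m) {n : ℕ} (τ : Fin n → GQ)
    (hτ : ∀ i, τ i ∈ A.inertiaSubgroupIn ℚ) (Ds : Fin n → Divisor Kb (FF N))
    (D' : Divisor Kb (FF N)) (hE : (m • m0Div N ℓ φ τ Ds D').IsPrincipal) :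
    (m0Div N ℓ φ τ Ds D').IsPrincipal := by
  refine isPrincipal_of_pull N r m hd _ hE ?_
  rw [pull_m0Div N r ℓ hℓ]
  refine core (N * r) ℓ hℓ A hA Z hU φ hφ m hℓm τ hτ _ _ ?_
  rw [← pull_m0Div N r ℓ hℓ, ← map_nsmul]
  exact isPrincipal_pull N r hE

/-- [CORE] for all `ℓ ∤ N m`. -/
theorem core_all (N ℓ : ℕ) [NeZero N] [Fact ℓ.Prime] (hℓN : ¬ ℓ ∣ N)
    (A : ValuationSubring Kb) (hA : A.LiesOverPrime ℓ)
    (φ : GQ) (hφ : A.IsFrobeniusAt φ ℓ) (m : ℕ) (hℓm : ¬ ℓ ∣ m) {n : ℕ} (τ : Fin n → GQ)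
    (hτ : ∀ i, τ i ∈ A.inertiaSubgroupIn ℚ) (Ds : Fin n → Divisor Kb (FF N))
    (D' : Divisor Kb (FF N)) (hE : (m • m0Div N ℓ φ τ Ds D').IsPrincipal) :
    (m0Div N ℓ φ τ Ds D').IsPrincipal := by
  have hℓ : ℓ.Prime := Fact.out
  by_cases h5 : 5 ≤ ℓ
  · obtain ⟨Z, hZ⟩ := Inst.exists_jCoord N ℓ hℓ h5
    exact core N ℓ hℓN A hA Z hZ φ hφ m hℓm τ hτ Ds D' hE
  have h23 : ℓ = 2 ∨ ℓ = 3 := by
    have h := hℓ.two_le
    have h4 : ℓ ≠ 4 := by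
      rintro rfl
      exact absurd hℓ (by norm_num)
    omega
  rcases h23 with rfl | rfl
  · by_cases h3 : 3 ∣ N
    · obtain ⟨Z, hZ⟩ := Inst.exists_t3Coord N h3
      exact core N 2 hℓN A hA Z hZ φ hφ m hℓm τ hτ Ds D' hE
    · haveI : Fact (Nat.Prime 3) := ⟨by norm_num⟩
      obtain ⟨Z, hZ⟩ := Inst.exists_t3Coord (N * 3) (dvd_mul_left 3 N)
      have h1' : ¬ 2 ∣ N * 3 := by omega
      refine core_of_mul N 3 2 h1' A hA Z hZ φ hφ m hℓm ?_ τ hτ Ds D' hE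
      rw [finrank_alpha N 3 h3]
      have : Nat.Coprime 2 m := (Nat.Prime.coprime_iff_not_dvd (by norm_num)).2 hℓm
      exact Nat.Coprime.pow_left 2 this
  · by_cases h3 : 2 ∣ N
    · obtain ⟨Z, hZ⟩ := Inst.exists_t2Coord N h3
      exact core N 3 hℓN A hA Z hZ φ hφ m hℓm τ hτ Ds D' hE
    · haveI : Fact (Nat.Prime 2) := ⟨by norm_num⟩
      obtain ⟨Z, hZ⟩ := Inst.exists_t2Coord (N * 2) (dvd_mul_left 2 N)
      have h1' : ¬ 3 ∣ N * 2 := by omega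
      refine core_of_mul N 2 3 h1' A hA Z hZ φ hφ m hℓm ?_ τ hτ Ds D' hE
      rw [finrank_alpha N 2 h3]
      exact (Nat.Prime.coprime_iff_not_dvd (by norm_num)).2 hℓm

/-! ### [FIN] S37/Fin.lean + S37.lean -/

theorem hstar (N p : ℕ) [NeZero N] (hcomm : HeckeOperatorsCommuteBar N) :
    letI := heckeModuleBar N
    ∀ (_ : SMulCommClass GQ HeckeAlg (JZero N)),
    ∀ (ℓ : ℕ) (hℓ : ℓ.Prime), ¬ ℓ ∣ N * p → ∀ A : ValuationSubring Kb,
      A.LiesOverPrime ℓ → ∀ φ : GQ, A.IsFrobeniusAt φ ℓ →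
        ∀ x ∈ Quot.M0 (JZero N) A ⟨ℓ, hℓ⟩ φ, (∃ n : ℕ, p ^ n • x = 0) → x = 0 := sorry

theorem result (N p : ℕ) [NeZero N] (hcomm : ModularCurve.HeckeOperatorsCommuteBar N) :
    letI := ModularCurve.heckeModuleBar N
    ∀ (_ : SMulCommClass (AlgebraicClosure ℚ ≃ₐ[ℚ] AlgebraicClosure ℚ) ModularCurve.HeckeAlg
      (ModularCurve.JZero N)),
      ModularCurve.SpecializationExists (K := ℚ) (L := AlgebraicClosure ℚ) N p
        (ModularCurve.JZero N) := by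
  letI := ModularCurve.heckeModuleBar N
  intro h
  exact Quot.specializationExists_of_Q N p (hstar N p hcomm h)

end Fermat.Agent.S37.Plan
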