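import Fermat.Agent.S37.PDefs
import Fermat.Agent.S37.KT

/-!
# S37, package RED, auxiliary file : calculus of `Lat`, `IsGInt`, `redFun` versus Galois and Hecke

(everything in the namespace `Fermat.Agent.S37.RA`)

* `zero_mem`, `add_mem`, `neg_mem`, `sum_mem`, `mul_mem`, `pow_mem`,
  `one_mem`, `mono`, `Lat.congr` : the lattices `Lat A M c D`,
* `resHom A σ` : the endomorphism of the residue field of `A` induced by `σ ∈ D_A`,
* `isGInt_gal`, `redFun_gal`, `redFun_gal_of_mem_inertia` : Galois action and reduction,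
* `gal_mem` : `σ (Lat c D) ⊆ Lat c (σ D)` for a Galois stable chart `c`,
* `isGInt_heckeMul`, `redFun_heckeMul` : the Kronecker congruence for Gauss integral functions.
-/

set_option autoImplicit false

noncomputable section

namespace Fermat.Agent.S37.RA

open ModularCurve AlgebraicCurve Fermat.Agent.S24 Fermat.Agent.ES

variable {A : ValuationSubring Kb} {M : ℕ}

/-! ### sums and powers of Gauss integral functions -/

theorem isGInt_zero : Gauss.IsGInt A M (0 : FF M) := Gauss.IsGInt.of_isIntA Gauss.isIntA_zero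

theorem isGInt_one : Gauss.IsGInt A M (1 : FF M) := Gauss.IsGInt.of_isIntA IsPrimA.one.1

theorem isGInt_sum {ι : Type*} (s : Finset ι) (f : ι → FF M)
    (h : ∀ i ∈ s, Gauss.IsGInt A M (f i)) : Gauss.IsGInt A M (∑ i ∈ s, f i) := by
  classical
  induction s using Finset.induction_on with
  | empty => rw [Finset.sum_empty]; exact isGInt_zero
  | insert a s ha ih =>
    rw [Finset.sum_insert ha]
    exact (h a (Finset.mem_insert_self a s)).add
      (ih fun i hi => h i (Finset.mem_insert_of_mem hi))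

theorem redFun_sum {ι : Type*} (s : Finset ι) (f : ι → FF M)
    (h : ∀ i ∈ s, Gauss.IsGInt A M (f i)) :
    Gauss.redFun A M (∑ i ∈ s, f i) = ∑ i ∈ s, Gauss.redFun A M (f i) := by
  classical
  induction s using Finset.induction_on with
  | empty => rw [Finset.sum_empty, Finset.sum_empty]; exact Gauss.redFun_zero
  | insert a s ha ih =>
    rw [Finset.sum_insert ha, Finset.sum_insert ha,
      Gauss.redFun_add (h a (Finset.mem_insert_self a s))
        (isGInt_sum s f fun i hi => h i (Finset.mem_insert_of_mem hi)),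
      ih fun i hi => h i (Finset.mem_insert_of_mem hi)]

theorem isGInt_pow {u : FF M} (h : Gauss.IsGInt A M u) (n : ℕ) : Gauss.IsGInt A M (u ^ n) := by
  induction n with
  | zero => rw [pow_zero]; exact isGInt_one
  | succ n ih => rw [pow_succ]; exact ih.mul h

theorem redFun_pow {u : FF M} (h : Gauss.IsGInt A M u) (n : ℕ) :
    Gauss.redFun A M (u ^ n) = Gauss.redFun A M u ^ n := by
  induction n with
  | zero => rw [pow_zero, pow_zero]; exact Gauss.redFun_one
  | succ n ih => rw [pow_succ, pow_succ, Gauss.redFun_mul (isGInt_pow h n) h, ih]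

theorem redFun_neg {u : FF M} (h : Gauss.IsGInt A M u) :
    Gauss.redFun A M (-u) = - Gauss.redFun A M u := by
  have h1 := Gauss.redFun_add h h.neg
  rw [add_neg_cancel, Gauss.redFun_zero] at h1
  exact (neg_eq_of_add_eq_zero_right h1.symm).symm

/-! ### the lattices -/

section lat

variable {c c' : Place Kb (FF M) → Prop} {D E : Divisor Kb (FF M)} {f g : FF M}

theorem isGInt (hf : f ∈ Lat A M c D) : Gauss.IsGInt A M f := hf.1

theorem zero_mem : (0 : FF M) ∈ Lat A M c D := ⟨isGInt_zero, Or.inl rfl⟩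

theorem one_mem : (1 : FF M) ∈ Lat A M c 0 :=
  ⟨isGInt_one, Or.inr fun v _ => by simp⟩

theorem ord_ge (hf : f ∈ Lat A M c D) (hf0 : f ≠ 0) (v : Place Kb (FF M)) (hv : c v) :
    0 ≤ v.ord f + D v := by
  rcases hf.2 with h | h
  · exact absurd h hf0
  · exact h v hv

theorem add_mem (hf : f ∈ Lat A M c D) (hg : g ∈ Lat A M c D) : f + g ∈ Lat A M c D := by
  refine ⟨hf.1.add hg.1, ?_⟩
  by_cases hf0 : f = 0
  · rw [hf0, zero_add]; exact hg.2
  by_cases hg0 : g = 0
  · rw [hg0, add_zero]; exact hf.2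
  by_cases hfg : f + g = 0
  · exact Or.inl hfg
  refine Or.inr fun v hv => ?_
  have h1 := ord_ge hf hf0 v hv
  have h2 := ord_ge hg hg0 v hv
  have h3 := S24.Place.ord_add_ge v hfg
  rcases min_le_iff.1 h3 with h | h <;> omega

theorem neg_mem (hf : f ∈ Lat A M c D) : -f ∈ Lat A M c D := by
  refine ⟨hf.1.neg, ?_⟩
  rcases hf.2 with h | h
  · exact Or.inl (by rw [h, neg_zero])
  · exact Or.inr fun v hv => by rw [S24.Place.ord_neg]; exact h v hv

theorem sum_mem {ι : Type*} (s : Finset ι) (F : ι → FF M) (h : ∀ i ∈ s, F i ∈ Lat A M c D) :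
    ∑ i ∈ s, F i ∈ Lat A M c D := by
  classical
  induction s using Finset.induction_on with
  | empty => rw [Finset.sum_empty]; exact zero_mem
  | insert a s ha ih =>
    rw [Finset.sum_insert ha]
    exact add_mem (h a (Finset.mem_insert_self a s))
      (ih fun i hi => h i (Finset.mem_insert_of_mem hi))

theorem mul_mem (hf : f ∈ Lat A M c D) (hg : g ∈ Lat A M c E) : f * g ∈ Lat A M c (D + E) := by
  refine ⟨hf.1.mul hg.1, ?_⟩
  by_cases hf0 : f = 0
  · exact Or.inl (by rw [hf0, zero_mul])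
  by_cases hg0 : g = 0
  · exact Or.inl (by rw [hg0, mul_zero])
  refine Or.inr fun v hv => ?_
  have h1 := ord_ge hf hf0 v hv
  have h2 := ord_ge hg hg0 v hv
  rw [AlgebraicCurve.Place.ord_mul v hf0 hg0, Finsupp.add_apply]
  omega

theorem pow_mem (hf : f ∈ Lat A M c D) (n : ℕ) : f ^ n ∈ Lat A M c (n • D) := by
  induction n with
  | zero => rw [pow_zero, zero_smul]; exact one_mem
  | succ n ih => rw [pow_succ, succ_nsmul]; exact mul_mem ih hf

theorem mono (h : ∀ v, c' v → c v) (hf : f ∈ Lat A M c D) : f ∈ Lat A M c' D :=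
  ⟨hf.1, hf.2.imp id fun h' v hv => h' v (h v hv)⟩

/-- only the values of the divisor on the chart matter, and the lattice grows with the divisor -/
theorem mono_div (h : ∀ v, c v → D v ≤ E v) (hf : f ∈ Lat A M c D) : f ∈ Lat A M c E :=
  ⟨hf.1, hf.2.imp id fun h' v hv => by have := h' v hv; have := h v hv; omega⟩

theorem of_eq (h : D = E) (hf : f ∈ Lat A M c D) : f ∈ Lat A M c E := h ▸ hf

end lat

theorem pair_mono {c c' : Place Kb (FF M) → Prop} {D : Divisor Kb (FF M)}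
    (h : ∀ v, c' v → c v) (hP : Pair A M c D) : Pair A M c' D := by
  obtain ⟨n, f, f', hf, hf', h1⟩ := hP
  exact ⟨n, f, f', fun k => mono h (hf k), fun k => mono h (hf' k), h1⟩

theorem pair_neg {c : Place Kb (FF M) → Prop} {D : Divisor Kb (FF M)}
    (hP : Pair A M c D) : Pair A M c (-D) := by
  obtain ⟨n, f, f', hf, hf', h1⟩ := hP
  refine ⟨n, f', f, hf', fun k => by rw [neg_neg]; exact hf k, ?_⟩
  rw [← h1]
  congr 1
  exact Finset.sum_congr rfl fun k _ => mul_comm _ _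

theorem triv_mono {c c' : Place Kb (FF M) → Prop} {D : Divisor Kb (FF M)}
    (h : ∀ v, c' v → c v) (hP : Triv A M c D) : Triv A M c' D := by
  obtain ⟨f, hf, h1⟩ := hP
  exact ⟨f, mono h hf, h1⟩

/-! ### Galois action and reduction -/

/-- the endomorphism of the residue field of `A` induced by an element of the decomposition
group. -/
def resHom (A : ValuationSubring Kb) (σ : A.decompositionSubgroup ℚ) :
    Gauss.kA A →+* Gauss.kA A :=
  MulSemiringAction.toRingHom (A.decompositionSubgroup ℚ) (Gauss.kA A) σ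

theorem resHom_residue (σ : A.decompositionSubgroup ℚ) (a : A) :
    resHom A σ (IsLocalRing.residue A a) = IsLocalRing.residue A (σ • a) :=
  (IsLocalRing.ResidueField.residue_smul (G := A.decompositionSubgroup ℚ) σ a).symm

theorem redL_coeffMap {σ : GQ} (hσ : σ ∈ A.decompositionSubgroup ℚ) {x : LaurentSeries Kb}
    (hx : IsIntA A x) :
    redL A (coeffMap (σ : Kb →+* Kb) x) = coeffMap (resHom A ⟨σ, hσ⟩) (redL A x) := by
  ext n
  rw [Gauss.redL_coeff (hx.coeffMap hσ)]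
  have h1 : (coeffMap (resHom A ⟨σ, hσ⟩) (redL A x)).coeff n
      = resHom A ⟨σ, hσ⟩ ((redL A x).coeff n) := coeffMap_coeff _ _ _
  rw [h1, Gauss.redL_coeff hx, resHom_residue]
  rfl

theorem redL_eq_of_congA {x y : LaurentSeries Kb} (hy : IsIntA A y) (h : CongA A x y) :
    redL A x = redL A y := by
  have hx : IsIntA A x := h.isIntA hy
  obtain ⟨a, rfl⟩ := KInt.isIntA_iff.1 hx
  obtain ⟨b, rfl⟩ := KInt.isIntA_iff.1 hy
  rw [Gauss.redL_iota, Gauss.redL_iota]
  exact (KInt.congA_iota_iff a b).1 h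

theorem isGInt_gal {σ : GQ} (hσ : σ ∈ A.decompositionSubgroup ℚ) {u : FF M}
    (hu : Gauss.IsGInt A M u) : Gauss.IsGInt A M (gal M σ u) := by
  obtain ⟨P, Q, hP, hQ, h⟩ := hu
  exact ⟨gal M σ P, gal M σ Q, hP.coeffMap hσ, hQ.coeffMap hσ, by rw [← map_mul, h]⟩

theorem redFun_gal {σ : GQ} (hσ : σ ∈ A.decompositionSubgroup ℚ) {u : FF M}
    (hu : Gauss.IsGInt A M u) :
    Gauss.redFun A M (gal M σ u) = coeffMap (resHom A ⟨σ, hσ⟩) (Gauss.redFun A M u) := by
  obtain ⟨P, Q, hP, hQ, h⟩ := hu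
  rw [Gauss.redFun_eq hP hQ h,
    Gauss.redFun_eq (P := gal M σ P) (Q := gal M σ Q) (hP.coeffMap hσ) (hQ.coeffMap hσ)
      (by rw [← map_mul, h]), map_div₀, ← redL_coeffMap hσ hP, ← redL_coeffMap hσ hQ.1]
  rfl

theorem mem_decomposition_of_mem_inertia {τ : GQ} (hτ : τ ∈ A.inertiaSubgroupIn ℚ) :
    τ ∈ A.decompositionSubgroup ℚ := by
  obtain ⟨t, -, rfl⟩ := hτ
  exact t.2

theorem redFun_gal_of_mem_inertia {τ : GQ} (hτ : τ ∈ A.inertiaSubgroupIn ℚ) {u : FF M}
    (hu : Gauss.IsGInt A M u) : Gauss.redFun A M (gal M τ u) = Gauss.redFun A M u := by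
  have hσ := mem_decomposition_of_mem_inertia hτ
  obtain ⟨P, Q, hP, hQ, h⟩ := hu
  rw [Gauss.redFun_eq hP hQ h,
    Gauss.redFun_eq (P := gal M τ P) (Q := gal M τ Q) (hP.coeffMap hσ) (hQ.coeffMap hσ)
      (by rw [← map_mul, h])]
  have e1 : redL A (gal M τ P : LaurentSeries Kb) = redL A (P : LaurentSeries Kb) :=
    redL_eq_of_congA hP (congA_coeffMap_of_mem_inertia hτ hP)
  have e2 : redL A (gal M τ Q : LaurentSeries Kb) = redL A (Q : LaurentSeries Kb) :=
    redL_eq_of_congA hQ.1 (congA_coeffMap_of_mem_inertia hτ hQ.1)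
  rw [e1, e2]

theorem ord_gal (σ : GQ) (v : Place Kb (FF M)) (f : FF M) :
    v.ord (gal M σ f) = ((ag M σ)⁻¹ • v).ord f := by
  have h := SemilinearAut.ord_smul (ag M σ) ((ag M σ)⁻¹ • v) f
  rw [smul_inv_smul] at h
  exact h

theorem gal_mem {c : Place Kb (FF M) → Prop} (hc : GalStable A M c) {σ : GQ}
    (hσ : σ ∈ A.decompositionSubgroup ℚ) {D : Divisor Kb (FF M)} {f : FF M}
    (hf : f ∈ Lat A M c D) : gal M σ f ∈ Lat A M c (ag M σ • D) := by
  refine ⟨isGInt_gal hσ hf.1, ?_⟩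
  rcases hf.2 with h | h
  · exact Or.inl (by rw [h, map_zero])
  · refine Or.inr fun v hv => ?_
    rw [ord_gal, SemilinearAut.divisor_smul_apply]
    apply h
    have := hc σ⁻¹ (inv_mem hσ) v hv
    have e : ag M σ⁻¹ = (ag M σ)⁻¹ := map_inv _ _
    rwa [e] at this

/-! ### the Kronecker congruence -/

section hecke

variable (ℓ : ℕ) [NeZero M] [Fact ℓ.Prime]

/-- Kronecker congruence for integral (not necessarily primitive) functions. -/
theorem cong_heckeMul_of_isIntA (hℓM : ¬ ℓ ∣ M) (hA : A.LiesOverPrime ℓ) {σ : GQ}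
    (hσ : A.IsFrobeniusAt σ ℓ) {P : FF M} (hP : IsIntA A (P : LaurentSeries Kb)) :
    IsIntA A (heckeMul M ℓ P : LaurentSeries Kb) ∧
      CongA A (heckeMul M ℓ P : LaurentSeries Kb) (KMain.frobHom M ℓ σ P : LaurentSeries Kb) := by
  obtain ⟨ζ, hζ, hform⟩ := exists_qExpand_heckeMul_of M ℓ (Psi_heckeMul M ℓ hℓM)
  exact cong_formal ℓ A hA σ hσ ζ hζ _ _ hP (hform P)

theorem isGInt_heckeMul (hℓM : ¬ ℓ ∣ M) (hA : A.LiesOverPrime ℓ) {σ : GQ}
    (hσ : A.IsFrobeniusAt σ ℓ) {u : FF M} (hu : Gauss.IsGInt A M u) :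
    Gauss.IsGInt A M (heckeMul M ℓ u) := by
  obtain ⟨P, Q, hP, hQ, h⟩ := hu
  have hQ' := KT.cong_heckeMul M ℓ hℓM A hA σ hσ Q hQ
  exact ⟨heckeMul M ℓ P, heckeMul M ℓ Q, (cong_heckeMul_of_isIntA ℓ hℓM hA hσ hP).1,
    hQ'.2.isPrimA hQ'.1, by rw [← map_mul, h]⟩

/-- **Kronecker congruence**: `red (T u) = Fr (red u) * (Fr⁻¹ (red u)) ^ ℓ`. -/
theorem redFun_heckeMul (hℓM : ¬ ℓ ∣ M) (hA : A.LiesOverPrime ℓ) {σ : GQ}
    (hσ : A.IsFrobeniusAt σ ℓ) {u : FF M} (hu : Gauss.IsGInt A M u) :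
    Gauss.redFun A M (heckeMul M ℓ u) =
      Gauss.redFun A M (gal M σ u) * Gauss.redFun A M (gal M σ⁻¹ u) ^ ℓ := by
  have hdec : σ ∈ A.decompositionSubgroup ℚ := hσ.mem_decompositionSubgroup
  have hdec' : σ⁻¹ ∈ A.decompositionSubgroup ℚ := inv_mem hdec
  rw [← redFun_pow (isGInt_gal hdec' hu), ← Gauss.redFun_mul (isGInt_gal hdec hu)
    (isGInt_pow (isGInt_gal hdec' hu) ℓ)]
  obtain ⟨P, Q, hP, hQ, h⟩ := hu
  have hP' := cong_heckeMul_of_isIntA ℓ hℓM hA hσ hP
  have hQ' := KT.cong_heckeMul M ℓ hℓM A hA σ hσ Q hQ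
  have hPi : IsIntA A (KMain.frobHom M ℓ σ P : LaurentSeries Kb) := hP'.2.symm.isIntA hP'.1
  rw [Gauss.redFun_eq (P := heckeMul M ℓ P) (Q := heckeMul M ℓ Q) hP'.1 (hQ'.2.isPrimA hQ'.1)
      (by rw [← map_mul, h]),
    Gauss.redFun_eq (u := gal M σ u * gal M σ⁻¹ u ^ ℓ) (P := KMain.frobHom M ℓ σ P)
      (Q := KMain.frobHom M ℓ σ Q) hPi hQ'.1 (by
        change KMain.frobHom M ℓ σ u * _ = _
        rw [← map_mul, h]),
    redL_eq_of_congA hPi hP'.2, redL_eq_of_congA hQ'.1.1 hQ'.2]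

end hecke

end Fermat.Agent.S37.RA
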