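import Fermat.Agent.S37.ZAbs

/-!
# S37 [ZABS], second form : the unit ideal lemma "upstairs"

`B` a subring of a field `F`, `sm` an additive subgroup of `F` stable under `B` ("the small
elements"), `φ` an automorphism of `F` preserving `B` and `sm`, `L`, `L'` additive subgroups with
`L L' ⊆ B` and `1 ∈ L L' + sm`.  Then `1 ∈ ∑ B φ(x x') φ⁻¹(x x') ^ ℓ + sm`.
-/

set_option autoImplicit false

namespace Fermat.Agent.S37

open ZAbs in
/-- **[ZABS]**, the form used in [Z3]. -/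
theorem exists_comb {F : Type*} [Field F] (B : Subring F) (sm : AddSubgroup F)
    (hsm : ∀ b ∈ B, ∀ x ∈ sm, b * x ∈ sm) (φ : F ≃+* F) (hφB : ∀ x, φ x ∈ B ↔ x ∈ B)
    (hφsm : ∀ x, φ x ∈ sm ↔ x ∈ sm) (L L' : AddSubgroup F)
    (hLL' : ∀ f ∈ L, ∀ f' ∈ L', f * f' ∈ B)
    (hpair : ∃ (n : ℕ) (f f' : Fin n → F), (∀ k, f k ∈ L) ∧ (∀ k, f' k ∈ L') ∧
      ∑ k, f k * f' k - 1 ∈ sm) (ℓ : ℕ) :
    ∃ (r : ℕ) (b g g' : Fin r → F), (∀ j, b j ∈ B) ∧ (∀ j, g j ∈ L) ∧ (∀ j, g' j ∈ L') ∧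
      ∑ j, b j * (φ (g j * g' j) * (φ.symm (g j * g' j)) ^ ℓ) - 1 ∈ sm := by
  classical
  obtain ⟨n, x, x', hx, hx', h1⟩ := hpair
  have hφB' : ∀ x, φ.symm x ∈ B ↔ x ∈ B := fun x => by
    rw [← hφB (φ.symm x), RingEquiv.apply_symm_apply]
  have hφsm' : ∀ x, φ.symm x ∈ sm ↔ x ∈ sm := fun x => by
    rw [← hφsm (φ.symm x), RingEquiv.apply_symm_apply]
  -- the small ideal
  let I0 : Ideal B :=
    { carrier := {b | (b : F) ∈ sm}
      zero_mem' := sm.zero_mem
      add_mem' := fun {a b} ha hb => sm.add_mem ha hb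
      smul_mem' := fun c b hb => hsm c c.2 b hb }
  let FB : B →+* B := ((φ : F →+* F).comp B.subtype).codRestrict B fun y => (hφB y).2 y.2
  let GB : B →+* B := ((φ.symm : F →+* F).comp B.subtype).codRestrict B fun y => (hφB' y).2 y.2
  have hFB0 : ∀ z ∈ I0, FB z ∈ I0 := fun z hz => (hφsm z).2 hz
  have hGB0 : ∀ z ∈ I0, GB z ∈ I0 := fun z hz => (hφsm' z).2 hz
  let gen : Set B := {z | ∃ y ∈ L, ∃ y' ∈ L', (z : F) = φ (y * y') * (φ.symm (y * y')) ^ ℓ}
  have htop : Ideal.span gen ⊔ I0 = ⊤ := by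
    by_contra hne
    obtain ⟨NN, hNN, hle⟩ := Ideal.exists_le_maximal _ hne
    have hprime : NN.IsPrime := hNN.isPrime
    let P : (B →+* B) → AddSubgroup F := fun ψ =>
      ((NN.comap ψ).toAddSubgroup).map B.subtype.toAddMonoidHom
    have hP : ∀ (ψ : B →+* B) (z : B), (z : F) ∈ P ψ ↔ ψ z ∈ NN := by
      intro ψ z
      constructor
      · rintro ⟨w, hw, hwz⟩
        have : w = z := Subtype.ext hwz
        rw [← this]
        exact hw
      · intro hz
        exact ⟨z, hz, rfl⟩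
    have hor : ∀ y ∈ L, ∀ y' ∈ L', y * y' ∈ P FB ∨ y * y' ∈ P GB := by
      intro y hy y' hy'
      set z : B := ⟨y * y', hLL' y hy y' hy'⟩ with hz
      have hmem : FB z * GB z ^ ℓ ∈ NN :=
        hle (Ideal.mem_sup_left (Ideal.subset_span ⟨y, hy, y', hy', rfl⟩))
      rcases hprime.mem_or_mem hmem with h | h
      · exact Or.inl ((hP FB z).2 h)
      · exact Or.inr ((hP GB z).2 (hprime.mem_of_pow_mem ℓ h))
    have hsB : ∑ k, x k * x' k ∈ B := B.sum_mem fun k _ => hLL' _ (hx k) _ (hx' k)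
    have hone : ∀ ψ : B →+* B, (∀ z ∈ I0, ψ z ∈ I0) →
        (∀ y ∈ L, ∀ y' ∈ L', y * y' ∈ P ψ) → False := by
      intro ψ hψ0 hall
      have h2 : ∑ k, x k * x' k ∈ P ψ := (P ψ).sum_mem fun k _ => hall _ (hx k) _ (hx' k)
      have h3 : ψ ⟨_, hsB⟩ ∈ NN := (hP ψ ⟨_, hsB⟩).1 h2
      have h4 : (⟨_, hsB⟩ - 1 : B) ∈ I0 := h1
      have h5 : ψ (⟨_, hsB⟩ - 1 : B) ∈ NN := hle (Ideal.mem_sup_right (hψ0 _ h4))
      have h6 : (1 : B) ∈ NN := by
        have := NN.sub_mem h3 h5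
        rwa [map_sub, map_one, sub_sub_cancel] at this
      exact hprime.ne_top ((Ideal.eq_top_iff_one _).2 h6)
    rcases all_mem_or_all_mem L L' (P FB) (P GB) hor with h | h
    · exact hone FB hFB0 h
    · exact hone GB hGB0 h
  have h1mem : (1 : B) ∈ Ideal.span gen ⊔ I0 := by rw [htop]; exact Submodule.mem_top
  obtain ⟨a, ha, i0, hi0, hai⟩ := Submodule.mem_sup.1 h1mem
  obtain ⟨c, hsupp, hsum⟩ := (Submodule.mem_span_set (R := B) (M := B)).1 ha
  have hch : ∀ z : c.support, ∃ y ∈ L, ∃ y' ∈ L',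
      ((z : B) : F) = φ (y * y') * (φ.symm (y * y')) ^ ℓ := fun z => hsupp z.2
  choose y hy y' hy' hz using hch
  let e := (Finset.equivFin c.support).symm
  refine ⟨c.support.card, fun j => ((c (e j) : B) : F), fun j => y (e j), fun j => y' (e j),
    fun j => (c (e j)).2, fun j => hy _, fun j => hy' _, ?_⟩
  have h3 : ∑ j, ((c (e j) : B) : F) *
      (φ (y (e j) * y' (e j)) * (φ.symm (y (e j) * y' (e j))) ^ ℓ)
      = ∑ z : c.support, ((c z : B) : F) * ((z : B) : F) := by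
    rw [← Equiv.sum_comp e]
    exact Finset.sum_congr rfl fun j _ => by rw [hz]
  rw [h3]
  have h4 := congrArg (Subtype.val : B → F) hsum
  rw [Finsupp.sum] at h4
  simp only [smul_eq_mul] at h4
  rw [← Finset.sum_coe_sort c.support] at h4
  have h5 : ∑ z : c.support, ((c z : B) : F) * ((z : B) : F) = (a : F) := by simpa using h4
  rw [h5]
  have h6 : (a : F) - 1 = -(i0 : F) := by
    have := congrArg (Subtype.val : B → F) hai
    simp only [Subring.coe_add, Subring.coe_one] at this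
    rw [← this]
    ring
  rw [h6]
  exact sm.neg_mem hi0

end Fermat.Agent.S37
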